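import Mathlib.NumberTheory.ModularForms.CongruenceSubgroups
import Mathlib.Data.Nat.Squarefree
import Mathlib.Algebra.Field.ZMod
import Mathlib.NumberTheory.Divisors
import Fermat.Prelude.Def_ModularCurve_X0

/-!
# The index of `Γ₀(N)` in `SL(2, ℤ)` is the Dedekind psi function

We prove `(Gamma0 N).index = ModularCurve.dedekindPsi N` by induction along the tower
`Γ₀(M p) ≤ Γ₀(M)`, computing `[Γ₀(M) : Γ₀(M p)] = p` (if `p ∣ M`) or `p + 1` (if `p ∤ M`).
-/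

set_option autoImplicit false

namespace Fermat.Agent.H57

open CongruenceSubgroup Matrix.SpecialLinearGroup Matrix
open scoped MatrixGroups

/-- A function on a group which separates exactly the left cosets of `H` and is surjective
computes the index of `H`. -/
lemma index_eq_card_of_surjective {G X : Type*} [Group G] (H : Subgroup G) (f : G → X)
    (hf : ∀ a b, f a = f b ↔ a⁻¹ * b ∈ H) (hsurj : Function.Surjective f) :
    H.index = Nat.card X := by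
  rw [Subgroup.index]
  apply Nat.card_congr
  refine Equiv.ofBijective
    (Quotient.lift f (fun a b h => (hf a b).mpr (QuotientGroup.leftRel_apply.mp h))) ⟨?_, ?_⟩
  · intro x y
    induction x using Quotient.inductionOn
    induction y using Quotient.inductionOn
    intro h
    exact Quotient.sound (QuotientGroup.leftRel_apply.mpr ((hf _ _).mp h))
  · intro x
    obtain ⟨g, rfl⟩ := hsurj x
    exact ⟨Quotient.mk _ g, rfl⟩

/-- Lower-left entry of `γ⁻¹ * γ'`. -/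
lemma inv_mul_apply_one_zero (γ γ' : SL(2, ℤ)) :
    (γ⁻¹ * γ') 1 0 = γ 0 0 * γ' 1 0 - γ 1 0 * γ' 0 0 := by
  simp only [coe_mul, coe_inv, Matrix.mul_apply, Fin.sum_univ_two, Matrix.adjugate_fin_two,
    Matrix.of_apply, Matrix.cons_val', Matrix.cons_val_zero, Matrix.cons_val_one,
    Matrix.cons_val_fin_one]
  ring

lemma det_eq_one' (γ : SL(2, ℤ)) : γ 0 0 * γ 1 1 - γ 0 1 * γ 1 0 = 1 := by
  have := γ.det_coe
  rw [Matrix.det_fin_two] at this
  exact this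

lemma Gamma0_mem_iff_dvd {N : ℕ} [NeZero N] {γ : SL(2, ℤ)} :
    γ ∈ Gamma0 N ↔ (N : ℤ) ∣ γ 1 0 := by
  rw [Gamma0_mem, ZMod.intCast_zmod_eq_zero_iff_dvd]

lemma Gamma0_le_of_dvd {M N : ℕ} [NeZero M] [NeZero N] (h : M ∣ N) : Gamma0 N ≤ Gamma0 M := by
  intro γ hγ
  rw [Gamma0_mem_iff_dvd] at hγ ⊢
  exact (Int.natCast_dvd_natCast.mpr h).trans hγ

/-- The "reduced" lower-left entry `c / M`. -/
def c1 (M : ℕ) (γ : SL(2, ℤ)) : ℤ := γ 1 0 / (M : ℤ)

lemma c1_spec {M : ℕ} [NeZero M] {γ : SL(2, ℤ)} (hγ : γ ∈ Gamma0 M) :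
    (M : ℤ) * c1 M γ = γ 1 0 :=
  Int.mul_ediv_cancel' (Gamma0_mem_iff_dvd.mp hγ)

/-- Key criterion: for `γ, γ' ∈ Γ₀(M)`, `γ⁻¹ γ' ∈ Γ₀(M p)` iff the cross product of
`(a, c/M)` and `(a', c'/M)` vanishes mod `p`. -/
lemma inv_mul_mem_Gamma0_mul_iff {M p : ℕ} [NeZero M] [NeZero p] {γ γ' : SL(2, ℤ)}
    (hγ : γ ∈ Gamma0 M) (hγ' : γ' ∈ Gamma0 M) :
    γ⁻¹ * γ' ∈ Gamma0 (M * p) ↔
      ((γ 0 0 : ℤ) : ZMod p) * ((c1 M γ' : ℤ) : ZMod p)
        - ((c1 M γ : ℤ) : ZMod p) * ((γ' 0 0 : ℤ) : ZMod p) = 0 := by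
  have hM : (M : ℤ) ≠ 0 := by exact_mod_cast NeZero.ne M
  have : NeZero (M * p) := ⟨mul_ne_zero (NeZero.ne M) (NeZero.ne p)⟩
  rw [Gamma0_mem_iff_dvd, inv_mul_apply_one_zero, ← c1_spec hγ, ← c1_spec hγ']
  have e : γ 0 0 * ((M : ℤ) * c1 M γ') - (M : ℤ) * c1 M γ * γ' 0 0
      = (M : ℤ) * (γ 0 0 * c1 M γ' - c1 M γ * γ' 0 0) := by ring
  rw [e, Nat.cast_mul, mul_dvd_mul_iff_left hM, ← ZMod.intCast_zmod_eq_zero_iff_dvd]
  push_cast
  rfl

/-- The vector `(a, c/M)` is nonzero mod `p`. -/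
lemma a_or_c1_ne_zero {M p : ℕ} [NeZero M] (hp : p.Prime) {γ : SL(2, ℤ)} (hγ : γ ∈ Gamma0 M) :
    ((γ 0 0 : ℤ) : ZMod p) ≠ 0 ∨ ((c1 M γ : ℤ) : ZMod p) ≠ 0 := by
  have : NeZero p := ⟨hp.ne_zero⟩
  by_contra h
  push Not at h
  obtain ⟨h1, h2⟩ := h
  rw [ZMod.intCast_zmod_eq_zero_iff_dvd] at h1 h2
  have hdet := det_eq_one' γ
  rw [← c1_spec hγ] at hdet
  have : (p : ℤ) ∣ 1 := by
    rw [← hdet]
    exact dvd_sub (Dvd.dvd.mul_right h1 _) (Dvd.dvd.mul_left (Dvd.dvd.mul_left h2 _) _)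
  have hp1 : (p : ℤ) = 1 ∨ (p : ℤ) = -1 := Int.isUnit_iff.mp (isUnit_of_dvd_one this)
  have := hp.two_le
  omega

/-- If `p ∣ M`, then `a` is a unit mod `p`. -/
lemma a_ne_zero_of_dvd {M p : ℕ} [NeZero M] (hp : p.Prime) (hpM : p ∣ M) {γ : SL(2, ℤ)}
    (hγ : γ ∈ Gamma0 M) : ((γ 0 0 : ℤ) : ZMod p) ≠ 0 := by
  have : NeZero p := ⟨hp.ne_zero⟩
  intro h1
  rw [ZMod.intCast_zmod_eq_zero_iff_dvd] at h1
  have hc : (p : ℤ) ∣ γ 1 0 :=
    (Int.natCast_dvd_natCast.mpr hpM).trans (Gamma0_mem_iff_dvd.mp hγ)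
  have hdet := det_eq_one' γ
  have : (p : ℤ) ∣ 1 := by
    rw [← hdet]
    exact dvd_sub (Dvd.dvd.mul_right h1 _) (Dvd.dvd.mul_left hc _)
  have hp1 : (p : ℤ) = 1 ∨ (p : ℤ) = -1 := Int.isUnit_iff.mp (isUnit_of_dvd_one this)
  have := hp.two_le
  omega


/-- An element of `SL(2, ℤ)` from its entries. -/
def mkSL (a b c d : ℤ) (h : a * d - b * c = 1) : SL(2, ℤ) :=
  ⟨!![a, b; c, d], by rw [Matrix.det_fin_two_of]; exact h⟩

@[simp] lemma mkSL_apply_zero_zero (a b c d : ℤ) (h : a * d - b * c = 1) :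
    mkSL a b c d h 0 0 = a := rfl
@[simp] lemma mkSL_apply_one_zero (a b c d : ℤ) (h : a * d - b * c = 1) :
    mkSL a b c d h 1 0 = c := rfl

/-- The lower unipotent element `[[1, 0], [M * j, 1]]`. -/
def lowerUnip (c : ℤ) : SL(2, ℤ) :=
  ⟨!![1, 0; c, 1], by simp [Matrix.det_fin_two]⟩

@[simp] lemma lowerUnip_apply_zero_zero (c : ℤ) : lowerUnip c 0 0 = 1 := rfl
@[simp] lemma lowerUnip_apply_one_zero (c : ℤ) : lowerUnip c 1 0 = c := rfl

lemma lowerUnip_mem {M : ℕ} [NeZero M] (j : ℤ) : lowerUnip ((M : ℤ) * j) ∈ Gamma0 M := by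
  rw [Gamma0_mem_iff_dvd, lowerUnip_apply_one_zero]
  exact dvd_mul_right _ _

lemma c1_lowerUnip {M : ℕ} [NeZero M] (j : ℤ) : c1 M (lowerUnip ((M : ℤ) * j)) = j := by
  have hM : (M : ℤ) ≠ 0 := by exact_mod_cast NeZero.ne M
  rw [c1, lowerUnip_apply_one_zero, Int.mul_ediv_cancel_left _ hM]

/-- Case `p ∣ M`: the index of `Γ₀(M p)` in `Γ₀(M)` is `p`. -/
lemma relIndex_Gamma0_mul_of_dvd {M p : ℕ} [NeZero M] (hp : p.Prime) (hpM : p ∣ M) :
    (Gamma0 (M * p)).relIndex (Gamma0 M) = p := by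
  have : NeZero p := ⟨hp.ne_zero⟩
  have : Fact p.Prime := ⟨hp⟩
  rw [Subgroup.relIndex]
  let f : ↥(Gamma0 M) → ZMod p := fun γ =>
    ((c1 M γ.1 : ℤ) : ZMod p) / (((γ.1 0 0 : ℤ) : ZMod p))
  have key := index_eq_card_of_surjective ((Gamma0 (M * p)).subgroupOf (Gamma0 M)) f ?_ ?_
  · rw [key, Nat.card_eq_fintype_card, ZMod.card]
  · intro γ γ'
    rw [Subgroup.mem_subgroupOf]
    have h := inv_mul_mem_Gamma0_mul_iff (p := p) γ.2 γ'.2
    have e : ((γ⁻¹ * γ' : ↥(Gamma0 M)) : SL(2, ℤ)) = (γ : SL(2, ℤ))⁻¹ * (γ' : SL(2, ℤ)) := rfl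
    rw [e, h]
    have ha := a_ne_zero_of_dvd hp hpM γ.2
    have ha' := a_ne_zero_of_dvd hp hpM γ'.2
    show ((c1 M γ.1 : ℤ) : ZMod p) / (((γ.1 0 0 : ℤ) : ZMod p))
      = ((c1 M γ'.1 : ℤ) : ZMod p) / (((γ'.1 0 0 : ℤ) : ZMod p)) ↔ _
    rw [div_eq_div_iff ha ha', sub_eq_zero]
    constructor
    · intro h1
      linear_combination -h1
    · intro h1
      linear_combination -h1
  · intro j
    refine ⟨⟨lowerUnip ((M : ℤ) * (j.val : ℤ)), lowerUnip_mem _⟩, ?_⟩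
    show ((c1 M (lowerUnip ((M : ℤ) * (j.val : ℤ))) : ℤ) : ZMod p)
      / (((lowerUnip ((M : ℤ) * (j.val : ℤ)) 0 0 : ℤ) : ZMod p)) = j
    rw [c1_lowerUnip, lowerUnip_apply_zero_zero]
    simp

/-- Case `p ∤ M`: the index of `Γ₀(M p)` in `Γ₀(M)` is `p + 1`. -/
lemma relIndex_Gamma0_mul_of_not_dvd {M p : ℕ} [NeZero M] (hp : p.Prime) (hpM : ¬ p ∣ M) :
    (Gamma0 (M * p)).relIndex (Gamma0 M) = p + 1 := by
  have : NeZero p := ⟨hp.ne_zero⟩
  have : Fact p.Prime := ⟨hp⟩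
  rw [Subgroup.relIndex]
  let f : ↥(Gamma0 M) → Option (ZMod p) := fun γ =>
    if ((γ.1 0 0 : ℤ) : ZMod p) = 0 then none
    else some (((c1 M γ.1 : ℤ) : ZMod p) / (((γ.1 0 0 : ℤ) : ZMod p)))
  have hf : ∀ γ : ↥(Gamma0 M), f γ = if ((γ.1 0 0 : ℤ) : ZMod p) = 0 then none
    else some (((c1 M γ.1 : ℤ) : ZMod p) / (((γ.1 0 0 : ℤ) : ZMod p))) := fun _ => rfl
  have key := index_eq_card_of_surjective ((Gamma0 (M * p)).subgroupOf (Gamma0 M)) f ?_ ?_
  · rw [key, Nat.card_eq_fintype_card, Fintype.card_option, ZMod.card]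
  · intro γ γ'
    rw [Subgroup.mem_subgroupOf]
    have h := inv_mul_mem_Gamma0_mul_iff (p := p) γ.2 γ'.2
    have e : ((γ⁻¹ * γ' : ↥(Gamma0 M)) : SL(2, ℤ)) = (γ : SL(2, ℤ))⁻¹ * (γ' : SL(2, ℤ)) := rfl
    rw [e, h, hf, hf]
    have hv := a_or_c1_ne_zero hp γ.2
    have hv' := a_or_c1_ne_zero hp γ'.2
    by_cases ha : ((γ.1 0 0 : ℤ) : ZMod p) = 0
    · by_cases ha' : ((γ'.1 0 0 : ℤ) : ZMod p) = 0
      · rw [if_pos ha, if_pos ha', ha, ha']
        simp
      · rw [if_pos ha, if_neg ha', ha]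
        have hc : ((c1 M γ.1 : ℤ) : ZMod p) ≠ 0 := hv.resolve_left (fun h => h ha)
        simp only [zero_mul, zero_sub, neg_eq_zero, reduceCtorEq, false_iff]
        exact mul_ne_zero hc ha'
    · by_cases ha' : ((γ'.1 0 0 : ℤ) : ZMod p) = 0
      · rw [if_neg ha, if_pos ha', ha']
        have hc' : ((c1 M γ'.1 : ℤ) : ZMod p) ≠ 0 := hv'.resolve_left (fun h => h ha')
        simp only [mul_zero, sub_zero, reduceCtorEq, false_iff]
        exact mul_ne_zero ha hc'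
      · rw [if_neg ha, if_neg ha', Option.some_inj, div_eq_div_iff ha ha', sub_eq_zero]
        constructor
        · intro h1
          linear_combination -h1
        · intro h1
          linear_combination -h1
  · intro x
    cases x with
    | none =>
      -- a matrix `[[p, b], [M, d]]` in `Γ₀(M)`
      have hcop : IsCoprime (p : ℤ) (M : ℤ) := by
        rw [Int.isCoprime_iff_gcd_eq_one, Int.gcd_natCast_natCast]
        exact (Nat.Prime.coprime_iff_not_dvd hp).mpr hpM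
      obtain ⟨u, v, huv⟩ := hcop
      have hdet : (p : ℤ) * u - (-v) * (M : ℤ) = 1 := by linarith
      have hmem : mkSL (p : ℤ) (-v) (M : ℤ) u hdet ∈ Gamma0 M := by
        rw [Gamma0_mem_iff_dvd, mkSL_apply_one_zero]
      refine ⟨⟨mkSL (p : ℤ) (-v) (M : ℤ) u hdet, hmem⟩, ?_⟩
      rw [hf]
      have : (((mkSL (p : ℤ) (-v) (M : ℤ) u hdet) 0 0 : ℤ) : ZMod p) = 0 := by
        rw [mkSL_apply_zero_zero]
        simp
      rw [if_pos this]
    | some j =>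
      refine ⟨⟨lowerUnip ((M : ℤ) * (j.val : ℤ)), lowerUnip_mem _⟩, ?_⟩
      rw [hf]
      have h1 : (((lowerUnip ((M : ℤ) * (j.val : ℤ)) 0 0 : ℤ)) : ZMod p) ≠ 0 := by
        rw [lowerUnip_apply_zero_zero]
        simp
      rw [if_neg h1]
      show some (((c1 M (lowerUnip ((M : ℤ) * (j.val : ℤ))) : ℤ) : ZMod p)
        / (((lowerUnip ((M : ℤ) * (j.val : ℤ)) 0 0 : ℤ) : ZMod p))) = some j
      rw [c1_lowerUnip, lowerUnip_apply_zero_zero]
      simp

/-! ### The Dedekind psi function -/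

open ModularCurve

lemma dvd_of_squarefree_of_dvd_mul_prime {M p d : ℕ} (hp : p.Prime) (hpM : p ∣ M)
    (hd : Squarefree d) (hdvd : d ∣ M * p) : d ∣ M := by
  by_cases hpd : p ∣ d
  · obtain ⟨e, rfl⟩ := hpd
    have he : e ∣ M := by
      rw [mul_comm M p] at hdvd
      exact Nat.dvd_of_mul_dvd_mul_left hp.pos hdvd
    have hpe : ¬ p ∣ e := by
      intro h
      obtain ⟨e', rfl⟩ := h
      have : p * p ∣ p * (p * e') := ⟨e', by ring⟩
      exact hp.not_isUnit (hd p this)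
    have hcop : Nat.Coprime p e := (Nat.Prime.coprime_iff_not_dvd hp).mpr hpe
    exact hcop.mul_dvd_of_dvd_of_dvd hpM he
  · have hcop : Nat.Coprime d p := ((Nat.Prime.coprime_iff_not_dvd hp).mpr hpd).symm
    exact hcop.dvd_of_dvd_mul_right hdvd

lemma dedekindPsi_mul_prime_of_dvd {M p : ℕ} (hM : M ≠ 0) (hp : p.Prime) (hpM : p ∣ M) :
    dedekindPsi (M * p) = p * dedekindPsi M := by
  have hset : (M * p).divisors.filter Squarefree = M.divisors.filter Squarefree := by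
    ext d
    simp only [Finset.mem_filter, Nat.mem_divisors]
    constructor
    · rintro ⟨⟨h1, -⟩, h2⟩
      exact ⟨⟨dvd_of_squarefree_of_dvd_mul_prime hp hpM h2 h1, hM⟩, h2⟩
    · rintro ⟨⟨h1, -⟩, h2⟩
      exact ⟨⟨Dvd.dvd.mul_right h1 p, mul_ne_zero hM hp.ne_zero⟩, h2⟩
  rw [dedekindPsi, dedekindPsi, hset, Finset.mul_sum]
  refine Finset.sum_congr rfl (fun d hd => ?_)
  have hdM : d ∣ M := (Nat.mem_divisors.mp (Finset.mem_filter.mp hd).1).1
  rw [mul_comm M p, Nat.mul_div_assoc p hdM]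

lemma dedekindPsi_mul_prime_of_not_dvd {M p : ℕ} (hM : M ≠ 0) (hp : p.Prime) (hpM : ¬ p ∣ M) :
    dedekindPsi (M * p) = (p + 1) * dedekindPsi M := by
  have hset : (M * p).divisors.filter Squarefree =
      M.divisors.filter Squarefree ∪ (M.divisors.filter Squarefree).image (· * p) := by
    ext d
    simp only [Finset.mem_filter, Nat.mem_divisors, Finset.mem_union, Finset.mem_image]
    constructor
    · rintro ⟨⟨h1, -⟩, h2⟩
      by_cases hpd : p ∣ d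
      · right
        obtain ⟨e, rfl⟩ := hpd
        have he : e ∣ M := by
          rw [mul_comm M p] at h1
          exact Nat.dvd_of_mul_dvd_mul_left hp.pos h1
        exact ⟨e, ⟨⟨he, hM⟩, h2.of_mul_right⟩, mul_comm e p⟩
      · left
        have hcop : Nat.Coprime d p := ((Nat.Prime.coprime_iff_not_dvd hp).mpr hpd).symm
        exact ⟨⟨hcop.dvd_of_dvd_mul_right h1, hM⟩, h2⟩
    · rintro (⟨⟨h1, -⟩, h2⟩ | ⟨e, ⟨⟨h1, -⟩, h2⟩, rfl⟩)
      · exact ⟨⟨Dvd.dvd.mul_right h1 p, mul_ne_zero hM hp.ne_zero⟩, h2⟩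
      · refine ⟨⟨Nat.mul_dvd_mul_right h1 p, mul_ne_zero hM hp.ne_zero⟩, ?_⟩
        have hpe : ¬ p ∣ e := fun h => hpM (h.trans h1)
        have hcop : Nat.Coprime e p := ((Nat.Prime.coprime_iff_not_dvd hp).mpr hpe).symm
        exact (Nat.squarefree_mul hcop).mpr ⟨h2, hp.squarefree⟩
  have hdisj : Disjoint (M.divisors.filter Squarefree)
      ((M.divisors.filter Squarefree).image (· * p)) := by
    rw [Finset.disjoint_left]
    intro d hd hd'
    simp only [Finset.mem_filter, Nat.mem_divisors, Finset.mem_image] at hd hd'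
    obtain ⟨e, -, rfl⟩ := hd'
    exact hpM ((Dvd.intro_left e rfl).trans hd.1.1)
  have hinj : Set.InjOn (· * p) ((M.divisors.filter Squarefree : Finset ℕ) : Set ℕ) := by
    intro a _ b _ hab
    exact Nat.eq_of_mul_eq_mul_right hp.pos hab
  rw [dedekindPsi, dedekindPsi, hset, Finset.sum_union hdisj, Finset.sum_image hinj, add_mul,
    one_mul, Finset.mul_sum]
  congr 1
  · refine Finset.sum_congr rfl (fun d hd => ?_)
    have hdM : d ∣ M := (Nat.mem_divisors.mp (Finset.mem_filter.mp hd).1).1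
    rw [mul_comm M p, Nat.mul_div_assoc p hdM]
  · refine Finset.sum_congr rfl (fun d _ => ?_)
    exact Nat.mul_div_mul_right M d hp.pos

/-! ### The index formula -/

lemma Gamma0_one_eq_top : Gamma0 1 = ⊤ := by
  ext γ
  simp only [Gamma0_mem, Subgroup.mem_top, iff_true]
  exact Subsingleton.elim _ _

lemma index_Gamma0_mul_prime {M p : ℕ} [NeZero M] (hp : p.Prime)
    (ih : (Gamma0 M).index = dedekindPsi M) :
    (Gamma0 (M * p)).index = dedekindPsi (M * p) := by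
  have hM : M ≠ 0 := NeZero.ne M
  have : NeZero (M * p) := ⟨mul_ne_zero hM hp.ne_zero⟩
  have hle : Gamma0 (M * p) ≤ Gamma0 M := Gamma0_le_of_dvd (Dvd.intro p rfl)
  rw [← Subgroup.relIndex_mul_index hle, ih]
  by_cases hpM : p ∣ M
  · rw [relIndex_Gamma0_mul_of_dvd hp hpM, dedekindPsi_mul_prime_of_dvd hM hp hpM]
  · rw [relIndex_Gamma0_mul_of_not_dvd hp hpM, dedekindPsi_mul_prime_of_not_dvd hM hp hpM]

theorem index_Gamma0_aux : ∀ N : ℕ, N ≠ 0 → (Gamma0 N).index = dedekindPsi N := by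
  intro N
  induction N using Nat.strong_induction_on with
  | _ N ih =>
    intro hN
    by_cases h1 : N = 1
    · subst h1
      rw [Gamma0_one_eq_top, Subgroup.index_top, dedekindPsi_one]
    · have hp : (N.minFac).Prime := Nat.minFac_prime h1
      obtain ⟨M, hMeq⟩ := Nat.minFac_dvd N
      have hM0 : M ≠ 0 := by
        rintro rfl
        rw [mul_zero] at hMeq
        exact hN hMeq
      have hlt : M < N := by
        rw [hMeq]
        exact lt_mul_of_one_lt_left (Nat.pos_of_ne_zero hM0) hp.one_lt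
      have : NeZero M := ⟨hM0⟩
      have key := index_Gamma0_mul_prime (M := M) hp (ih M hlt hM0)
      rw [mul_comm] at key
      rw [← hMeq] at key
      exact key

/-- **DIM-1.** The index of `Γ₀(N)` in `SL(2, ℤ)` is `ψ(N)`. -/
theorem index_Gamma0 (N : ℕ) [NeZero N] : (Gamma0 N).index = ModularCurve.dedekindPsi N :=
  index_Gamma0_aux N (NeZero.ne N)

end Fermat.Agent.H57
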