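import Mathlib
import Fermat.Prelude.Def_ModularCurve_X0ModL

/-!
# IG-D2desc: descent of the degree `[k(j(q^d) : d ∣ N) : k(j)]` along a field extension `k / k₀`

`relrank_descent_of_isAlgebraic` : if `k / k₀` is algebraic then
`[k(j(q^d)) : k(j)] ≤ [k₀(j(q^d)) : k₀(j)]`.

`relrank_descent_of_finite` : the same if the right hand side is finite.
-/

set_option autoImplicit false

open ModularCurve

namespace Fermat.Agent.H57

section General

variable {L : Type*} [Field L]

/-- Compositum bound for subfields: if `D ≤ E`, `D ≤ A ≤ F ≤ A ⊔ E` and one of `A / D`, `E / D` is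
algebraic, then `[F : A] ≤ [E : D]`. -/
theorem subfield_relrank_le_of_isAlgebraic (D E A F : Subfield L)
    (hDE : D ≤ E) (hDA : D ≤ A) (hAF : A ≤ F) (hF : F ≤ A ⊔ E)
    (halg : Algebra.IsAlgebraic D (Subfield.extendScalars hDA) ∨
      Algebra.IsAlgebraic D (Subfield.extendScalars hDE)) :
    Subfield.relrank A F ≤ Subfield.relrank D E := by
  rw [Subfield.relrank_eq_rank_of_le hAF, Subfield.relrank_eq_rank_of_le hDE]
  have key := IntermediateField.adjoin_rank_le_of_isAlgebraic (F := D) (K := L)
    (Subfield.extendScalars hDA) (Subfield.extendScalars hDE) halg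
  refine le_trans ?_ key
  have hsub : ∀ x : L, x ∈ Subfield.extendScalars hAF →
      x ∈ IntermediateField.adjoin (Subfield.extendScalars hDA)
        ((Subfield.extendScalars hDE : IntermediateField D L) : Set L) := by
    intro x hx
    have hx' : x ∈ A ⊔ E := hF hx
    have hle : A ⊔ E ≤ (IntermediateField.adjoin (Subfield.extendScalars hDA)
        ((Subfield.extendScalars hDE : IntermediateField D L) : Set L)).toSubfield := by
      refine sup_le ?_ ?_
      · intro a ha
        exact (IntermediateField.adjoin (Subfield.extendScalars hDA)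
          ((Subfield.extendScalars hDE : IntermediateField D L) : Set L)).algebraMap_mem
            (⟨a, ha⟩ : Subfield.extendScalars hDA)
      · intro e he
        exact IntermediateField.subset_adjoin _ _ he
    exact hle hx'
  refine rank_le_of_surjective_injective
    (fun a : A => (⟨a.1, a.2⟩ : Subfield.extendScalars hDA))
    ({ toFun := fun x => ⟨x.1, hsub x.1 x.2⟩
       map_zero' := rfl
       map_add' := fun _ _ => rfl } :
      (Subfield.extendScalars hAF) →+
        IntermediateField.adjoin (Subfield.extendScalars hDA)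
          ((Subfield.extendScalars hDE : IntermediateField D L) : Set L))
    (fun b => ⟨⟨b.1, b.2⟩, rfl⟩)
    (fun x y h => Subtype.ext (congrArg Subtype.val h :))
    (fun r m => rfl)

end General

section Descent

variable (k₀ k : Type) [Field k₀] [Field k] [Algebra k₀ k]

/-- the coefficient extension map `k₀((q)) → k((q))` -/
noncomputable abbrev cMap : LaurentSeries k₀ →+* LaurentSeries k := coeffMap (algebraMap k₀ k)

theorem cMap_algebraMap (x : k₀) :
    cMap k₀ k (algebraMap k₀ (LaurentSeries k₀) x) =
      algebraMap k (LaurentSeries k) (algebraMap k₀ k x) := by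
  rw [algebraMap_laurentSeries_eq_single, algebraMap_laurentSeries_eq_single, coeffMap_single]

theorem cMap_jqModC : cMap k₀ k (jqModC k₀) = jqModC k := coeffMap_jqModC _

theorem cMap_qExpand (d : ℕ) [NeZero d] (x : LaurentSeries k₀) :
    cMap k₀ k (qExpand k₀ d x) = qExpand k d (cMap k₀ k x) := coeffMap_qExpand _ d x

/-- image of `k₀(j)` in `k((q))` -/
noncomputable abbrev subD : Subfield (LaurentSeries k) :=
  (IntermediateField.adjoin k₀ {jqModC k₀}).toSubfield.map (cMap k₀ k)

/-- image of `k₀(j(q^d) : d ∣ N)` in `k((q))` -/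
noncomputable abbrev subE (N : ℕ) : Subfield (LaurentSeries k) :=
  (modularFunctionFieldFullC k₀ N).toSubfield.map (cMap k₀ k)

theorem subD_le_subE (N : ℕ) : subD k₀ k ≤ subE k₀ k N := by
  have h : IntermediateField.adjoin k₀ {jqModC k₀} ≤ modularFunctionFieldFullC k₀ N := by
    rw [IntermediateField.adjoin_le_iff]
    rintro x rfl
    exact jqModC_mem_full k₀ N
  rintro _ ⟨y, hy, rfl⟩
  exact ⟨y, h hy, rfl⟩

theorem jqModC_mem_subD : jqModC k ∈ subD k₀ k :=
  ⟨jqModC k₀, IntermediateField.subset_adjoin k₀ _ rfl, cMap_jqModC k₀ k⟩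

theorem algebraMap_mem_subD (x : k₀) :
    algebraMap k (LaurentSeries k) (algebraMap k₀ k x) ∈ subD k₀ k :=
  ⟨algebraMap k₀ (LaurentSeries k₀) x,
    (IntermediateField.adjoin k₀ {jqModC k₀}).algebraMap_mem x, cMap_algebraMap k₀ k x⟩

theorem subD_le : subD k₀ k ≤ (IntermediateField.adjoin k {jqModC k}).toSubfield := by
  rw [subD, IntermediateField.adjoin_toSubfield, RingHom.map_field_closure, Subfield.closure_le]
  rintro _ ⟨y, hy | hy, rfl⟩
  · obtain ⟨x, rfl⟩ := hy
    rw [cMap_algebraMap]
    exact (IntermediateField.adjoin k {jqModC k}).algebraMap_mem _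
  · rw [Set.mem_singleton_iff] at hy
    subst hy
    rw [cMap_jqModC]
    exact IntermediateField.subset_adjoin k _ rfl

theorem adjoin_jqModC_le (N : ℕ) :
    (IntermediateField.adjoin k {jqModC k}).toSubfield ≤
      (modularFunctionFieldFullC k N).toSubfield := by
  have h : IntermediateField.adjoin k {jqModC k} ≤ modularFunctionFieldFullC k N := by
    rw [IntermediateField.adjoin_le_iff]
    rintro x rfl
    exact jqModC_mem_full k N
  exact h

theorem full_le_sup (N : ℕ) :
    (modularFunctionFieldFullC k N).toSubfield ≤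
      (IntermediateField.adjoin k {jqModC k}).toSubfield ⊔ subE k₀ k N := by
  rw [modularFunctionFieldFullC, IntermediateField.adjoin_toSubfield, Subfield.closure_le]
  rintro y (hy | hy)
  · obtain ⟨x, rfl⟩ := hy
    exact (le_sup_left : _ ≤ (IntermediateField.adjoin k {jqModC k}).toSubfield ⊔ subE k₀ k N)
      ((IntermediateField.adjoin k {jqModC k}).algebraMap_mem x)
  · obtain ⟨d, hd, hdvd, rfl⟩ := hy
    refine (le_sup_right : _ ≤ (IntermediateField.adjoin k {jqModC k}).toSubfield ⊔ subE k₀ k N) ?_
    refine ⟨qExpand k₀ d (jqModC k₀), ?_, ?_⟩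
    · exact jqModCd_mem_full k₀ N hdvd
    · rw [cMap_qExpand, cMap_jqModC]

theorem relrank_subD_subE (N : ℕ) :
    Subfield.relrank (subD k₀ k) (subE k₀ k N) =
      IntermediateField.relrank (IntermediateField.adjoin k₀ {jqModC k₀})
        (modularFunctionFieldFullC k₀ N) :=
  Subfield.relrank_map_map (A := (IntermediateField.adjoin k₀ {jqModC k₀}).toSubfield)
    (B := (modularFunctionFieldFullC k₀ N).toSubfield) (cMap k₀ k)

theorem extendScalars_subD_eq :
    Subfield.extendScalars (subD_le k₀ k) =
      IntermediateField.adjoin (subD k₀ k) (Set.range (algebraMap k (LaurentSeries k))) := by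
  apply le_antisymm
  · intro x hx
    have hx' : x ∈ (IntermediateField.adjoin k {jqModC k}).toSubfield := hx
    rw [IntermediateField.adjoin_toSubfield] at hx'
    have hle : Subfield.closure (Set.range (algebraMap k (LaurentSeries k)) ∪ {jqModC k}) ≤
        (IntermediateField.adjoin (subD k₀ k)
          (Set.range (algebraMap k (LaurentSeries k)))).toSubfield := by
      rw [Subfield.closure_le]
      rintro y (hy | hy)
      · exact IntermediateField.subset_adjoin _ _ hy
      · rw [Set.mem_singleton_iff] at hy
        subst hy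
        exact (IntermediateField.adjoin (subD k₀ k)
          (Set.range (algebraMap k (LaurentSeries k)))).algebraMap_mem
            (⟨jqModC k, jqModC_mem_subD k₀ k⟩ : subD k₀ k)
    exact hle hx'
  · rw [IntermediateField.adjoin_le_iff]
    rintro _ ⟨x, rfl⟩
    exact (IntermediateField.adjoin k {jqModC k}).algebraMap_mem x

theorem isAlgebraic_extendScalars_subD [Algebra.IsAlgebraic k₀ k] :
    Algebra.IsAlgebraic (subD k₀ k) (Subfield.extendScalars (subD_le k₀ k)) := by
  rw [extendScalars_subD_eq]
  apply IntermediateField.isAlgebraic_adjoin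
  rintro _ ⟨x, rfl⟩
  obtain ⟨p, hp, hpx⟩ := (Algebra.IsIntegral.isIntegral (R := k₀) x)
  let φ : k₀ →+* subD k₀ k :=
    ((algebraMap k (LaurentSeries k)).comp (algebraMap k₀ k)).codRestrict (subD k₀ k)
      (algebraMap_mem_subD k₀ k)
  refine ⟨p.map φ, hp.map φ, ?_⟩
  rw [Polynomial.eval₂_map]
  have hcomp : (algebraMap (subD k₀ k) (LaurentSeries k)).comp φ =
      (algebraMap k (LaurentSeries k)).comp (algebraMap k₀ k) := by
    ext y
    rfl
  rw [hcomp, ← Polynomial.hom_eval₂, hpx, map_zero]

theorem isAlgebraic_extendScalars_subE (N : ℕ)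
    (hfin : IntermediateField.relrank (IntermediateField.adjoin k₀ {jqModC k₀})
      (modularFunctionFieldFullC k₀ N) < Cardinal.aleph0) :
    Algebra.IsAlgebraic (subD k₀ k) (Subfield.extendScalars (subD_le_subE k₀ k N)) := by
  rw [← relrank_subD_subE k₀ k N, Subfield.relrank_eq_rank_of_le (subD_le_subE k₀ k N)] at hfin
  have : Module.Finite (subD k₀ k) (Subfield.extendScalars (subD_le_subE k₀ k N)) :=
    Module.rank_lt_aleph0_iff.mp hfin
  exact Algebra.IsAlgebraic.of_finite _ _

/-- **IG-D2desc**, general form: the degree `[k(j(q^d) : d ∣ N) : k(j)]` does not increase along a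
field extension `k / k₀`, provided `k / k₀` is algebraic or the degree over `k₀` is finite. -/
theorem relrank_descent_of_or (N : ℕ)
    (h : Algebra.IsAlgebraic k₀ k ∨
      IntermediateField.relrank (IntermediateField.adjoin k₀ {jqModC k₀})
        (modularFunctionFieldFullC k₀ N) < Cardinal.aleph0) :
    IntermediateField.relrank (IntermediateField.adjoin k {jqModC k})
        (modularFunctionFieldFullC k N) ≤
      IntermediateField.relrank (IntermediateField.adjoin k₀ {jqModC k₀})
        (modularFunctionFieldFullC k₀ N) := by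
  rw [← relrank_subD_subE k₀ k N]
  exact subfield_relrank_le_of_isAlgebraic _ _ _ _ (subD_le_subE k₀ k N) (subD_le k₀ k)
    (adjoin_jqModC_le k N) (full_le_sup k₀ k N)
    (h.imp (fun h => @isAlgebraic_extendScalars_subD k₀ k _ _ _ h)
      (fun h => isAlgebraic_extendScalars_subE k₀ k N h))

/-- **IG-D2desc** for an algebraic extension `k / k₀` (e.g. `k₀ = ZMod ℓ`,
`k = AlgebraicClosure (ZMod ℓ)`). -/
theorem relrank_descent_of_isAlgebraic (N : ℕ) [NeZero N] [Algebra.IsAlgebraic k₀ k] :
    IntermediateField.relrank (IntermediateField.adjoin k {jqModC k})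
        (modularFunctionFieldFullC k N) ≤
      IntermediateField.relrank (IntermediateField.adjoin k₀ {jqModC k₀})
        (modularFunctionFieldFullC k₀ N) :=
  relrank_descent_of_or k₀ k N (Or.inl inferInstance)

/-- **IG-D2desc** when the degree over `k₀` is finite. -/
theorem relrank_descent_of_finite (N : ℕ) [NeZero N]
    (hfin : IntermediateField.relrank (IntermediateField.adjoin k₀ {jqModC k₀})
      (modularFunctionFieldFullC k₀ N) < Cardinal.aleph0) :
    IntermediateField.relrank (IntermediateField.adjoin k {jqModC k})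
        (modularFunctionFieldFullC k N) ≤
      IntermediateField.relrank (IntermediateField.adjoin k₀ {jqModC k₀})
        (modularFunctionFieldFullC k₀ N) :=
  relrank_descent_of_or k₀ k N (Or.inr hfin)

/-- the instance needed for the final assembly of S28 -/
theorem relrank_descent_algebraicClosure_zmod (ℓ : ℕ) [Fact ℓ.Prime] (N : ℕ) [NeZero N] :
    IntermediateField.relrank
        (IntermediateField.adjoin (AlgebraicClosure (ZMod ℓ)) {jqModC (AlgebraicClosure (ZMod ℓ))})
        (modularFunctionFieldFullC (AlgebraicClosure (ZMod ℓ)) N) ≤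
      IntermediateField.relrank (IntermediateField.adjoin (ZMod ℓ) {jqModC (ZMod ℓ)})
        (modularFunctionFieldFullC (ZMod ℓ) N) :=
  relrank_descent_of_isAlgebraic (ZMod ℓ) (AlgebraicClosure (ZMod ℓ)) N

end Descent

end Fermat.Agent.H57
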