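import Mathlib
import Fermat.Agent.H63.S16LB.Interfaces
import Fermat.Agent.H63.S21A
import Fermat.Agent.H31.PeriodBasic
import Fermat.Agent.H21.Basic

/-!
# Hecke operators act on period classes by the transfer formula (P-S16, LB-PERIOD)

If `F` is the decaying primitive of a weight 2 cusp form `f` and `(α x)` is a finite family of
real matrices of positive determinant preserving the cusp `i∞`, then `∑ x, F ∘ (α x • ·)` is the
decaying primitive of `∑ x, f ∣[2] α x`.  For rewriting data `α x * γ = κ x * α (σ x)` this gives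
the transfer formula for the period map, and the same for the `J`-twisted periods.
-/

set_option autoImplicit false

namespace Fermat.Agent.H57

open UpperHalfPlane CongruenceSubgroup Filter Topology ModularCurve ModularCurve.Period
open Matrix.SpecialLinearGroup
open scoped MatrixGroups ModularForm

/-- Chain rule for the Möbius action of a real matrix of positive determinant:
if `F' = f` then `(F ∘ g)' = f ∣[2] g`. -/
theorem hp_hasDerivAt_comp_smul (F f : ℍ → ℂ)
    (hF : ∀ τ : ℍ, HasDerivAt (F ∘ ofComplex) (f τ) ↑τ) {g : GL (Fin 2) ℝ}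
    (hg : 0 < g.det.val) (τ : ℍ) :
    HasDerivAt ((fun w : ℍ => F (g • w)) ∘ ofComplex) ((f ∣[(2 : ℤ)] g) τ) ↑τ := by
  have h1 := Fermat.Agent.H21.hasDerivAt_smul_coe hg τ
  have h2 : HasDerivAt (F ∘ ofComplex) (f (g • τ)) ((g • ofComplex (τ : ℂ) : ℍ) : ℂ) := by
    rw [ofComplex_apply]
    exact hF (g • τ)
  have h3 := h2.comp (τ : ℂ) h1
  have hfun : ((F ∘ ofComplex) ∘ fun z : ℂ => ((g • ofComplex z : ℍ) : ℂ))
      = ((fun w : ℍ => F (g • w)) ∘ ofComplex) := by
    funext z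
    simp only [Function.comp_apply, ofComplex_apply]
  rw [hfun] at h3
  refine h3.congr_deriv ?_
  rw [Fermat.Agent.H21.slash_apply_of_det_pos hg]
  have hden : denom g τ ≠ 0 := denom_ne_zero g τ
  have e1 : ((2 : ℤ) - 1) = 1 := by norm_num
  rw [e1, zpow_one, zpow_neg]
  have e2 : denom g τ ^ (2 : ℤ) = denom g τ ^ 2 := by norm_cast
  rw [e2]
  field_simp

/-- **Abstract transfer formula** for the period map. -/
theorem periodMap_transfer {N : ℕ} [NeZero N] {X : Type} [Fintype X] (α : X → GL (Fin 2) ℝ)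
    (hdet : ∀ x, 0 < (α x).det.val)
    (hinf : ∀ x, Tendsto (fun w : ℍ => α x • w) atImInfty atImInfty)
    (f f' : CuspForm (Gamma0 N) 2) (hf' : ∀ τ, f' τ = ∑ x, ((f : ℍ → ℂ) ∣[(2 : ℤ)] α x) τ)
    (γ : Gamma0 N) (σ : Equiv.Perm X) (κ : X → Gamma0 N)
    (h : Fermat.Agent.H63.IsRewriting N α γ σ κ) :
    periodMap N f' (Additive.ofMul γ) = ∑ x, periodMap N f (Additive.ofMul (κ x)) := by
  obtain ⟨F, hF⟩ := Fermat.Agent.H63.exists_hasEquivariantPrimitive N f
  obtain ⟨G₀, hG₀⟩ := Fermat.Agent.H63.exists_hasEquivariantPrimitive N f'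
  -- the candidate primitive
  set G : ℍ → ℂ := fun w => ∑ x, F (α x • w) with hG
  have hGder : ∀ τ : ℍ, HasDerivAt (G ∘ ofComplex) (f' τ) ↑τ := by
    intro τ
    have h1 : ∀ x ∈ (Finset.univ : Finset X),
        HasDerivAt ((fun w : ℍ => F (α x • w)) ∘ ofComplex)
          (((f : ℍ → ℂ) ∣[(2 : ℤ)] α x) τ) ↑τ := fun x _ =>
      hp_hasDerivAt_comp_smul F f hF.1 (hdet x) τ
    have h2 := HasDerivAt.fun_sum h1
    rw [hf' τ]
    refine h2.congr_of_eventuallyEq ?_
    exact Filter.Eventually.of_forall fun z => by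
      simp only [hG, Function.comp_apply]
  have hGlim : Tendsto G atImInfty (𝓝 0) := by
    have h1 : ∀ x ∈ (Finset.univ : Finset X),
        Tendsto (fun w : ℍ => F (α x • w)) atImInfty (𝓝 0) := fun x _ =>
      hF.2.1.comp (hinf x)
    have h2 := tendsto_finsetSum (Finset.univ : Finset X) h1
    simpa [hG] using h2
  have hGG : G = G₀ := Fermat.Agent.H31.primitive_unique hGder hG₀.1 hGlim hG₀.2.1
  -- compute the period
  rw [Fermat.Agent.H31.periodMap_apply_of_hasEquivariantPrimitive' hG₀ γ UpperHalfPlane.I,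
    ← hGG]
  have hstep : ∀ x, F (α x • ((γ : SL(2, ℤ)) • UpperHalfPlane.I))
      = F (α (σ x) • UpperHalfPlane.I) + periodMap N f (Additive.ofMul (κ x)) := by
    intro x
    have e1 : α x • ((γ : SL(2, ℤ)) • UpperHalfPlane.I)
        = ((κ x : Gamma0 N) : SL(2, ℤ)) • (α (σ x) • UpperHalfPlane.I) := by
      show α x • (mapGL ℝ (γ : SL(2, ℤ)) • UpperHalfPlane.I)
        = mapGL ℝ ((κ x : Gamma0 N) : SL(2, ℤ)) • (α (σ x) • UpperHalfPlane.I)
      rw [← mul_smul, ← mul_smul, h x]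
    rw [e1, Fermat.Agent.H31.periodMap_apply_of_hasEquivariantPrimitive' hF (κ x)
      (α (σ x) • UpperHalfPlane.I)]
    ring
  simp only [hG]
  rw [Finset.sum_congr rfl fun x _ => hstep x, Finset.sum_add_distrib,
    Equiv.sum_comp σ (fun x => F (α x • UpperHalfPlane.I))]
  ring

/-! ### The `J`-twist of rewriting data -/

/-- `mapGL (jConjSL γ) * J = J * mapGL γ`. -/
theorem mapGL_jConjSL_mul_J (γ : SL(2, ℤ)) :
    mapGL ℝ (jConjSL γ) * UpperHalfPlane.J = UpperHalfPlane.J * mapGL ℝ γ := by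
  ext i j
  fin_cases i <;> fin_cases j <;> simp [Matrix.mul_apply, Fin.sum_univ_two, jConjMat]

/-- Rewriting data for `γ` give rewriting data for `jConj γ`, provided the family `α` is stable
under conjugation by `J` up to elements of `Γ₀(N)`. -/
theorem isRewriting_jConj {N : ℕ} {X : Type} (α : X → GL (Fin 2) ℝ) (τ : Equiv.Perm X)
    (u : X → Gamma0 N)
    (hJ : ∀ x, UpperHalfPlane.J * α x
      = mapGL ℝ ((u x : Gamma0 N) : SL(2, ℤ)) * α (τ x) * UpperHalfPlane.J)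
    {γ : Gamma0 N} {σ : Equiv.Perm X} {κ : X → Gamma0 N}
    (h : Fermat.Agent.H63.IsRewriting N α γ σ κ) :
    Fermat.Agent.H63.IsRewriting N α (jConjGamma0 N γ) (τ.symm.trans (σ.trans τ))
      (fun y => (u (τ.symm y))⁻¹ * jConjGamma0 N (κ (τ.symm y)) * u (σ (τ.symm y))) := by
  intro y
  obtain ⟨x, rfl⟩ := τ.surjective y
  simp only [Equiv.symm_apply_apply, Equiv.trans_apply]
  apply mul_right_cancel (b := UpperHalfPlane.J)
  have h2 := mapGL_jConjSL_mul_J ((γ : Gamma0 N) : SL(2, ℤ))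
  have h2' := mapGL_jConjSL_mul_J ((κ x : Gamma0 N) : SL(2, ℤ))
  have h1 := h x
  have h3 := hJ x
  have h3' := hJ (σ x)
  have e1 : mapGL ℝ (((u x)⁻¹ * jConjGamma0 N (κ x) * u (σ x) : Gamma0 N) : SL(2, ℤ))
      = (mapGL ℝ ((u x : Gamma0 N) : SL(2, ℤ)))⁻¹ * mapGL ℝ (jConjSL ((κ x : Gamma0 N) : SL(2, ℤ)))
        * mapGL ℝ ((u (σ x) : Gamma0 N) : SL(2, ℤ)) := by
    rw [← map_inv, ← map_mul, ← map_mul]
    rfl
  have e2 : mapGL ℝ ((jConjGamma0 N γ : Gamma0 N) : SL(2, ℤ))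
      = mapGL ℝ (jConjSL ((γ : Gamma0 N) : SL(2, ℤ))) := rfl
  rw [e1, e2]
  set A := α (τ x)
  set U := mapGL ℝ ((u x : Gamma0 N) : SL(2, ℤ))
  set U' := mapGL ℝ ((u (σ x) : Gamma0 N) : SL(2, ℤ))
  set G := mapGL ℝ ((γ : Gamma0 N) : SL(2, ℤ))
  set G' := mapGL ℝ (jConjSL ((γ : Gamma0 N) : SL(2, ℤ)))
  set K := mapGL ℝ ((κ x : Gamma0 N) : SL(2, ℤ))
  set K' := mapGL ℝ (jConjSL ((κ x : Gamma0 N) : SL(2, ℤ)))
  set Jm := UpperHalfPlane.J
  calc A * G' * Jm = A * (G' * Jm) := mul_assoc _ _ _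
    _ = A * (Jm * G) := by rw [h2]
    _ = U⁻¹ * (U * A * Jm) * G := by group
    _ = U⁻¹ * (Jm * α x) * G := by rw [h3]
    _ = U⁻¹ * Jm * (α x * G) := by group
    _ = U⁻¹ * Jm * (K * α (σ x)) := by rw [h1]
    _ = U⁻¹ * (Jm * K) * α (σ x) := by group
    _ = U⁻¹ * (K' * Jm) * α (σ x) := by rw [h2']
    _ = U⁻¹ * K' * (Jm * α (σ x)) := by group
    _ = U⁻¹ * K' * (U' * α (τ (σ x)) * Jm) := by rw [h3']
    _ = U⁻¹ * K' * U' * α (τ (σ x)) * Jm := by group

/-- The sum of a homomorphism over the twisted rewriting data. -/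
theorem sum_twisted {N : ℕ} {X : Type} [Fintype X] (P : Additive (Gamma0 N) →+ ℂ)
    (τ σ : Equiv.Perm X) (u κ : X → Gamma0 N) :
    ∑ y, P (Additive.ofMul
        ((u (τ.symm y))⁻¹ * jConjGamma0 N (κ (τ.symm y)) * u (σ (τ.symm y))))
      = ∑ x, P (Additive.ofMul (jConjGamma0 N (κ x))) := by
  rw [Equiv.sum_comp τ.symm
    (fun x => P (Additive.ofMul ((u x)⁻¹ * jConjGamma0 N (κ x) * u (σ x))))]
  have hx : ∀ x, P (Additive.ofMul ((u x)⁻¹ * jConjGamma0 N (κ x) * u (σ x)))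
      = P (Additive.ofMul (jConjGamma0 N (κ x))) + (P (Additive.ofMul (u (σ x)))
        - P (Additive.ofMul (u x))) := by
    intro x
    rw [ofMul_mul, ofMul_mul, ofMul_inv, map_add, map_add, map_neg]
    ring
  rw [Finset.sum_congr rfl fun x _ => hx x, Finset.sum_add_distrib, Finset.sum_sub_distrib,
    Equiv.sum_comp σ (fun x => P (Additive.ofMul (u x))), sub_self, add_zero]

/-- **Abstract transfer formula** for `periodHomPair`. -/
theorem periodHomPair_transfer {N : ℕ} [NeZero N] {X : Type} [Fintype X]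
    (α : X → GL (Fin 2) ℝ) (hdet : ∀ x, 0 < (α x).det.val)
    (hinf : ∀ x, Tendsto (fun w : ℍ => α x • w) atImInfty atImInfty)
    (τ : Equiv.Perm X) (u : X → Gamma0 N)
    (hJ : ∀ x, UpperHalfPlane.J * α x
      = mapGL ℝ ((u x : Gamma0 N) : SL(2, ℤ)) * α (τ x) * UpperHalfPlane.J)
    (f f' g g' : CuspForm (Gamma0 N) 2)
    (hf' : ∀ z, f' z = ∑ x, ((f : ℍ → ℂ) ∣[(2 : ℤ)] α x) z)
    (hg' : ∀ z, g' z = ∑ x, ((g : ℍ → ℂ) ∣[(2 : ℤ)] α x) z)
    (γ : Gamma0 N) (σ : Equiv.Perm X) (κ : X → Gamma0 N)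
    (h : Fermat.Agent.H63.IsRewriting N α γ σ κ) :
    periodHomPair N (f', g') (Additive.ofMul γ)
      = ∑ x, periodHomPair N (f, g) (Additive.ofMul (κ x)) := by
  have hprim := Fermat.Agent.H63.exists_hasEquivariantPrimitive N
  have hj := isRewriting_jConj α τ u hJ h
  rw [Fermat.Agent.H31.periodHomPair_apply hprim f' g' γ,
    periodMap_transfer α hdet hinf f f' hf' γ σ κ h,
    periodMap_transfer α hdet hinf g g' hg' γ σ κ h,
    periodMap_transfer α hdet hinf f f' hf' _ _ _ hj,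
    periodMap_transfer α hdet hinf g g' hg' _ _ _ hj,
    sum_twisted (periodMap N f) τ σ u κ, sum_twisted (periodMap N g) τ σ u κ,
    ← Finset.sum_sub_distrib, ← Finset.sum_add_distrib, ← Finset.sum_add_distrib]
  refine Finset.sum_congr rfl fun x _ => ?_
  rw [Fermat.Agent.H31.periodHomPair_apply hprim f g (κ x)]

/-! ### The concrete Hecke families -/

open P2MW.S_ModularForm_heckeT_slash_eq_self_of_mem_Gamma0.ModularForm.HeckeSlashInvariance

theorem tendsto_heckeMatrix_smul {p : ℕ} (hp : p ≠ 0) (j : ℕ) :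
    Tendsto (fun w : ℍ => ModularForm.heckeMatrix p j • w) atImInfty atImInfty := by
  rw [atImInfty, tendsto_comap_iff]
  have hfun : (UpperHalfPlane.im ∘ fun w : ℍ => ModularForm.heckeMatrix p j • w)
      = fun w : ℍ => w.im / p := by
    funext w
    have h := ModularForm.coe_heckeMatrix_smul hp j w
    have h2 : (ModularForm.heckeMatrix p j • w).im
        = (((ModularForm.heckeMatrix p j • w : ℍ) : ℂ)).im := rfl
    simp only [Function.comp_apply]
    rw [h2, h]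
    have h3 : ((w : ℂ) + (j : ℂ)) / (p : ℂ) = (((w : ℂ) + (j : ℂ)) / ((p : ℝ) : ℂ)) := by
      push_cast; rfl
    rw [h3, Complex.div_ofReal_im]
    simp
  rw [hfun]
  have hp' : (0 : ℝ) < p := by exact_mod_cast Nat.pos_of_ne_zero hp
  exact Tendsto.atTop_div_const hp' tendsto_comap

theorem tendsto_heckeDiagMatrix_smul {p : ℕ} (hp : p ≠ 0) :
    Tendsto (fun w : ℍ => ModularForm.heckeDiagMatrix p • w) atImInfty atImInfty := by
  rw [atImInfty, tendsto_comap_iff]
  have hfun : (UpperHalfPlane.im ∘ fun w : ℍ => ModularForm.heckeDiagMatrix p • w)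
      = fun w : ℍ => (p : ℝ) * w.im := by
    funext w
    have h := ModularForm.coe_heckeDiagMatrix_smul hp w
    have h2 : (ModularForm.heckeDiagMatrix p • w).im
        = (((ModularForm.heckeDiagMatrix p • w : ℍ) : ℂ)).im := rfl
    simp only [Function.comp_apply]
    rw [h2, h]
    have h3 : (p : ℂ) * (w : ℂ) = ((p : ℝ) : ℂ) * (w : ℂ) := by push_cast; rfl
    rw [h3, Complex.im_ofReal_mul]
    rfl
  rw [hfun]
  have hp' : (0 : ℝ) < p := by exact_mod_cast Nat.pos_of_ne_zero hp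
  exact Tendsto.const_mul_atTop hp' tendsto_comap

/-- The translation `[[1, m], [0, 1]]` as an element of `Γ₀(N)`. -/
def hpTranslSL (m : ℤ) : SL(2, ℤ) :=
  ⟨!![1, m; 0, 1], by simp [Matrix.det_fin_two_of]⟩

theorem hpTranslSL_coe (m : ℤ) :
    ((hpTranslSL m : SL(2, ℤ)) : Matrix (Fin 2) (Fin 2) ℤ) = !![1, m; 0, 1] := rfl

/-- The translation `[[1, m], [0, 1]]` as an element of `Γ₀(N)`. -/
def hpTransl (N : ℕ) (m : ℤ) : Gamma0 N :=
  ⟨hpTranslSL m, Gamma0_mem.mpr (by simp [hpTranslSL_coe])⟩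

theorem hpTransl_coe (N : ℕ) (m : ℤ) :
    (((hpTransl N m : Gamma0 N) : SL(2, ℤ)) : Matrix (Fin 2) (Fin 2) ℤ) = !![1, m; 0, 1] := rfl

/-- the carry of `x + (-x)` in `ZMod q` -/
def hpCarry {q : ℕ} (x : ZMod q) : ℕ := (x.val + (-x).val) / q

theorem hpCarry_spec {q : ℕ} [NeZero q] (x : ZMod q) :
    x.val + (-x).val = q * hpCarry x := by
  have hdvd : q ∣ x.val + (-x).val := by
    rw [← ZMod.natCast_eq_zero_iff]
    push_cast
    rw [ZMod.natCast_zmod_val, ZMod.natCast_zmod_val, add_neg_cancel]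
  rw [hpCarry, Nat.mul_div_cancel' hdvd]

theorem J_mul_heckeMatrix (N : ℕ) {q : ℕ} [NeZero q] (x : ZMod q) :
    UpperHalfPlane.J * ModularForm.heckeMatrix q x.val
      = mapGL ℝ ((hpTransl N (-(hpCarry x : ℤ)) : Gamma0 N) : SL(2, ℤ))
        * ModularForm.heckeMatrix q (-x).val * UpperHalfPlane.J := by
  have hq : q ≠ 0 := NeZero.ne q
  have hc := hpCarry_spec x
  have hc' : ((x.val : ℝ) + ((-x).val : ℝ)) = (q : ℝ) * (hpCarry x : ℝ) := by
    exact_mod_cast hc
  have hc'' : ((x.cast : ℝ) + ((-x).cast : ℝ)) = (q : ℝ) * (hpCarry x : ℝ) := by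
    rw [← ZMod.natCast_val, ← ZMod.natCast_val]
    exact hc'
  ext i j
  fin_cases i <;> fin_cases j <;>
    simp [Matrix.mul_apply, Fin.sum_univ_two, hq, hpTransl_coe]
  linear_combination -hc''

theorem J_mul_heckeDiagMatrix (p : ℕ) :
    UpperHalfPlane.J * ModularForm.heckeDiagMatrix p
      = ModularForm.heckeDiagMatrix p * UpperHalfPlane.J := by
  rcases eq_or_ne p 0 with rfl | hp
  · simp
  ext i j
  fin_cases i <;> fin_cases j <;>
    simp [Matrix.mul_apply, Fin.sum_univ_two, hp]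

/-- the involution `x ↦ -x` on `OnePoint (ZMod ℓ)` (fixing `∞`) -/
def hpNegOnePoint (ℓ : ℕ) : Equiv.Perm (OnePoint (ZMod ℓ)) :=
  Equiv.optionCongr (Equiv.neg (ZMod ℓ))

theorem hpNegOnePoint_infty (ℓ : ℕ) : hpNegOnePoint ℓ (OnePoint.infty) = OnePoint.infty := rfl

theorem hpNegOnePoint_coe (ℓ : ℕ) (j : ZMod ℓ) :
    hpNegOnePoint ℓ ((j : ZMod ℓ) : OnePoint (ZMod ℓ)) = ((-j : ZMod ℓ) : OnePoint (ZMod ℓ)) :=
  rfl

/-- the translations correcting the `J`-conjugates of `heckeRep` -/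
def hpTranslOnePoint (N ℓ : ℕ) (x : OnePoint (ZMod ℓ)) : Gamma0 N :=
  x.elim 1 (fun j => hpTransl N (-(hpCarry j : ℤ)))

theorem J_mul_heckeRep (N : ℕ) {ℓ : ℕ} [NeZero ℓ] (x : OnePoint (ZMod ℓ)) :
    UpperHalfPlane.J * heckeRep ℓ x
      = mapGL ℝ ((hpTranslOnePoint N ℓ x : Gamma0 N) : SL(2, ℤ))
        * heckeRep ℓ (hpNegOnePoint ℓ x) * UpperHalfPlane.J := by
  induction x using OnePoint.rec with
  | infty =>
    rw [hpNegOnePoint_infty]
    show UpperHalfPlane.J * ModularForm.heckeDiagMatrix ℓ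
      = mapGL ℝ ((1 : Gamma0 N) : SL(2, ℤ)) * ModularForm.heckeDiagMatrix ℓ * UpperHalfPlane.J
    rw [OneMemClass.coe_one, map_one, one_mul, J_mul_heckeDiagMatrix]
  | coe j =>
    rw [hpNegOnePoint_coe]
    exact J_mul_heckeMatrix N j

theorem det_heckeRep_pos (ℓ : ℕ) (x : OnePoint (ZMod ℓ)) : 0 < (heckeRep ℓ x).det.val := by
  induction x using OnePoint.rec with
  | infty => exact ModularForm.det_heckeDiagMatrix_pos ℓ
  | coe j => exact ModularForm.det_heckeMatrix_pos ℓ j.val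

theorem tendsto_heckeRep_smul {ℓ : ℕ} (hℓ : ℓ ≠ 0) (x : OnePoint (ZMod ℓ)) :
    Tendsto (fun w : ℍ => heckeRep ℓ x • w) atImInfty atImInfty := by
  induction x using OnePoint.rec with
  | infty => exact tendsto_heckeDiagMatrix_smul hℓ
  | coe j => exact tendsto_heckeMatrix_smul hℓ j.val

/-- **LB-PERIOD.** Hecke operators act on period classes by the transfer formula. -/
theorem heckePeriodStatement (N : ℕ) [NeZero N] : Fermat.Agent.H63.HeckePeriodStatement N := by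
  refine ⟨?_, ?_⟩
  · intro ℓ hℓ hℓN f g γ σ κ h
    have : NeZero ℓ := ⟨hℓ.ne_zero⟩
    refine periodHomPair_transfer (heckeRep ℓ) (det_heckeRep_pos ℓ)
      (tendsto_heckeRep_smul hℓ.ne_zero) (hpNegOnePoint ℓ) (hpTranslOnePoint N ℓ)
      (J_mul_heckeRep N) f _ g _ ?_ ?_ γ σ κ h
    · intro z
      rw [CuspForm.heckeTLin_apply_apply, heckeT_eq_sum_onePoint, Finset.sum_apply]
    · intro z
      rw [CuspForm.heckeTLin_apply_apply, heckeT_eq_sum_onePoint, Finset.sum_apply]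
  · intro q hq hqN f g γ σ κ h
    have : NeZero q := ⟨hq.ne_zero⟩
    refine periodHomPair_transfer (fun x : ZMod q => ModularForm.heckeMatrix q x.val)
      (fun x => ModularForm.det_heckeMatrix_pos q x.val)
      (fun x => tendsto_heckeMatrix_smul hq.ne_zero x.val) (Equiv.neg (ZMod q))
      (fun x => hpTransl N (-(hpCarry x : ℤ)))
      (fun x => J_mul_heckeMatrix N x) f _ g _ ?_ ?_ γ σ κ h
    · intro z
      rw [CuspForm.heckeULin_apply_apply, heckeU_eq_sum_zmod, Finset.sum_apply]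
    · intro z
      rw [CuspForm.heckeULin_apply_apply, heckeU_eq_sum_zmod, Finset.sum_apply]

end Fermat.Agent.H57
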