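import Mathlib
import Fermat.Prelude.Def_ModularCurve_X0ModL

/-!
# Polynomials in `j` with coefficients of the `q`-expansion in a subring

If `P ∈ B[X]` and all coefficients of the Laurent series `P(j)` lie in the range of a ring
homomorphism `φ : A → B`, then `P` itself comes from `A[X]`.
(`j = q⁻¹ + 744 + ...` has integer coefficients and leading coefficient `1`.)
-/

set_option autoImplicit false

open ModularCurve

namespace Fermat.Agent.H57

section

variable {B : Type*} [CommRing B]

/-- additive map: coefficient of a Laurent series -/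
noncomputable def lcoeff (n : ℤ) : LaurentSeries B →+ B where
  toFun f := f.coeff n
  map_zero' := rfl
  map_add' _ _ := rfl

theorem algebraMap_laurent_eq_single (b : B) :
    algebraMap B (LaurentSeries B) b = HahnSeries.single 0 b := by
  have h1 : algebraMap B (PowerSeries B) b = PowerSeries.C b := by
    simp
  rw [HahnSeries.algebraMap_apply', h1, HahnSeries.ofPowerSeries_C]
  rfl

theorem coeff_algebraMap_mul (b : B) (f : LaurentSeries B) (n : ℤ) :
    (algebraMap B (LaurentSeries B) b * f).coeff n = b * f.coeff n := by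
  rw [algebraMap_laurent_eq_single, HahnSeries.coeff_single_zero_mul]

theorem coeff_aeval_jq (P : Polynomial B) (d : ℕ) (hd : P.natDegree ≤ d) (n : ℤ) :
    (Polynomial.aeval (jqModC B) P).coeff n =
      ∑ i ∈ Finset.range (d + 1), P.coeff i * ((jqModC B) ^ i).coeff n := by
  rw [Polynomial.aeval_eq_sum_range' (Nat.lt_succ_of_le hd)]
  change lcoeff n _ = _
  rw [map_sum]
  refine Finset.sum_congr rfl fun i _ => ?_
  rw [Algebra.smul_def]
  exact coeff_algebraMap_mul _ _ _

theorem coeff_aeval_jq_neg (P : Polynomial B) (d : ℕ) (hd : P.natDegree ≤ d) :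
    (Polynomial.aeval (jqModC B) P).coeff (-(d : ℤ)) = P.coeff d := by
  rw [coeff_aeval_jq P d hd, Finset.sum_range_succ, coeff_jqModC_pow_self, mul_one,
    Finset.sum_eq_zero, zero_add]
  intro i hi
  rw [Finset.mem_range] at hi
  rw [coeff_jqModC_pow_of_lt B (by omega), mul_zero]

theorem coeff_aeval_jq_of_lt (P : Polynomial B) (d : ℕ) (hd : P.natDegree ≤ d) {n : ℤ}
    (hn : n < -(d : ℤ)) : (Polynomial.aeval (jqModC B) P).coeff n = 0 := by
  rw [coeff_aeval_jq P d hd, Finset.sum_eq_zero]
  intro i hi
  rw [Finset.mem_range] at hi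
  rw [coeff_jqModC_pow_of_lt B (by omega), mul_zero]

theorem coeff_jqModC_pow_mem_range {A : Type*} [CommRing A] (φ : A →+* B) (i : ℕ) (n : ℤ) :
    ((jqModC B) ^ i).coeff n ∈ φ.range := by
  refine ⟨((jqModC A) ^ i).coeff n, ?_⟩
  rw [← coeffMap_coeff, map_pow, coeffMap_jqModC]

/-- If all coefficients of `P(j)` lie in the range of `φ : A → B`, then `P` comes from `A[X]`. -/
theorem exists_map_eq_of_coeff_aeval_jq_aux {A : Type*} [CommRing A] (φ : A →+* B) :
    ∀ (d : ℕ) (P : Polynomial B), P.natDegree ≤ d →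
      (∀ n : ℤ, (Polynomial.aeval (jqModC B) P).coeff n ∈ φ.range) →
      ∃ Q : Polynomial A, Q.map φ = P ∧ Q.natDegree ≤ d := by
  intro d
  induction d with
  | zero =>
    intro P hP h
    obtain ⟨α, hα⟩ := h (-((0 : ℕ) : ℤ))
    rw [coeff_aeval_jq_neg P 0 hP] at hα
    refine ⟨Polynomial.C α, ?_, by simp⟩
    rw [Polynomial.map_C, hα]
    exact (Polynomial.eq_C_of_natDegree_le_zero hP).symm
  | succ d ih =>
    intro P hP h
    obtain ⟨α, hα⟩ := h (-((d + 1 : ℕ) : ℤ))
    rw [coeff_aeval_jq_neg P (d + 1) hP] at hα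
    have hP' : (P - Polynomial.monomial (d + 1) (P.coeff (d + 1))).natDegree ≤ d := by
      rw [Polynomial.natDegree_le_iff_coeff_eq_zero]
      intro N hN
      rw [Polynomial.coeff_sub, Polynomial.coeff_monomial]
      split_ifs with hNd
      · rw [← hNd, sub_self]
      · rw [sub_zero]
        exact Polynomial.coeff_eq_zero_of_natDegree_lt (by omega)
    have h' : ∀ n : ℤ, (Polynomial.aeval (jqModC B)
        (P - Polynomial.monomial (d + 1) (P.coeff (d + 1)))).coeff n ∈ φ.range := by
      intro n
      have hmon : (Polynomial.aeval (jqModC B)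
          (Polynomial.monomial (d + 1) (P.coeff (d + 1)))).coeff n =
          P.coeff (d + 1) * ((jqModC B) ^ (d + 1)).coeff n := by
        rw [Polynomial.aeval_monomial, coeff_algebraMap_mul]
      rw [map_sub, HahnSeries.coeff_sub, hmon]
      refine sub_mem (h n) (mul_mem ⟨α, hα⟩ (coeff_jqModC_pow_mem_range φ _ _))
    obtain ⟨Q', hQ', hdeg⟩ := ih _ hP' h'
    refine ⟨Q' + Polynomial.monomial (d + 1) α, ?_, ?_⟩
    · rw [Polynomial.map_add, hQ', Polynomial.map_monomial, hα, sub_add_cancel]
    · refine (Polynomial.natDegree_add_le _ _).trans (max_le (hdeg.trans (Nat.le_succ d)) ?_)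
      exact Polynomial.natDegree_monomial_le α

/-- **(F1)** If all coefficients of `P(j)` lie in the range of `φ : A → B`, then `P` comes from
`A[X]`. -/
theorem exists_map_eq_of_coeff_aeval_jq {A : Type*} [CommRing A] (φ : A →+* B)
    (P : Polynomial B)
    (h : ∀ n : ℤ, (Polynomial.aeval (jqModC B) P).coeff n ∈ φ.range) :
    ∃ Q : Polynomial A, Q.map φ = P ∧ Q.natDegree ≤ P.natDegree :=
  exists_map_eq_of_coeff_aeval_jq_aux φ P.natDegree P le_rfl h

/-- **(F1)**, integer form over `ℂ` (or any ring): a polynomial in `j` whose `q`-expansion has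
integer coefficients has integer coefficients. -/
theorem exists_int_poly_of_coeff_aeval_jq (P : Polynomial B)
    (h : ∀ n : ℤ, ∃ m : ℤ, (Polynomial.aeval (jqModC B) P).coeff n = (m : B)) :
    ∃ Q : Polynomial ℤ, Q.map (Int.castRingHom B) = P ∧ Q.natDegree ≤ P.natDegree :=
  exists_map_eq_of_coeff_aeval_jq (Int.castRingHom B) P fun n => by
    obtain ⟨m, hm⟩ := h n
    exact ⟨m, by rw [hm]; rfl⟩

/-- `P(j) = 0` forces `P = 0`: `j` is transcendental over the coefficients. -/
theorem eq_zero_of_aeval_jq_eq_zero (P : Polynomial B)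
    (h : Polynomial.aeval (jqModC B) P = 0) : P = 0 := by
  by_contra hP
  have h1 := coeff_aeval_jq_neg P P.natDegree le_rfl
  rw [h, HahnSeries.coeff_zero] at h1
  exact hP (Polynomial.leadingCoeff_eq_zero.mp h1.symm)

end

end Fermat.Agent.H57
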