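import Mathlib
import Fermat.Prelude.Def_ModularCurve_X0ModL
import Fermat.Agent.H27.Igusa.Defs
import Fermat.Agent.H76.IgusaLocal
import Fermat.Agent.H1.RingHomMove
import Fermat.Agent.H57.JqPolyIntegral

/-!
# Formal side of the Hecke data over `ℂ` (P-IGUSA, IG-M, piece M-pack)

Integrality and `t^p`-ness of the symmetric expressions in the `p + 1` conjugates
`j(t^{p²}), j(ζ^b t)` and units `p^12 Δ(t^{p²})/Δ(t^p), Δ(ζ^b t)/Δ(t^p)`.
-/

set_option autoImplicit false

open ModularCurve Fermat.Agent.H27 Polynomial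

namespace Fermat.Agent.H57

section Lift

variable {A B : Type*} [CommRing A] [CommRing B]

/-- A Laurent series all of whose coefficients lie in the range of an injective ring hom `φ`
is in the range of `coeffMap φ`. -/
theorem exists_coeffMap_eq (φ : A →+* B) (hφ : Function.Injective φ)
    (x : LaurentSeries B) (h : ∀ n, x.coeff n ∈ φ.range) :
    ∃ x₀ : LaurentSeries A, coeffMap φ x₀ = x := by
  choose g hg using h
  refine ⟨⟨g, ?_⟩, ?_⟩
  · refine x.isPWO_support.mono ?_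
    intro n hn
    simp only [Function.mem_support, HahnSeries.mem_support, ne_eq] at hn ⊢
    intro h0
    apply hn
    apply hφ
    rw [hg, h0, map_zero]
  · ext n
    rw [coeffMap_coeff]
    exact hg n

theorem mem_range_coeffMap_iff (φ : A →+* B) (hφ : Function.Injective φ)
    (x : LaurentSeries B) :
    x ∈ Set.range (coeffMap φ) ↔ ∀ n, x.coeff n ∈ φ.range := by
  constructor
  · rintro ⟨y, rfl⟩ n
    exact ⟨y.coeff n, (coeffMap_coeff φ y n).symm⟩
  · intro h
    exact exists_coeffMap_eq φ hφ x h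

theorem coeffMap_injective (φ : A →+* B) (hφ : Function.Injective φ) :
    Function.Injective (coeffMap φ) := by
  intro x y h
  ext n
  apply hφ
  rw [← coeffMap_coeff, ← coeffMap_coeff, h]

end Lift

section Complex

/-- An algebraic integer of `ℂ` fixed by every ring endomorphism of `ℂ` is a rational integer. -/
theorem mem_range_intCast_of_isIntegral (c : ℂ) (hint : IsIntegral ℤ c)
    (hσ : ∀ σ : ℂ →+* ℂ, σ c = c) : c ∈ (Int.castRingHom ℂ).range := by
  have hq : c ∈ Set.range ((↑) : ℚ → ℂ) := by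
    by_contra h
    obtain ⟨σ, hσ'⟩ := Fermat.Agent.H1.exists_ringHom_ne c h
    exact hσ' (hσ σ)
  obtain ⟨r, rfl⟩ := hq
  have h1 : IsIntegral ℤ r := by
    have : ((r : ℚ) : ℂ) = algebraMap ℚ ℂ r := rfl
    rw [this] at hint
    exact (isIntegral_algebraMap_iff (algebraMap ℚ ℂ).injective).mp hint
  obtain ⟨m, hm⟩ := IsIntegrallyClosed.isIntegral_iff.mp h1
  refine ⟨m, ?_⟩
  rw [← hm]
  simp

/-- The subring of Laurent series over `ℂ` with algebraic integer coefficients. -/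
def intSeries : Subring (LaurentSeries ℂ) where
  carrier := {x | ∀ n, IsIntegral ℤ (x.coeff n)}
  zero_mem' n := by simpa using isIntegral_zero
  one_mem' n := by
    rw [HahnSeries.coeff_one]
    split_ifs
    · exact isIntegral_one
    · exact isIntegral_zero
  add_mem' {x y} hx hy n := by
    rw [HahnSeries.coeff_add]
    exact (hx n).add (hy n)
  neg_mem' {x} hx n := by
    rw [HahnSeries.coeff_neg]
    exact (hx n).neg
  mul_mem' {x y} hx hy n := by
    rw [HahnSeries.coeff_mul]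
    exact IsIntegral.sum _ fun ij _ => (hx _).mul (hy _)

theorem mem_intSeries {x : LaurentSeries ℂ} : x ∈ intSeries ↔ ∀ n, IsIntegral ℤ (x.coeff n) :=
  Iff.rfl

theorem coeffMap_intCast_mem_intSeries (f : LaurentSeries ℤ) :
    coeffMap (Int.castRingHom ℂ) f ∈ intSeries := fun n => by
  rw [coeffMap_coeff]
  exact isIntegral_algebraMap (R := ℤ) (A := ℂ) (x := f.coeff n)

theorem qExpand_mem_intSeries (p : ℕ) [NeZero p] {x : LaurentSeries ℂ} (hx : x ∈ intSeries) :
    qExpand ℂ p x ∈ intSeries := fun n => by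
  by_cases hn : (p : ℤ) ∣ n
  · obtain ⟨m, rfl⟩ := hn
    rw [qExpand_coeff_mul]
    exact hx m
  · rw [qExpand_coeff_of_not_dvd p x hn]
    exact isIntegral_zero

theorem twist_mem_intSeries (ξ : ℂˣ) (hξ : ∀ n : ℤ, IsIntegral ℤ ((ξ ^ n : ℂˣ) : ℂ))
    {x : LaurentSeries ℂ} (hx : x ∈ intSeries) : twist ξ x ∈ intSeries := fun n => by
  rw [twist_coeff]
  exact (hξ n).mul (hx n)

theorem isIntegral_zpow_of_pow_eq_one (ξ : ℂˣ) {p : ℕ} (hp : 0 < p) (h : ξ ^ p = 1) (n : ℤ) :
    IsIntegral ℤ ((ξ ^ n : ℂˣ) : ℂ) := by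
  refine ⟨X ^ p - 1, monic_X_pow_sub_C 1 hp.ne', ?_⟩
  have h1 : ((ξ ^ n : ℂˣ) : ℂ) ^ p = 1 := by
    rw [← Units.val_pow_eq_pow_val, ← zpow_natCast, ← zpow_mul, mul_comm, zpow_mul, zpow_natCast,
      h, one_zpow, Units.val_one]
  rw [eval₂_sub, eval₂_X_pow, eval₂_one, h1, sub_self]

/-- A series with algebraic integer coefficients which is fixed by every coefficientwise ring
endomorphism of `ℂ` has coefficients in `ℤ`. -/
theorem mem_range_coeffMap_intCast {x : LaurentSeries ℂ} (hx : x ∈ intSeries)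
    (hσ : ∀ σ : ℂ →+* ℂ, coeffMap σ x = x) :
    x ∈ Set.range (coeffMap (Int.castRingHom ℂ)) := by
  rw [mem_range_coeffMap_iff _ (RingHom.injective_int (Int.castRingHom ℂ))]
  intro n
  refine mem_range_intCast_of_isIntegral _ (hx n) fun σ => ?_
  rw [← coeffMap_coeff, hσ σ]

theorem coeffMap_coeffMap_intCast (σ : ℂ →+* ℂ) (f : LaurentSeries ℤ) :
    coeffMap σ (coeffMap (Int.castRingHom ℂ) f) = coeffMap (Int.castRingHom ℂ) f := by
  rw [coeffMap_coeffMap]
  exact coeffMap_congr (RingHom.ext_int _ _) f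

theorem coeffMap_twist (σ : ℂ →+* ℂ) (ξ : ℂˣ) (x : LaurentSeries ℂ) :
    coeffMap σ (twist ξ x) = twist (Units.map (σ : ℂ →* ℂ) ξ) (coeffMap σ x) := by
  ext n
  rw [coeffMap_coeff, twist_coeff, twist_coeff, coeffMap_coeff, map_mul, ← map_zpow]
  rfl

end Complex

section Symm

variable {L : Type*} [CommRing L] {ι : Type*} [Fintype ι]

/-- `∏_x (Y - r_x)` -/
noncomputable def phiS (r : ι → L) : L[X] := ∏ x, (X - C (r x))

/-- `∑_x u_x ∏_{y ≠ x} (Y - r_y)` -/
noncomputable def lamS [DecidableEq ι] (r u : ι → L) : L[X] :=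
  ∑ x, C (u x) * ∏ y ∈ Finset.univ.erase x, (X - C (r y))

theorem phiS_monic (r : ι → L) : (phiS r).Monic :=
  monic_prod_of_monic _ _ fun _ _ => monic_X_sub_C _

theorem phiS_natDegree [Nontrivial L] (r : ι → L) : (phiS r).natDegree = Fintype.card ι := by
  rw [phiS, natDegree_prod_of_monic _ _ fun _ _ => monic_X_sub_C _]
  simp

theorem phiS_map {L' : Type*} [CommRing L'] (θ : L →+* L') (r : ι → L) :
    (phiS r).map θ = phiS (fun x => θ (r x)) := by
  simp only [phiS, Polynomial.map_prod, Polynomial.map_sub, Polynomial.map_X, Polynomial.map_C]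

theorem phiS_comp_perm (r : ι → L) (π : Equiv.Perm ι) : phiS (fun x => r (π x)) = phiS r :=
  Equiv.prod_comp π (fun x => X - C (r x))

theorem lamS_map [DecidableEq ι] {L' : Type*} [CommRing L'] (θ : L →+* L') (r u : ι → L) :
    (lamS r u).map θ = lamS (fun x => θ (r x)) (fun x => θ (u x)) := by
  simp only [lamS, Polynomial.map_sum, Polynomial.map_mul, Polynomial.map_prod,
    Polynomial.map_sub, Polynomial.map_X, Polynomial.map_C]

theorem lamS_comp_perm [DecidableEq ι] (r u : ι → L) (π : Equiv.Perm ι) :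
    lamS (fun x => r (π x)) (fun x => u (π x)) = lamS r u := by
  unfold lamS
  have inner : ∀ x : ι,
      ∏ y ∈ Finset.univ.erase x, (X - C (r (π y))) =
      ∏ y ∈ Finset.univ.erase (π x), (X - C (r y)) := by
    intro x
    refine Finset.prod_bij (fun y _ => π y) ?_ ?_ ?_ ?_
    · intro y hy
      simp only [Finset.mem_erase, Finset.mem_univ, and_true] at hy ⊢
      exact fun h => hy (π.injective h)
    · intro y₁ _ y₂ _ h
      exact π.injective h
    · intro y hy
      refine ⟨π.symm y, ?_, by simp⟩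
      simp only [Finset.mem_erase, Finset.mem_univ, and_true] at hy ⊢
      intro h
      apply hy
      rw [← h]
      simp
    · intro y _
      rfl
  simp_rw [inner]
  exact Equiv.sum_comp π (fun x => C (u x) * ∏ y ∈ Finset.univ.erase x, (X - C (r y)))

/-- If `θ` permutes the family `r`, it fixes `phiS r`. -/
theorem phiS_map_of_perm (θ : L →+* L) (r : ι → L) (π : Equiv.Perm ι)
    (h : ∀ x, θ (r x) = r (π x)) : (phiS r).map θ = phiS r := by
  rw [phiS_map]
  simp_rw [h]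
  exact phiS_comp_perm r π

/-- If `θ` permutes the families `r`, `u` simultaneously, it fixes `lamS r u`. -/
theorem lamS_map_of_perm [DecidableEq ι] (θ : L →+* L) (r u : ι → L) (π : Equiv.Perm ι)
    (hr : ∀ x, θ (r x) = r (π x)) (hu : ∀ x, θ (u x) = u (π x)) :
    (lamS r u).map θ = lamS r u := by
  rw [lamS_map]
  simp_rw [hr, hu]
  exact lamS_comp_perm r u π

theorem phiS_mem_lifts (S : Subring L) (r : ι → L) (hr : ∀ x, r x ∈ S) :
    phiS r ∈ lifts S.subtype := by
  unfold phiS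
  refine Subsemiring.prod_mem _ fun x _ => ?_
  rw [lifts_iff_coeff_lifts]
  intro n
  rw [coeff_sub, coeff_X, coeff_C]
  refine ⟨⟨_, S.sub_mem (?_ : (if 1 = n then (1 : L) else 0) ∈ S)
    (?_ : (if n = 0 then r x else 0) ∈ S)⟩, rfl⟩
  · split_ifs
    · exact S.one_mem
    · exact S.zero_mem
  · split_ifs
    · exact hr x
    · exact S.zero_mem

theorem lamS_mem_lifts [DecidableEq ι] (S : Subring L) (r u : ι → L) (hr : ∀ x, r x ∈ S)
    (hu : ∀ x, u x ∈ S) : lamS r u ∈ lifts S.subtype := by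
  unfold lamS
  refine Subsemiring.sum_mem _ fun x _ => Subsemiring.mul_mem _ ?_ ?_
  · exact (lifts_iff_coeff_lifts _).mpr fun n => by
      rw [coeff_C]
      split_ifs
      · exact ⟨⟨_, hu x⟩, rfl⟩
      · exact ⟨0, map_zero _⟩
  · refine Subsemiring.prod_mem _ fun y _ => ?_
    rw [lifts_iff_coeff_lifts]
    intro n
    rw [coeff_sub, coeff_X, coeff_C]
    refine ⟨⟨_, S.sub_mem (?_ : (if 1 = n then (1 : L) else 0) ∈ S)
      (?_ : (if n = 0 then r y else 0) ∈ S)⟩, rfl⟩
    · split_ifs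
      · exact S.one_mem
      · exact S.zero_mem
    · split_ifs
      · exact hr y
      · exact S.zero_mem

theorem coeff_mem_of_mem_lifts (S : Subring L) {P : L[X]} (h : P ∈ lifts S.subtype) (n : ℕ) :
    P.coeff n ∈ S := by
  rw [lifts_iff_coeff_lifts] at h
  obtain ⟨y, hy⟩ := h n
  rw [← hy]
  exact y.2

/-- evaluation of `lamS` at one of the roots -/
theorem lamS_eval [DecidableEq ι] (r u : ι → L) (x₀ : ι) :
    (lamS r u).eval (r x₀) = u x₀ * (derivative (phiS r)).eval (r x₀) := by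
  have hder : (derivative (phiS r)).eval (r x₀) =
      ∏ y ∈ Finset.univ.erase x₀, (r x₀ - r y) := by
    rw [phiS, derivative_prod_finset]
    simp only [derivative_sub, derivative_X, derivative_C, sub_zero, mul_one]
    rw [eval_finsetSum, Finset.sum_eq_single x₀]
    · simp [eval_prod]
    · intro b _ hb
      rw [eval_prod]
      refine Finset.prod_eq_zero (i := x₀) ?_ ?_
      · simp [Ne.symm hb]
      · simp
    · intro h
      exact absurd (Finset.mem_univ _) h
  rw [hder, lamS, eval_finsetSum, Finset.sum_eq_single x₀]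
  · simp [eval_prod]
  · intro b _ hb
    rw [eval_mul, eval_prod]
    rw [Finset.prod_eq_zero (i := x₀) (by simp [Ne.symm hb]) (by simp), mul_zero]
  · intro h
    exact absurd (Finset.mem_univ _) h

theorem phiS_eval_root (r : ι → L) (x₀ : ι) : (phiS r).eval (r x₀) = 0 := by
  rw [phiS, eval_prod]
  exact Finset.prod_eq_zero (Finset.mem_univ x₀) (by simp)

end Symm

section Family

variable {k : Type*} [CommRing k] (p : ℕ) [NeZero p]

/-- the family `∞ ↦ g`, `b ↦ f(ζ^b t)` indexed by `ℙ¹(𝔽_p)` -/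
noncomputable def famAt (ζ : kˣ) (f g : LaurentSeries k) (x : OnePoint (ZMod p)) :
    LaurentSeries k :=
  OnePoint.elim x g (fun b => twist (ζ ^ b.val) f)

@[simp] theorem famAt_infty (ζ : kˣ) (f g : LaurentSeries k) :
    famAt p ζ f g OnePoint.infty = g := rfl

@[simp] theorem famAt_coe (ζ : kˣ) (f g : LaurentSeries k) (b : ZMod p) :
    famAt p ζ f g (b : OnePoint (ZMod p)) = twist (ζ ^ b.val) f := rfl

/-- the permutation `b ↦ b + 1`, `∞ ↦ ∞` -/
def shiftPerm : Equiv.Perm (OnePoint (ZMod p)) :=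
  (Equiv.optionCongr (Equiv.addRight (1 : ZMod p)) : Option (ZMod p) ≃ Option (ZMod p))

/-- the permutation `b ↦ a b`, `∞ ↦ ∞` -/
def scalePerm (a : (ZMod p)ˣ) : Equiv.Perm (OnePoint (ZMod p)) :=
  (Equiv.optionCongr (Units.mulLeft a) : Option (ZMod p) ≃ Option (ZMod p))

theorem shiftPerm_infty : shiftPerm p OnePoint.infty = OnePoint.infty := rfl

theorem shiftPerm_coe (b : ZMod p) :
    shiftPerm p (b : OnePoint (ZMod p)) = ((b + 1 : ZMod p) : OnePoint (ZMod p)) := rfl

theorem scalePerm_infty (a : (ZMod p)ˣ) : scalePerm p a OnePoint.infty = OnePoint.infty := rfl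

theorem scalePerm_coe (a : (ZMod p)ˣ) (b : ZMod p) :
    scalePerm p a (b : OnePoint (ZMod p)) = (((a : ZMod p) * b : ZMod p) : OnePoint (ZMod p)) :=
  rfl

theorem twist_famAt (hp : 1 < p) (ζ : kˣ) (hζ : ζ ^ p = 1) (f g : LaurentSeries k)
    (hg : twist ζ g = g) (x : OnePoint (ZMod p)) :
    twist ζ (famAt p ζ f g x) = famAt p ζ f g (shiftPerm p x) := by
  induction x using OnePoint.rec with
  | infty => rw [shiftPerm_infty, famAt_infty, hg]
  | coe b =>
    haveI : Fact (1 < p) := ⟨hp⟩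
    rw [shiftPerm_coe, famAt_coe, famAt_coe, Fermat.Agent.H76.twist_twist, ZMod.val_add,
      ZMod.val_one, ← pow_eq_pow_mod _ hζ, pow_succ']

theorem famAt_pow (ζ : kˣ) (hζ : ζ ^ p = 1) (f g : LaurentSeries k) (a : (ZMod p)ˣ)
    (x : OnePoint (ZMod p)) :
    famAt p (ζ ^ (a : ZMod p).val) f g x = famAt p ζ f g (scalePerm p a x) := by
  induction x using OnePoint.rec with
  | infty => rfl
  | coe b =>
    rw [scalePerm_coe, famAt_coe, famAt_coe, ZMod.val_mul, ← pow_eq_pow_mod _ hζ, pow_mul]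

end Family

section FamilyComplex

variable (p : ℕ) [NeZero p]

theorem coeffMap_famAt (σ : ℂ →+* ℂ) (ζ : ℂˣ) (f g : LaurentSeries ℂ)
    (hf : coeffMap σ f = f) (hg : coeffMap σ g = g) (x : OnePoint (ZMod p)) :
    coeffMap σ (famAt p ζ f g x) = famAt p (Units.map (σ : ℂ →* ℂ) ζ) f g x := by
  induction x using OnePoint.rec with
  | infty => rw [famAt_infty, famAt_infty, hg]
  | coe b => rw [famAt_coe, famAt_coe, coeffMap_twist, hf, map_pow]

/-- every ring endomorphism of `ℂ` sends a primitive `p`-th root of unity to a power of it with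
exponent prime to `p` -/
theorem exists_unit_map_eq_pow (hp : p.Prime) (σ : ℂ →+* ℂ) (ζ : ℂˣ)
    (hζ : IsPrimitiveRoot (ζ : ℂ) p) :
    ∃ a : (ZMod p)ˣ, Units.map (σ : ℂ →* ℂ) ζ = ζ ^ (a : ZMod p).val := by
  have h1 : IsPrimitiveRoot (σ (ζ : ℂ)) p := hζ.map_of_injective σ.injective
  obtain ⟨i, hi, hiζ⟩ := hζ.eq_pow_of_pow_eq_one h1.pow_eq_one
  have hcop : i.Coprime p := by
    rw [← hζ.pow_iff_coprime hp.pos i, hiζ]
    exact h1
  refine ⟨ZMod.unitOfCoprime i hcop, ?_⟩
  rw [ZMod.coe_unitOfCoprime, ZMod.val_natCast, Nat.mod_eq_of_lt hi]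
  apply Units.ext
  rw [Units.val_pow_eq_pow_val, hiζ]
  rfl

theorem famAt_mem_intSeries (ζ : ℂˣ) (hζ : ζ ^ p = 1) (f g : LaurentSeries ℂ)
    (hf : f ∈ intSeries) (hg : g ∈ intSeries) (x : OnePoint (ZMod p)) :
    famAt p ζ f g x ∈ intSeries := by
  induction x using OnePoint.rec with
  | infty => exact hg
  | coe b =>
    rw [famAt_coe]
    refine twist_mem_intSeries _ (fun n => ?_) hf
    refine isIntegral_zpow_of_pow_eq_one _ (Nat.pos_of_ne_zero (NeZero.ne p)) ?_ n
    rw [← pow_mul, mul_comm, pow_mul, hζ, one_pow]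

/-- the coefficient embedding `ℤ((q)) → ℂ((t))`, `q ↦ t^p` -/
noncomputable def iotaP : LaurentSeries ℤ →+* LaurentSeries ℂ :=
  (qExpand ℂ p).comp (coeffMap (Int.castRingHom ℂ))

theorem iotaP_apply (x : LaurentSeries ℤ) :
    iotaP p x = qExpand ℂ p (coeffMap (Int.castRingHom ℂ) x) := rfl

theorem iotaP_apply' (x : LaurentSeries ℤ) :
    iotaP p x = coeffMap (Int.castRingHom ℂ) (qExpand ℤ p x) := by
  rw [iotaP_apply, coeffMap_qExpand]

/-- A series over `ℂ` with algebraic integer coefficients, invariant under all coefficientwise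
ring endomorphisms and under `t ↦ ζ t`, comes from `ℤ((q))` via `q ↦ t^p`. -/
theorem mem_range_iotaP (ζ : ℂˣ) (hζ : IsPrimitiveRoot (ζ : ℂ) p) {x : LaurentSeries ℂ}
    (hx : x ∈ intSeries) (hσ : ∀ σ : ℂ →+* ℂ, coeffMap σ x = x) (ht : twist ζ x = x) :
    x ∈ Set.range (iotaP p) := by
  obtain ⟨y, rfl⟩ := mem_range_coeffMap_intCast hx hσ
  rw [Fermat.Agent.H76.twist_eq_self_iff p ζ hζ, Fermat.Agent.H76.mem_range_qExpand_iff] at ht
  have hy : y ∈ Set.range (qExpand ℤ p) := by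
    rw [Fermat.Agent.H76.mem_range_qExpand_iff]
    intro n hn
    have := ht n hn
    rw [coeffMap_coeff] at this
    exact RingHom.injective_int (Int.castRingHom ℂ) (by rw [this, map_zero])
  obtain ⟨z, rfl⟩ := hy
  exact ⟨z, iotaP_apply' p z⟩

/-- polynomial version of `mem_range_iotaP` -/
theorem mem_lifts_iotaP (ζ : ℂˣ) (hζ : IsPrimitiveRoot (ζ : ℂ) p) {P : (LaurentSeries ℂ)[X]}
    (hP : P ∈ lifts intSeries.subtype) (hσ : ∀ σ : ℂ →+* ℂ, P.map (coeffMap σ) = P)
    (ht : P.map (twist ζ) = P) : P ∈ lifts (iotaP p) := by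
  rw [lifts_iff_coeff_lifts]
  intro n
  refine mem_range_iotaP p ζ hζ (coeff_mem_of_mem_lifts _ hP n) (fun σ => ?_) ?_
  · conv_rhs => rw [← hσ σ]
    rw [coeff_map]
  · conv_rhs => rw [← ht]
    rw [coeff_map]

end FamilyComplex

section Conversions

variable {k : Type*} [CommRing k] (p : ℕ) [NeZero p]

theorem prod_zmod_val {M : Type*} [CommMonoid M] (F : ℕ → M) :
    ∏ b : ZMod p, F b.val = ∏ b ∈ Finset.range p, F b := by
  refine Finset.prod_bij' (fun b _ => b.val) (fun n _ => (n : ZMod p)) ?_ ?_ ?_ ?_ ?_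
  · intro b _
    exact Finset.mem_range.mpr (ZMod.val_lt b)
  · intro n _
    exact Finset.mem_univ _
  · intro b _
    exact ZMod.natCast_zmod_val b
  · intro n hn
    exact ZMod.val_natCast_of_lt (Finset.mem_range.mp hn)
  · intro b _
    rfl

theorem prod_onePoint {M : Type*} [CommMonoid M] (F : OnePoint (ZMod p) → M) :
    ∏ x, F x = F OnePoint.infty * ∏ b : ZMod p, F (b : OnePoint (ZMod p)) :=
  Fintype.prod_option F

theorem card_onePoint_zmod : Fintype.card (OnePoint (ZMod p)) = p + 1 := by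
  have : Fintype.card (OnePoint (ZMod p)) = Fintype.card (Option (ZMod p)) := rfl
  rw [this, Fintype.card_option, ZMod.card]

theorem phiS_famAt (ζ : kˣ) (f g : LaurentSeries k) :
    phiS (famAt p ζ f g) =
      (X - C g) * ∏ b ∈ Finset.range p, (X - C (twist (ζ ^ b) f)) := by
  rw [phiS, prod_onePoint, famAt_infty]
  simp only [famAt_coe]
  rw [prod_zmod_val p (fun b => X - C (twist (ζ ^ b) f))]

end Conversions

section Package

variable (p : ℕ) [NeZero p]

theorem coeffMap_deltaS' {A B : Type*} [CommRing A] [CommRing B] (φ : A →+* B) :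
    coeffMap φ (deltaS A) = deltaS B := by
  have h : (dedekindEtaUnit.map (Int.castRingHom A)).map φ =
      dedekindEtaUnit.map (Int.castRingHom B) := by
    ext n
    simp [PowerSeries.coeff_map]
  rw [deltaS, map_mul, coeffMap_single, map_one, coeffMap_ofPowerSeries, h, deltaS]

theorem coeffMap_deltaInvS' {A B : Type*} [CommRing A] [CommRing B] (φ : A →+* B) :
    coeffMap φ (deltaInvS A) = deltaInvS B := by
  have h : (dedekindEtaUnitInv.map (Int.castRingHom A)).map φ =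
      dedekindEtaUnitInv.map (Int.castRingHom B) := by
    ext n
    simp [PowerSeries.coeff_map]
  rw [deltaInvS, map_mul, coeffMap_single, map_one, coeffMap_ofPowerSeries, h, deltaInvS]

/-- the base series of the finite units: `Δ(t) / Δ(t^p)` -/
noncomputable def unitBase (k : Type*) [CommRing k] : LaurentSeries k :=
  deltaS k * qExpand k p (deltaInvS k)

theorem coeffMap_unitBase {A B : Type*} [CommRing A] [CommRing B] (φ : A →+* B) :
    coeffMap φ (unitBase p A) = unitBase p B := by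
  rw [unitBase, map_mul, coeffMap_qExpand, coeffMap_deltaS', coeffMap_deltaInvS', unitBase]

theorem coeffMap_rootInf' {A B : Type*} [CommRing A] [CommRing B] (φ : A →+* B) :
    coeffMap φ (rootInf A p) = rootInf B p := by
  rw [rootInf, coeffMap_qExpand, coeffMap_qExpand, coeffMap_jqModC, rootInf]

theorem coeffMap_unitInf' {A B : Type*} [CommRing A] [CommRing B] (φ : A →+* B) :
    coeffMap φ (unitInf A p) = unitInf B p := by
  rw [unitInf, map_mul, map_mul, map_pow, map_natCast, coeffMap_qExpand, coeffMap_qExpand,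
    coeffMap_qExpand, coeffMap_deltaS', coeffMap_deltaInvS', unitInf]

theorem twist_unitBase {k : Type*} [CommRing k] (ζ : kˣ) (hζ : ζ ^ p = 1) :
    twist ζ (unitBase p k) = unitFin p ζ := by
  rw [unitBase, map_mul, Fermat.Agent.H76.twist_qExpand p ζ hζ, unitFin]

theorem twist_rootInf {k : Type*} [CommRing k] (ζ : kˣ) (hζ : ζ ^ p = 1) :
    twist ζ (rootInf k p) = rootInf k p :=
  Fermat.Agent.H76.twist_qExpand p ζ hζ _

theorem unitInf_eq_qExpand (k : Type*) [CommRing k] :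
    unitInf k p = qExpand k p ((p : LaurentSeries k) ^ 12 * qExpand k p (deltaS k) * deltaInvS k) := by
  rw [unitInf, map_mul, map_mul, map_pow, map_natCast]

theorem twist_unitInf {k : Type*} [CommRing k] (ζ : kˣ) (hζ : ζ ^ p = 1) :
    twist ζ (unitInf k p) = unitInf k p := by
  rw [unitInf_eq_qExpand]
  exact Fermat.Agent.H76.twist_qExpand p ζ hζ _

/-- the `p + 1` conjugates of `j(t^{p²})` over `j(t^p)` -/
noncomputable def rFam (ζ : ℂˣ) : OnePoint (ZMod p) → LaurentSeries ℂ :=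
  famAt p ζ (jqModC ℂ) (rootInf ℂ p)

/-- the `p + 1` conjugates of the unit `p^12 Δ(t^{p²}) / Δ(t^p)` -/
noncomputable def uFam (ζ : ℂˣ) : OnePoint (ZMod p) → LaurentSeries ℂ :=
  famAt p ζ (unitBase p ℂ) (unitInf ℂ p)

theorem rFam_infty (ζ : ℂˣ) : rFam p ζ OnePoint.infty = rootInf ℂ p := rfl

theorem rFam_coe (ζ : ℂˣ) (b : ZMod p) :
    rFam p ζ (b : OnePoint (ZMod p)) = rootFin (ζ ^ b.val) := rfl

theorem uFam_infty (ζ : ℂˣ) : uFam p ζ OnePoint.infty = unitInf ℂ p := rfl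

theorem uFam_coe (ζ : ℂˣ) (hζ : ζ ^ p = 1) (b : ZMod p) :
    uFam p ζ (b : OnePoint (ZMod p)) = unitFin p (ζ ^ b.val) := by
  rw [uFam, famAt_coe, twist_unitBase]
  rw [← pow_mul, mul_comm, pow_mul, hζ, one_pow]

end Package

section Lifts

variable (p : ℕ) [NeZero p]

theorem coeffMap_eq_self_of_mem_range (σ : ℂ →+* ℂ) {f : LaurentSeries ℂ}
    (hf : f ∈ Set.range (coeffMap (Int.castRingHom ℂ))) : coeffMap σ f = f := by
  obtain ⟨f₀, rfl⟩ := hf
  exact coeffMap_coeffMap_intCast σ f₀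

theorem mem_intSeries_of_mem_range {f : LaurentSeries ℂ}
    (hf : f ∈ Set.range (coeffMap (Int.castRingHom ℂ))) : f ∈ intSeries := by
  obtain ⟨f₀, rfl⟩ := hf
  exact coeffMap_intCast_mem_intSeries f₀

/-- the family `famAt` is permuted by every coefficientwise ring endomorphism of `ℂ` -/
theorem exists_perm_coeffMap_famAt (hp : p.Prime) (ζ : ℂˣ) (hζ : IsPrimitiveRoot (ζ : ℂ) p)
    (σ : ℂ →+* ℂ) :
    ∃ π : Equiv.Perm (OnePoint (ZMod p)), ∀ (f g : LaurentSeries ℂ),
      f ∈ Set.range (coeffMap (Int.castRingHom ℂ)) →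
      g ∈ Set.range (coeffMap (Int.castRingHom ℂ)) →
      ∀ x, coeffMap σ (famAt p ζ f g x) = famAt p ζ f g (π x) := by
  obtain ⟨a, ha⟩ := exists_unit_map_eq_pow p hp σ ζ hζ
  have hζp : ζ ^ p = 1 := Units.ext (by rw [Units.val_pow_eq_pow_val, hζ.pow_eq_one]; rfl)
  refine ⟨scalePerm p a, fun f g hf hg x => ?_⟩
  rw [coeffMap_famAt p σ ζ f g (coeffMap_eq_self_of_mem_range σ hf)
    (coeffMap_eq_self_of_mem_range σ hg), ha, famAt_pow p ζ hζp]

/-- integrality and `t^p`-ness of `∏_x (Y - r_x)` -/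
theorem phiS_famAt_mem_lifts (hp : p.Prime) (ζ : ℂˣ) (hζ : IsPrimitiveRoot (ζ : ℂ) p)
    (f g : LaurentSeries ℂ) (hf : f ∈ Set.range (coeffMap (Int.castRingHom ℂ)))
    (hg : g ∈ Set.range (coeffMap (Int.castRingHom ℂ))) (hgt : twist ζ g = g) :
    phiS (famAt p ζ f g) ∈ lifts (iotaP p) := by
  have hζp : ζ ^ p = 1 := Units.ext (by rw [Units.val_pow_eq_pow_val, hζ.pow_eq_one]; rfl)
  refine mem_lifts_iotaP p ζ hζ ?_ (fun σ => ?_) ?_
  · exact phiS_mem_lifts _ _ fun x => famAt_mem_intSeries p ζ hζp f g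
      (mem_intSeries_of_mem_range hf) (mem_intSeries_of_mem_range hg) x
  · obtain ⟨π, hπ⟩ := exists_perm_coeffMap_famAt p hp ζ hζ σ
    exact phiS_map_of_perm _ _ π (hπ f g hf hg)
  · exact phiS_map_of_perm _ _ (shiftPerm p) (twist_famAt p hp.one_lt ζ hζp f g hgt)

/-- integrality and `t^p`-ness of `∑_x u_x ∏_{y ≠ x} (Y - r_y)` -/
theorem lamS_famAt_mem_lifts [DecidableEq (OnePoint (ZMod p))] (hp : p.Prime) (ζ : ℂˣ)
    (hζ : IsPrimitiveRoot (ζ : ℂ) p)
    (f g f' g' : LaurentSeries ℂ) (hf : f ∈ Set.range (coeffMap (Int.castRingHom ℂ)))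
    (hg : g ∈ Set.range (coeffMap (Int.castRingHom ℂ))) (hgt : twist ζ g = g)
    (hf' : f' ∈ Set.range (coeffMap (Int.castRingHom ℂ)))
    (hg' : g' ∈ Set.range (coeffMap (Int.castRingHom ℂ))) (hgt' : twist ζ g' = g') :
    lamS (famAt p ζ f g) (famAt p ζ f' g') ∈ lifts (iotaP p) := by
  have hζp : ζ ^ p = 1 := Units.ext (by rw [Units.val_pow_eq_pow_val, hζ.pow_eq_one]; rfl)
  refine mem_lifts_iotaP p ζ hζ ?_ (fun σ => ?_) ?_
  · exact lamS_mem_lifts _ _ _
      (fun x => famAt_mem_intSeries p ζ hζp f g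
        (mem_intSeries_of_mem_range hf) (mem_intSeries_of_mem_range hg) x)
      (fun x => famAt_mem_intSeries p ζ hζp f' g'
        (mem_intSeries_of_mem_range hf') (mem_intSeries_of_mem_range hg') x)
  · obtain ⟨π, hπ⟩ := exists_perm_coeffMap_famAt p hp ζ hζ σ
    exact lamS_map_of_perm _ _ _ π (hπ f g hf hg) (hπ f' g' hf' hg')
  · exact lamS_map_of_perm _ _ _ (shiftPerm p) (twist_famAt p hp.one_lt ζ hζp f g hgt)
      (twist_famAt p hp.one_lt ζ hζp f' g' hgt')

theorem jqModC_mem_range : jqModC ℂ ∈ Set.range (coeffMap (Int.castRingHom ℂ)) :=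
  ⟨jqModC ℤ, coeffMap_jqModC _⟩

theorem rootInf_mem_range : rootInf ℂ p ∈ Set.range (coeffMap (Int.castRingHom ℂ)) :=
  ⟨rootInf ℤ p, coeffMap_rootInf' p _⟩

theorem unitBase_mem_range : unitBase p ℂ ∈ Set.range (coeffMap (Int.castRingHom ℂ)) :=
  ⟨unitBase p ℤ, coeffMap_unitBase p _⟩

theorem unitInf_mem_range : unitInf ℂ p ∈ Set.range (coeffMap (Int.castRingHom ℂ)) :=
  ⟨unitInf ℤ p, coeffMap_unitInf' p _⟩

variable (hp : p.Prime) (ζ : ℂˣ) (hζ : IsPrimitiveRoot (ζ : ℂ) p)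

include hp hζ

theorem phiS_rFam_mem_lifts : phiS (rFam p ζ) ∈ lifts (iotaP p) :=
  phiS_famAt_mem_lifts p hp ζ hζ _ _ jqModC_mem_range (rootInf_mem_range p)
    (twist_rootInf p ζ (Units.ext (by rw [Units.val_pow_eq_pow_val, hζ.pow_eq_one]; rfl)))

theorem phiS_uFam_mem_lifts : phiS (uFam p ζ) ∈ lifts (iotaP p) :=
  phiS_famAt_mem_lifts p hp ζ hζ _ _ (unitBase_mem_range p) (unitInf_mem_range p)
    (twist_unitInf p ζ (Units.ext (by rw [Units.val_pow_eq_pow_val, hζ.pow_eq_one]; rfl)))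

theorem lamS_rFam_uFam_mem_lifts [DecidableEq (OnePoint (ZMod p))] :
    lamS (rFam p ζ) (uFam p ζ) ∈ lifts (iotaP p) :=
  lamS_famAt_mem_lifts p hp ζ hζ _ _ _ _ jqModC_mem_range (rootInf_mem_range p)
    (twist_rootInf p ζ (Units.ext (by rw [Units.val_pow_eq_pow_val, hζ.pow_eq_one]; rfl)))
    (unitBase_mem_range p) (unitInf_mem_range p)
    (twist_unitInf p ζ (Units.ext (by rw [Units.val_pow_eq_pow_val, hζ.pow_eq_one]; rfl)))

end Lifts

section Assembly

variable (p : ℕ) [NeZero p]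

theorem evalAt_baseS_eq (Q : ℤ[X]) :
    evalAt (baseS ℂ p) Q =
      qExpand ℂ p (aeval (jqModC ℂ) (Q.map (Int.castRingHom ℂ))) := by
  rw [aeval_def, eval₂_map, hom_eval₂, evalAt, baseS]
  have h : (qExpand ℂ p).comp ((algebraMap ℂ (LaurentSeries ℂ)).comp (Int.castRingHom ℂ)) =
      Int.castRingHom (LaurentSeries ℂ) := RingHom.ext_int _ _
  rw [h]
  rfl

theorem evalAt_baseS_injective : Function.Injective (evalAt (baseS ℂ p)) := by
  rw [injective_iff_map_eq_zero]
  intro Q hQ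
  rw [evalAt_baseS_eq] at hQ
  have h1 : aeval (jqModC ℂ) (Q.map (Int.castRingHom ℂ)) = 0 :=
    qExpand_injective (R := ℂ) p (by rw [hQ, map_zero])
  have h2 := eq_zero_of_aeval_jq_eq_zero _ h1
  exact Polynomial.map_injective _ (RingHom.injective_int (Int.castRingHom ℂ))
    (by rw [h2, Polynomial.map_zero])

/-- A polynomial over `ℂ((t))` which comes from `ℤ((q))` (via `q ↦ t^p`) and whose coefficients
are complex polynomials in `j(t^p)` is the image of a polynomial in `ℤ[X][Y]`, `X ↦ j(t^p)`. -/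
theorem mem_lifts_evalAt_baseS {G : (LaurentSeries ℂ)[X]} (hG : G ∈ lifts (iotaP p))
    (hpoly : ∀ n, ∃ P : ℂ[X], G.coeff n = qExpand ℂ p (aeval (jqModC ℂ) P)) :
    G ∈ lifts (evalAt (baseS ℂ p)) := by
  rw [lifts_iff_coeff_lifts] at hG ⊢
  intro n
  obtain ⟨c, hc⟩ := hG n
  obtain ⟨P, hP⟩ := hpoly n
  have h1 : aeval (jqModC ℂ) P = coeffMap (Int.castRingHom ℂ) c := by
    apply qExpand_injective (R := ℂ) p
    rw [← hP, ← hc]
    rfl
  obtain ⟨Q, hQ, -⟩ := exists_int_poly_of_coeff_aeval_jq P fun m => by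
    rw [h1, coeffMap_coeff]
    exact ⟨c.coeff m, rfl⟩
  refine ⟨Q, ?_⟩
  rw [evalAt_baseS_eq, hQ, hP]

open Classical in
/-- **Assembly of the Hecke data over `ℂ`** from the analytic input: if every coefficient of the
three symmetric polynomials `∏_x (Y - r_x)`, `∏_x (Y - u_x)`, `∑_x u_x ∏_{y≠x} (Y - r_y)`
(formal series in `t`, indexed by `x ∈ ℙ¹(𝔽_p)`) is a complex polynomial in `j(t^p)`, then the
Hecke data exist. Integrality of the three polynomials is automatic. -/
theorem nonempty_heckeDataOver_of_poly (hp : p.Prime) (ζ : ℂˣ) (hζ : IsPrimitiveRoot (ζ : ℂ) p)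
    (hΦ : ∀ n, ∃ P : ℂ[X], (phiS (rFam p ζ)).coeff n = qExpand ℂ p (aeval (jqModC ℂ) P))
    (hΨ : ∀ n, ∃ P : ℂ[X], (phiS (uFam p ζ)).coeff n = qExpand ℂ p (aeval (jqModC ℂ) P))
    (hL : ∀ n, ∃ P : ℂ[X],
      (lamS (rFam p ζ) (uFam p ζ)).coeff n = qExpand ℂ p (aeval (jqModC ℂ) P)) :
    Nonempty (HeckeDataOver p ℂ ζ) := by
  obtain ⟨Φ, hΦ'⟩ := (mem_lifts _).mp
    (mem_lifts_evalAt_baseS p (phiS_rFam_mem_lifts p hp ζ hζ) hΦ)
  obtain ⟨Ψ, hΨ'⟩ := (mem_lifts _).mp
    (mem_lifts_evalAt_baseS p (phiS_uFam_mem_lifts p hp ζ hζ) hΨ)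
  obtain ⟨L, hL'⟩ := (mem_lifts _).mp
    (mem_lifts_evalAt_baseS p (lamS_rFam_uFam_mem_lifts p hp ζ hζ) hL)
  have hinj := evalAt_baseS_injective p
  refine ⟨{
    Φ := Φ
    Ψ := Ψ
    L := L
    Φ_monic := monic_of_injective hinj (by rw [hΦ']; exact phiS_monic _)
    Φ_natDegree := by
      rw [← natDegree_map_eq_of_injective hinj, hΦ', phiS_natDegree, card_onePoint_zmod]
    Ψ_monic := monic_of_injective hinj (by rw [hΨ']; exact phiS_monic _)
    Φ_factor := by
      rw [hΦ', rFam, phiS_famAt]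
      rfl
    Ψ_root := by
      rw [hΨ', ← uFam_infty p ζ]
      exact phiS_eval_root _ _
    L_inf := by
      rw [hL', hΦ', ← rFam_infty p ζ, lamS_eval, uFam_infty] }⟩

end Assembly

end Fermat.Agent.H57
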