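/-
P-ES / ES-D, S18 core in abstract form (helper57).

`ReductionSetup`: a valuation subring `O` of a function field `FL/L` ("Gauss ring") with a
reduction homomorphism `red : O →+* Fk` into a second function field `Fk/k`, and a map `r` on
places such that `r_* div(u) = div(red u)` for every unit `u` of `O`.

`ReductionSetup.principal_of_torsion`: the leading-term argument.  If `T` is a finite set of
places of `Fk` with `L(∑_{Q ∈ T} Q) = k`, with `#T ≥ g_L` (Riemann inequality in `FL`) and with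
coordinates at the places of `T`, then a degree-zero divisor `D` of `FL` such that `m • D` is
principal (`m` invertible in `Fk`) and `r_* D` is principal is itself principal.
-/
import Mathlib
import Fermat.Agent.H23.PlaceBasic

set_option autoImplicit false

open AlgebraicCurve

namespace Fermat.Agent.H57

noncomputable section

/-- Abstract reduction data between two function fields. -/
structure ReductionSetup (L k FL Fk : Type*) [Field L] [Field k] [Field FL] [Field Fk]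
    [Algebra L FL] [Algebra k Fk] where
  /-- the Gauss valuation ring -/
  O : ValuationSubring FL
  /-- the reduction homomorphism -/
  red : O →+* Fk
  /-- the kernel of `red` is the maximal ideal -/
  red_eq_zero : ∀ x : O, red x = 0 ↔ ¬ IsUnit x
  /-- the value group of `O` is that of `O ∩ L` -/
  exists_scale : ∀ y : FL, y ≠ 0 →
    ∃ c : L, c ≠ 0 ∧ ∃ u : Oˣ, y = algebraMap L FL c * ((u : O) : FL)
  /-- constants reduce to constants -/
  red_const : ∀ (a : L) (ha : algebraMap L FL a ∈ O),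
    ∃ b : k, red ⟨algebraMap L FL a, ha⟩ = algebraMap k Fk b
  /-- the reduction map on places -/
  r : Place L FL → Place k Fk
  /-- conservation of divisors of units -/
  ord_red : ∀ (u : Oˣ) (D : Divisor L FL), (∀ P, D P = P.ord (((u : O) : FL))) →
    ∀ Q, Finsupp.mapDomain r D Q = Q.ord (red (u : O))

variable {L k FL Fk : Type*} [Field L] [Field k] [Field FL] [Field Fk]
  [Algebra L FL] [Algebra k Fk]

namespace ReductionSetup

variable (G : ReductionSetup L k FL Fk)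

/-! ### The valuation and the reduction as a function on `FL` -/

/-- the Gauss valuation -/
def V : Valuation FL G.O.ValueGroup := G.O.valuation

open Classical in
/-- the reduction, extended by zero outside `O` -/
def rd (x : FL) : Fk := if h : x ∈ G.O then G.red ⟨x, h⟩ else 0

theorem mem_iff {x : FL} : x ∈ G.O ↔ G.V x ≤ 1 := (G.O.valuation_le_one_iff x).symm

theorem rd_of_mem {x : FL} (h : x ∈ G.O) : G.rd x = G.red ⟨x, h⟩ := dif_pos h

theorem rd_of_le {x : FL} (h : G.V x ≤ 1) : G.rd x = G.red ⟨x, G.mem_iff.mpr h⟩ :=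
  dif_pos _

theorem rd_coe (x : G.O) : G.rd (x : FL) = G.red x := by
  rw [G.rd_of_mem x.2]

theorem rd_zero : G.rd 0 = 0 := by
  rw [G.rd_of_mem G.O.zero_mem]; exact map_zero _

theorem rd_one : G.rd 1 = 1 := by
  rw [G.rd_of_mem G.O.one_mem]; exact map_one _

theorem rd_add {x y : FL} (hx : G.V x ≤ 1) (hy : G.V y ≤ 1) :
    G.rd (x + y) = G.rd x + G.rd y := by
  have hx' := G.mem_iff.mpr hx
  have hy' := G.mem_iff.mpr hy
  rw [G.rd_of_mem hx', G.rd_of_mem hy', G.rd_of_mem (add_mem hx' hy'), ← map_add]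
  rfl

theorem rd_mul {x y : FL} (hx : G.V x ≤ 1) (hy : G.V y ≤ 1) :
    G.rd (x * y) = G.rd x * G.rd y := by
  have hx' := G.mem_iff.mpr hx
  have hy' := G.mem_iff.mpr hy
  rw [G.rd_of_mem hx', G.rd_of_mem hy', G.rd_of_mem (mul_mem hx' hy'), ← map_mul]
  rfl

theorem rd_neg {x : FL} (hx : G.V x ≤ 1) : G.rd (-x) = -G.rd x := by
  have hx' := G.mem_iff.mpr hx
  rw [G.rd_of_mem hx', G.rd_of_mem (neg_mem hx'), ← map_neg]
  rfl

theorem rd_sub {x y : FL} (hx : G.V x ≤ 1) (hy : G.V y ≤ 1) :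
    G.rd (x - y) = G.rd x - G.rd y := by
  rw [sub_eq_add_neg, G.rd_add hx (by rwa [Valuation.map_neg]), G.rd_neg hy, sub_eq_add_neg]

theorem rd_eq_zero_iff {x : FL} (hx : G.V x ≤ 1) : G.rd x = 0 ↔ G.V x < 1 := by
  rw [G.rd_of_le hx, G.red_eq_zero, G.O.valuation_eq_one_iff]
  constructor
  · intro h
    exact lt_of_le_of_ne hx h
  · intro h
    exact ne_of_lt h

theorem rd_eq_zero_of_lt {x : FL} (hx : G.V x < 1) : G.rd x = 0 :=
  (G.rd_eq_zero_iff hx.le).mpr hx

theorem rd_ne_zero {x : FL} (hx : G.V x = 1) : G.rd x ≠ 0 := by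
  intro h
  have := (G.rd_eq_zero_iff hx.le).mp h
  rw [hx] at this
  exact lt_irrefl _ this

theorem V_eq_one_of_rd_ne_zero {x : FL} (hx : G.rd x ≠ 0) : G.V x = 1 := by
  by_cases h : x ∈ G.O
  · have hle := G.mem_iff.mp h
    rcases lt_or_eq_of_le hle with h1 | h1
    · exact absurd (G.rd_eq_zero_of_lt h1) hx
    · exact h1
  · exact absurd (dif_neg h) hx

theorem ne_zero_of_V_eq_one {x : FL} (hx : G.V x = 1) : x ≠ 0 := by
  rintro rfl
  rw [Valuation.map_zero] at hx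
  exact zero_ne_one hx

theorem rd_add_of_lt {x y : FL} (hx : G.V x ≤ 1) (hy : G.V y < 1) :
    G.rd (x + y) = G.rd x := by
  rw [G.rd_add hx hy.le, G.rd_eq_zero_of_lt hy, add_zero]

theorem rd_sub_of_lt {x y : FL} (hx : G.V x ≤ 1) (hy : G.V y < 1) :
    G.rd (x - y) = G.rd x := by
  rw [G.rd_sub hx hy.le, G.rd_eq_zero_of_lt hy, sub_zero]

theorem rd_pow {x : FL} (hx : G.V x ≤ 1) (n : ℕ) : G.rd (x ^ n) = G.rd x ^ n := by
  induction n with
  | zero => simp [G.rd_one]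
  | succ n ih =>
    have hxn : G.V (x ^ n) ≤ 1 := by
      rw [map_pow]; exact pow_le_one₀ zero_le hx
    rw [pow_succ, G.rd_mul hxn hx, ih, pow_succ]

theorem rd_sum {ι : Type*} (s : Finset ι) (f : ι → FL) (hf : ∀ i ∈ s, G.V (f i) ≤ 1) :
    G.V (∑ i ∈ s, f i) ≤ 1 ∧ G.rd (∑ i ∈ s, f i) = ∑ i ∈ s, G.rd (f i) := by
  classical
  induction s using Finset.induction_on with
  | empty => simp [G.rd_zero]
  | insert a s ha ih =>
    have h1 := ih (fun i hi => hf i (Finset.mem_insert_of_mem hi))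
    have h2 := hf a (Finset.mem_insert_self a s)
    rw [Finset.sum_insert ha, Finset.sum_insert ha]
    exact ⟨Valuation.map_add_le _ h2 h1.1, by rw [G.rd_add h2 h1.1, h1.2]⟩

/-! ### Constants -/

/-- the constants of `FL` -/
def KL : Subfield FL := (algebraMap L FL).fieldRange

/-- the constants of `Fk` -/
def Kk : Subfield Fk := (algebraMap k Fk).fieldRange

omit [Field k] [Field Fk] [Algebra k Fk] in
theorem mem_KL {a : FL} : a ∈ (algebraMap L FL).fieldRange ↔ ∃ c : L, algebraMap L FL c = a :=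
  RingHom.mem_fieldRange

theorem rd_const {a : FL} (ha : a ∈ (algebraMap L FL).fieldRange) (hV : G.V a ≤ 1) :
    G.rd a ∈ (algebraMap k Fk).fieldRange := by
  obtain ⟨c, rfl⟩ := RingHom.mem_fieldRange.mp ha
  have hmem := G.mem_iff.mpr hV
  obtain ⟨b, hb⟩ := G.red_const c hmem
  rw [G.rd_of_mem hmem, hb]
  exact RingHom.mem_fieldRange.mpr ⟨b, rfl⟩

omit [Field k] [Field Fk] [Algebra k Fk] in
theorem ord_constL (P : Place L FL) {a : FL} (ha : a ∈ (algebraMap L FL).fieldRange) :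
    P.ord a = 0 := by
  obtain ⟨c, rfl⟩ := RingHom.mem_fieldRange.mp ha
  exact Fermat.Agent.H23.ord_algebraMap P c

omit [Field L] [Field FL] [Algebra L FL] in
theorem ord_constk (Q : Place k Fk) {b : Fk} (hb : b ∈ (algebraMap k Fk).fieldRange) :
    Q.ord b = 0 := by
  obtain ⟨c, rfl⟩ := RingHom.mem_fieldRange.mp hb
  exact Fermat.Agent.H23.ord_algebraMap Q c

omit [Field k] [Field Fk] [Algebra k Fk] in
theorem ord_constL_mul (P : Place L FL) {a : FL} (ha : a ∈ (algebraMap L FL).fieldRange)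
    (ha0 : a ≠ 0) (x : FL) : P.ord (a * x) = P.ord x := by
  rcases eq_or_ne x 0 with rfl | hx
  · simp
  · rw [P.ord_mul ha0 hx, ord_constL P ha, zero_add]

omit [Field L] [Field FL] [Algebra L FL] in
theorem ord_constk_mul (Q : Place k Fk) {b : Fk} (hb : b ∈ (algebraMap k Fk).fieldRange)
    (hb0 : b ≠ 0) (x : Fk) : Q.ord (b * x) = Q.ord x := by
  rcases eq_or_ne x 0 with rfl | hx
  · simp
  · rw [Q.ord_mul hb0 hx, ord_constk Q hb, zero_add]

/-- scaling: every nonzero element is a constant times a unit of `O` -/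
theorem exists_scale' {y : FL} (hy : y ≠ 0) :
    ∃ a ∈ (algebraMap L FL).fieldRange, a ≠ 0 ∧ ∃ u : FL, G.V u = 1 ∧ y = a * u := by
  obtain ⟨c, hc, u, hu⟩ := G.exists_scale y hy
  refine ⟨algebraMap L FL c, RingHom.mem_fieldRange.mpr ⟨c, rfl⟩, ?_, ((u : G.O) : FL), ?_, hu⟩
  · simpa using hc
  · exact G.O.valuation_unit u

/-- If `a w₂ = w₁` with `a` constant and `w₁`, `w₂` units of `O`, then the reductions have the
same order at every place. -/
theorem ord_rd_of_const_mul (Q : Place k Fk) {a w₁ w₂ : FL}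
    (ha : a ∈ (algebraMap L FL).fieldRange) (h1 : G.V w₁ = 1) (h2 : G.V w₂ = 1)
    (h : a * w₂ = w₁) : Q.ord (G.rd w₂) = Q.ord (G.rd w₁) := by
  have hVa : G.V a = 1 := by
    have := congrArg G.V h
    rw [map_mul, h1, h2, mul_one] at this
    exact this
  rw [← h, G.rd_mul hVa.le h2.le, ord_constk_mul Q (G.rd_const ha hVa.le) (G.rd_ne_zero hVa)]

/-! ### Fibre sums -/

omit [Field k] [Field Fk] [Algebra k Fk] in
theorem mapDomain_apply_eq_sum {α β : Type*} [DecidableEq β] (r : α → β) (D : α →₀ ℤ) (Q : β) :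
    Finsupp.mapDomain r D Q = ∑ P ∈ D.support with r P = Q, D P := by
  classical
  rw [Finsupp.mapDomain, Finsupp.sum, Finsupp.finsetSum_apply, Finset.sum_filter]
  refine Finset.sum_congr rfl fun P _ => ?_
  rw [Finsupp.single_apply]

theorem ord_rd_eq {x : FL} (hx : G.V x = 1) (D : Divisor L FL) (hD : ∀ P, D P = P.ord x)
    (Q : Place k Fk) : Finsupp.mapDomain G.r D Q = Q.ord (G.rd x) := by
  have hmem := G.mem_iff.mpr hx.le
  have hu : IsUnit (⟨x, hmem⟩ : G.O) := (G.O.valuation_eq_one_iff _).mpr hx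
  have := G.ord_red hu.unit D (fun P => by rw [hD P]; rfl) Q
  rw [this, G.rd_of_mem hmem]
  rfl

variable [HasPrincipalDivisors L FL]

/-- If `x` is a unit of `O` without poles in the fibre of `r` over `Q`, then the sum of the orders
of `x` over any finite part of the fibre is at most the order of the reduction at `Q`. -/
theorem sum_ord_le_ord_rd {x : FL} (hx : G.V x = 1) (Q : Place k Fk)
    (hnn : ∀ P, G.r P = Q → 0 ≤ P.ord x) (S : Finset (Place L FL))
    (hS : ∀ P ∈ S, G.r P = Q) : ∑ P ∈ S, P.ord x ≤ Q.ord (G.rd x) := by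
  classical
  obtain ⟨D, hD, -⟩ := HasPrincipalDivisors.exists_divisor (K := L) x (G.ne_zero_of_V_eq_one hx)
  rw [← G.ord_rd_eq hx D hD Q, mapDomain_apply_eq_sum]
  have h1 : ∑ P ∈ S, P.ord x = ∑ P ∈ S with P ∈ D.support, P.ord x := by
    rw [Finset.sum_filter]
    refine Finset.sum_congr rfl fun P _ => ?_
    split_ifs with h
    · rfl
    · rw [Finsupp.mem_support_iff, not_not] at h
      rw [← hD P, h]
  rw [h1]
  have h2 : ∑ P ∈ D.support with G.r P = Q, D P = ∑ P ∈ D.support with G.r P = Q, P.ord x :=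
    Finset.sum_congr rfl fun P _ => hD P
  rw [h2]
  refine Finset.sum_le_sum_of_subset_of_nonneg ?_ ?_
  · intro P hP
    rw [Finset.mem_filter] at hP ⊢
    exact ⟨hP.2, hS P hP.1⟩
  · intro P hP _
    rw [Finset.mem_filter] at hP
    exact hnn P hP.2

theorem ord_rd_nonneg {x : FL} (hx : G.V x = 1) (Q : Place k Fk)
    (hnn : ∀ P, G.r P = Q → 0 ≤ P.ord x) : 0 ≤ Q.ord (G.rd x) := by
  simpa using G.sum_ord_le_ord_rd hx Q hnn ∅ (by simp)

theorem ord_le_ord_rd {x : FL} (hx : G.V x = 1) (Q : Place k Fk)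
    (hnn : ∀ P, G.r P = Q → 0 ≤ P.ord x) (P : Place L FL) (hP : G.r P = Q) :
    P.ord x ≤ Q.ord (G.rd x) := by
  simpa using G.sum_ord_le_ord_rd hx Q hnn {P} (by simpa using hP)

theorem ord_add_ord_le_ord_rd {x : FL} (hx : G.V x = 1) (Q : Place k Fk)
    (hnn : ∀ P, G.r P = Q → 0 ≤ P.ord x) (P P' : Place L FL) (hP : G.r P = Q)
    (hP' : G.r P' = Q) (hne : P ≠ P') : P.ord x + P'.ord x ≤ Q.ord (G.rd x) := by
  classical
  have := G.sum_ord_le_ord_rd hx Q hnn {P, P'} (by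
    intro P'' h
    rw [Finset.mem_insert, Finset.mem_singleton] at h
    rcases h with rfl | rfl
    · exact hP
    · exact hP')
  rwa [Finset.sum_pair hne] at this


/-! ### Valuation helpers -/

omit [HasPrincipalDivisors L FL] in
theorem V_pos {a : FL} (ha : a ≠ 0) : 0 < G.V a :=
  zero_lt_iff.mpr ((Valuation.ne_zero_iff _).mpr ha)

omit [HasPrincipalDivisors L FL] in
theorem V_inv_le_one {a : FL} (h : 1 ≤ G.V a) : G.V a⁻¹ ≤ 1 := by
  rw [map_inv₀]
  exact inv_le_one_of_one_le₀ h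

omit [HasPrincipalDivisors L FL] in
theorem V_inv_eq_one {a : FL} (h : G.V a = 1) : G.V a⁻¹ = 1 := by
  rw [map_inv₀, h, inv_one]

omit [HasPrincipalDivisors L FL] in
theorem V_inv_mul_lt_one {a b : FL} (ha : a ≠ 0) (h : G.V b < G.V a) : G.V (a⁻¹ * b) < 1 := by
  rw [map_mul, map_inv₀]
  exact (inv_mul_lt_one₀ (G.V_pos ha)).mpr h

omit [HasPrincipalDivisors L FL] in
theorem V_inv_mul_eq_one {a b : FL} (ha : a ≠ 0) (h : G.V b = G.V a) : G.V (a⁻¹ * b) = 1 := by
  rw [map_mul, map_inv₀, h]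
  exact inv_mul_cancel₀ (G.V_pos ha).ne'

omit [HasPrincipalDivisors L FL] in
theorem V_mul_eq_one {x y : FL} (hx : G.V x = 1) (hy : G.V y = 1) : G.V (x * y) = 1 := by
  rw [map_mul, hx, hy, mul_one]

omit [HasPrincipalDivisors L FL] in
theorem V_pow_eq_one {x : FL} (hx : G.V x = 1) (n : ℕ) : G.V (x ^ n) = 1 := by
  rw [map_pow, hx, one_pow]

omit [HasPrincipalDivisors L FL] in
/-- if `a * u = w` with `V u = 1` then `V a = V w` -/
theorem V_of_mul_unit {a u w : FL} (hu : G.V u = 1) (h : a * u = w) : G.V a = G.V w := by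
  rw [← h, map_mul, hu, mul_one]

/-! ### The normalisation lemma -/

omit [HasPrincipalDivisors L FL] in
/-- If `x₁ = a₁ u₁` has constant reduction and `x₁ - 1 = a₂ u₂` has non-constant reduction, then
`x₁ - 1` has positive valuation. -/
theorem V_lt_one_of_sub_one {a₁ u₁ a₂ u₂ : FL}
    (ha₁ : a₁ ∈ (algebraMap L FL).fieldRange) (ha₂ : a₂ ∈ (algebraMap L FL).fieldRange)
    (ha₂0 : a₂ ≠ 0) (hu₁ : G.V u₁ = 1) (hu₂ : G.V u₂ = 1) (h : a₁ * u₁ - 1 = a₂ * u₂)
    (hc₁ : G.rd u₁ ∈ (algebraMap k Fk).fieldRange)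
    (hc₂ : G.rd u₂ ∉ (algebraMap k Fk).fieldRange) : G.V a₂ < 1 := by
  by_contra hge
  rw [not_lt] at hge
  have hb : G.V a₂⁻¹ ≤ 1 := G.V_inv_le_one hge
  have hbK : a₂⁻¹ ∈ (algebraMap L FL).fieldRange := inv_mem ha₂
  have key : (a₂⁻¹ * a₁) * u₁ = u₂ + a₂⁻¹ := by
    have : a₁ * u₁ = a₂ * u₂ + 1 := by rw [← h]; ring
    calc (a₂⁻¹ * a₁) * u₁ = a₂⁻¹ * (a₁ * u₁) := by ring
      _ = a₂⁻¹ * (a₂ * u₂ + 1) := by rw [this]
      _ = (a₂⁻¹ * a₂) * u₂ + a₂⁻¹ := by ring
      _ = u₂ + a₂⁻¹ := by rw [inv_mul_cancel₀ ha₂0, one_mul]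
  have hVsum : G.V (u₂ + a₂⁻¹) ≤ 1 := Valuation.map_add_le _ hu₂.le hb
  have hVc : G.V (a₂⁻¹ * a₁) ≤ 1 := by
    rw [G.V_of_mul_unit hu₁ key]; exact hVsum
  have hcK : a₂⁻¹ * a₁ ∈ (algebraMap L FL).fieldRange := mul_mem hbK ha₁
  have h1 := congrArg G.rd key
  rw [G.rd_mul hVc hu₁.le, G.rd_add hu₂.le hb] at h1
  apply hc₂
  have : G.rd u₂ = G.rd (a₂⁻¹ * a₁) * G.rd u₁ - G.rd a₂⁻¹ := by rw [h1]; ring
  rw [this]
  exact sub_mem (mul_mem (G.rd_const hcK hVc) hc₁) (G.rd_const hbK hb)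


/-! ### The local estimate (three-case argument) -/

omit [Field k] [Field Fk] [Algebra k Fk] [HasPrincipalDivisors L FL] in
theorem ord_sub_one_nonneg (P : Place L FL) {f : FL} (hf : f - 1 ≠ 0) (h : 0 ≤ P.ord f) :
    0 ≤ P.ord (f - 1) := by
  have h1 : f + (-1) ≠ 0 := by rwa [← sub_eq_add_neg]
  have := Fermat.Agent.H23.ord_add_ge P h1 0 (Or.inr h)
    (Or.inr (by rw [Fermat.Agent.H23.ord_neg, Place.ord_one]))
  rwa [← sub_eq_add_neg] at this

omit [Field k] [Field Fk] [Algebra k Fk] [HasPrincipalDivisors L FL] in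
theorem ord_pow' (P : Place L FL) (f : FL) (n : ℕ) : P.ord (f ^ n) = (n : ℤ) * P.ord f := by
  rw [← zpow_natCast, P.ord_zpow]

open Classical in
/-- **Local estimate.**  In the fibre of `r` over `Q` let `f ≡ 1` have divisor `m (Qz - P)`, and
let `t` be a coordinate at `P` on the fibre.  Then the leading term of `f - 1` has at most a simple
pole at `Q`. -/
theorem local_estimate (hdeg : ∀ P : Place L FL, P.deg = 1) (m : ℕ) (hm : (m : Fk) ≠ 0)
    (Q : Place k Fk) (P Qz : Place L FL) (hP : G.r P = Q) (hQz : G.r Qz = Q)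
    (t : FL) (htP : 1 ≤ P.ord t) (htQ : Q.ord (G.rd t) = 1)
    (htB : ∀ P', G.r P' = Q → 0 ≤ P'.ord t)
    (f : FL) (hf1 : G.V (f - 1) < 1)
    (hford : ∀ P', G.r P' = Q →
      P'.ord f = (m : ℤ) * ((if P' = Qz then 1 else 0) - (if P' = P then 1 else 0)))
    (a₂ u₂ : FL) (ha₂ : a₂ ∈ (algebraMap L FL).fieldRange) (ha₂0 : a₂ ≠ 0)
    (hu₂ : G.V u₂ = 1) (hfu : f - 1 = a₂ * u₂) :
    -1 ≤ Q.ord (G.rd u₂) := by
  classical
  -- basic facts on `t`
  have hrdt0 : G.rd t ≠ 0 := by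
    intro h0
    rw [h0, Place.ord_zero] at htQ
    exact zero_ne_one htQ
  have hVt : G.V t = 1 := G.V_eq_one_of_rd_ne_zero hrdt0
  have ht0 : t ≠ 0 := G.ne_zero_of_V_eq_one hVt
  have hPt : P.ord t = 1 := by
    have := G.ord_le_ord_rd hVt Q htB P hP
    rw [htQ] at this
    omega
  have hBt : ∀ P', G.r P' = Q → P' ≠ P → P'.ord t = 0 := by
    intro P' hP' hne
    have h1 := G.ord_add_ord_le_ord_rd hVt Q htB P P' hP hP' (Ne.symm hne)
    have h2 := htB P' hP'
    rw [htQ, hPt] at h1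
    omega
  -- basic facts on `f`
  have hu₂0 : u₂ ≠ 0 := G.ne_zero_of_V_eq_one hu₂
  have hf1ne : f - 1 ≠ 0 := by rw [hfu]; exact mul_ne_zero ha₂0 hu₂0
  have hVf : G.V f = 1 := by
    have := Valuation.map_one_add_of_lt (v := G.V) hf1
    rwa [add_sub_cancel] at this
  have hf0 : f ≠ 0 := G.ne_zero_of_V_eq_one hVf
  have hu₂ord : ∀ P' : Place L FL, P'.ord u₂ = P'.ord (f - 1) := by
    intro P'
    rw [hfu, ord_constL_mul P' ha₂ ha₂0]
  by_cases hQP : Qz = P
  · -- no zeros or poles of `f` in the fibre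
    have hnn : ∀ P', G.r P' = Q → 0 ≤ P'.ord u₂ := by
      intro P' hP'
      rw [hu₂ord]
      apply ord_sub_one_nonneg P' hf1ne
      rw [hford P' hP', hQP]
      simp
    have := G.ord_rd_nonneg hu₂ Q hnn
    omega
  -- the value of `t` at `Qz`
  have hQzt : Qz.ord t = 0 := hBt Qz hQz hQP
  obtain ⟨τ, hτ⟩ := Fermat.Agent.H23.exists_const_ord_sub_pos Qz (hdeg Qz)
    (f := t) (Or.inr (le_of_eq hQzt.symm))
  set a : FL := algebraMap L FL τ with ha_def
  have haK : a ∈ (algebraMap L FL).fieldRange := RingHom.mem_fieldRange.mpr ⟨τ, rfl⟩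
  have hta : t ≠ a := by
    intro h
    have := ord_constL P haK
    rw [← h, hPt] at this
    exact one_ne_zero this
  have hτpos : 0 < Qz.ord (t - a) := hτ.resolve_left hta
  have ha0 : a ≠ 0 := by
    intro h
    rw [h, sub_zero, hQzt] at hτpos
    exact lt_irrefl _ hτpos
  set x : FL := t - a with hx_def
  have hx0 : x ≠ 0 := sub_ne_zero.mpr hta
  have hxB : ∀ P', G.r P' = Q → 0 ≤ P'.ord x := by
    intro P' hP'
    have h1 : t + (-a) ≠ 0 := by rwa [← sub_eq_add_neg]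
    have := Fermat.Agent.H23.ord_add_ge P' h1 0 (Or.inr (htB P' hP'))
      (Or.inr (by rw [Fermat.Agent.H23.ord_neg, ord_constL P' haK]))
    rwa [← sub_eq_add_neg] at this
  -- `a` has positive valuation
  have hVa : G.V a < 1 := by
    by_contra hge
    rw [not_lt] at hge
    obtain ⟨ax, haxK, hax0, ux, hux, hxux⟩ := G.exists_scale' hx0
    have huxord : ∀ P' : Place L FL, P'.ord ux = P'.ord x := by
      intro P'
      rw [hxux, ord_constL_mul P' haxK hax0]
    have h1 : 1 ≤ Q.ord (G.rd ux) := by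
      have := G.ord_le_ord_rd hux Q (fun P' hP' => by rw [huxord]; exact hxB P' hP') Qz hQz
      rw [huxord] at this
      omega
    have hb : G.V a⁻¹ ≤ 1 := G.V_inv_le_one hge
    have hbK : a⁻¹ ∈ (algebraMap L FL).fieldRange := inv_mem haK
    have key : (a⁻¹ * ax) * ux = t * a⁻¹ - 1 := by
      calc (a⁻¹ * ax) * ux = a⁻¹ * (ax * ux) := by ring
        _ = a⁻¹ * x := by rw [← hxux]
        _ = t * a⁻¹ - a⁻¹ * a := by rw [hx_def]; ring
        _ = t * a⁻¹ - 1 := by rw [inv_mul_cancel₀ ha0]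
    have hVtb : G.V (t * a⁻¹) ≤ 1 := by
      rw [map_mul, hVt, one_mul]; exact hb
    have hVr : G.V (t * a⁻¹ - 1) ≤ 1 :=
      Valuation.map_sub_le _ hVtb (by rw [Valuation.map_one])
    have hVc : G.V (a⁻¹ * ax) ≤ 1 := by
      rw [G.V_of_mul_unit hux key]; exact hVr
    have hcK : a⁻¹ * ax ∈ (algebraMap L FL).fieldRange := mul_mem hbK haxK
    have h2 := congrArg G.rd key
    rw [G.rd_mul hVc hux.le, G.rd_sub hVtb (by rw [Valuation.map_one]), G.rd_mul hVt.le hb,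
      G.rd_one] at h2
    have hκ := G.rd_const hcK hVc
    have hρ := G.rd_const hbK hb
    -- the right-hand side is nonzero of order `0` at `Q`
    have hR : G.rd t * G.rd a⁻¹ - 1 ≠ 0 ∧ Q.ord (G.rd t * G.rd a⁻¹ - 1) = 0 := by
      by_cases hρ0 : G.rd a⁻¹ = 0
      · rw [hρ0, mul_zero, zero_sub]
        refine ⟨neg_ne_zero.mpr one_ne_zero, ?_⟩
        rw [Fermat.Agent.H23.ord_neg, Place.ord_one]
      · have hg : Q.ord (G.rd t * G.rd a⁻¹) = 1 := by
          rw [mul_comm, ord_constk_mul Q hρ hρ0, htQ]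
        have hg0 : G.rd t * G.rd a⁻¹ ≠ 0 := mul_ne_zero hrdt0 hρ0
        have hne : G.rd t * G.rd a⁻¹ - 1 ≠ 0 := by
          intro h
          rw [sub_eq_zero] at h
          rw [h, Place.ord_one] at hg
          exact zero_ne_one hg
        refine ⟨hne, ?_⟩
        have := Fermat.Agent.H23.ord_add_eq_of_lt Q (f := (-1 : Fk))
          (g := G.rd t * G.rd a⁻¹) (neg_ne_zero.mpr one_ne_zero) hg0
          (by rw [Fermat.Agent.H23.ord_neg, Place.ord_one, hg]; exact zero_lt_one)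
        rw [Fermat.Agent.H23.ord_neg, Place.ord_one] at this
        rw [sub_eq_add_neg, add_comm]
        exact this
    have hκ0 : G.rd (a⁻¹ * ax) ≠ 0 := by
      intro h
      rw [h, zero_mul] at h2
      exact hR.1 h2.symm
    have h3 : Q.ord (G.rd (a⁻¹ * ax) * G.rd ux) = Q.ord (G.rd ux) :=
      ord_constk_mul Q hκ hκ0 _
    rw [h2, hR.2] at h3
    omega
  -- `x = t - a` is a unit with the same reduction as `t`
  have hVx : G.V x = 1 := by
    rw [hx_def, Valuation.map_sub_eq_of_lt_left _ (by rw [hVt]; exact hVa), hVt]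
  have hrdx : G.rd x = G.rd t := G.rd_sub_of_lt hVt.le hVa
  have hQzx : Qz.ord x = 1 := by
    have := G.ord_le_ord_rd hVx Q hxB Qz hQz
    rw [hrdx, htQ] at this
    omega
  have hBx : ∀ P', G.r P' = Q → P' ≠ Qz → P'.ord x = 0 := by
    intro P' hP' hne
    have h1 := G.ord_add_ord_le_ord_rd hVx Q hxB Qz P' hQz hP' (Ne.symm hne)
    have h2 := hxB P' hP'
    rw [hrdx, htQ, hQzx] at h1
    omega
  -- `s = x / t`
  set s : FL := x * t⁻¹ with hs_def
  have hs0 : s ≠ 0 := mul_ne_zero hx0 (inv_ne_zero ht0)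
  have hVtinv : G.V t⁻¹ = 1 := G.V_inv_eq_one hVt
  have hVs : G.V s = 1 := G.V_mul_eq_one hVx hVtinv
  have hVε : G.V (a * t⁻¹) < 1 := by
    rw [map_mul, hVtinv, mul_one]; exact hVa
  have hsε : s = 1 - a * t⁻¹ := by
    rw [hs_def, hx_def, sub_mul, mul_inv_cancel₀ ht0]
  have hrds : G.rd s = 1 := by
    rw [hsε, G.rd_sub_of_lt (by rw [Valuation.map_one]) hVε, G.rd_one]
  have hsB : ∀ P', G.r P' = Q →
      P'.ord s = (if P' = Qz then 1 else 0) - (if P' = P then 1 else 0) := by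
    intro P' hP'
    rw [hs_def, P'.ord_mul hx0 (inv_ne_zero ht0), P'.ord_inv]
    have e1 : P'.ord x = if P' = Qz then 1 else 0 := by
      split_ifs with h
      · rw [h]; exact hQzx
      · exact hBx P' hP' h
    have e2 : P'.ord t = if P' = P then 1 else 0 := by
      split_ifs with h
      · rw [h]; exact hPt
      · exact hBt P' hP' h
    rw [e1, e2]; ring
  have hsm0 : s ^ m ≠ 0 := pow_ne_zero _ hs0
  have hVsm : G.V (s ^ m) = 1 := G.V_pow_eq_one hVs m
  have hrdsm : G.rd (s ^ m) = 1 := by rw [G.rd_pow hVs.le, hrds, one_pow]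
  -- `U = f / s ^ m`
  set U : FL := f * (s ^ m)⁻¹ with hU_def
  have hU0 : U ≠ 0 := mul_ne_zero hf0 (inv_ne_zero hsm0)
  have hVU : G.V U = 1 := G.V_mul_eq_one hVf (G.V_inv_eq_one hVsm)
  have hUB : ∀ P', G.r P' = Q → P'.ord U = 0 := by
    intro P' hP'
    rw [hU_def, P'.ord_mul hf0 (inv_ne_zero hsm0), P'.ord_inv, ord_pow', hford P' hP',
      hsB P' hP']
    ring
  have hfU : f = s ^ m * U := by
    rw [hU_def, mul_comm f, ← mul_assoc, mul_inv_cancel₀ hsm0, one_mul]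
  -- the geometric sum
  set u₁ : FL := ∑ i ∈ Finset.range m, s ^ i with hu₁_def
  have hu₁ := G.rd_sum (Finset.range m) (fun i => s ^ i)
    (fun i _ => (G.V_pow_eq_one hVs i).le)
  have hrdu₁ : G.rd u₁ = (m : Fk) := by
    rw [hu₁_def, hu₁.2]
    have : ∀ i ∈ Finset.range m, G.rd (s ^ i) = 1 := fun i _ => by
      rw [G.rd_pow hVs.le, hrds, one_pow]
    rw [Finset.sum_congr rfl this, Finset.sum_const, Finset.card_range, nsmul_eq_mul, mul_one]
  have hVu₁ : G.V u₁ = 1 := G.V_eq_one_of_rd_ne_zero (by rw [hrdu₁]; exact hm)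
  have hgeom : s ^ m - 1 = u₁ * (s - 1) := (geom_sum_mul s m).symm
  set α : FL := -(u₁ * t⁻¹) with hα_def
  have hVα : G.V α = 1 := by
    rw [hα_def, Valuation.map_neg]; exact G.V_mul_eq_one hVu₁ hVtinv
  have hsmα : s ^ m - 1 = a * α := by
    rw [hgeom, hsε, hα_def]; ring
  have hordα : Q.ord (G.rd α) = -1 := by
    have h1 : α * t = -u₁ := by
      rw [hα_def, neg_mul, mul_assoc, inv_mul_cancel₀ ht0, mul_one]
    have h2 := congrArg G.rd h1
    rw [G.rd_mul hVα.le hVt.le, G.rd_neg hVu₁.le, hrdu₁] at h2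
    have h3 := congrArg Q.ord h2
    rw [Q.ord_mul (G.rd_ne_zero hVα) hrdt0, htQ, Fermat.Agent.H23.ord_neg] at h3
    have h4 : Q.ord ((m : Fk)) = 0 := by
      have : (m : Fk) = algebraMap k Fk (m : k) := by simp
      rw [this]
      exact Fermat.Agent.H23.ord_algebraMap Q _
    rw [h4] at h3
    omega
  have hdecomp : f - 1 = a * α + s ^ m * (U - 1) := by
    rw [← hsmα, mul_sub, mul_one, ← hfU]; ring
  by_cases hU1 : U = 1
  · -- `f - 1 = a α`
    rw [hU1, sub_self, mul_zero, add_zero, hfu] at hdecomp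
    have key : (a₂⁻¹ * a) * α = u₂ := by
      calc (a₂⁻¹ * a) * α = a₂⁻¹ * (a * α) := by ring
        _ = a₂⁻¹ * (a₂ * u₂) := by rw [hdecomp]
        _ = u₂ := by rw [← mul_assoc, inv_mul_cancel₀ ha₂0, one_mul]
    have := G.ord_rd_of_const_mul Q (mul_mem (inv_mem ha₂) haK) hu₂ hVα key
    rw [← this, hordα]
  -- `U - 1 = aU uU`
  have hU1ne : U - 1 ≠ 0 := sub_ne_zero.mpr hU1
  obtain ⟨aU, haUK, haU0, uU, huU, hUuU⟩ := G.exists_scale' hU1ne
  have huUord : ∀ P' : Place L FL, P'.ord uU = P'.ord (U - 1) := by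
    intro P'
    rw [hUuU, ord_constL_mul P' haUK haU0]
  have huUnn : 0 ≤ Q.ord (G.rd uU) := by
    refine G.ord_rd_nonneg huU Q fun P' hP' => ?_
    rw [huUord]
    exact ord_sub_one_nonneg P' hU1ne (by rw [hUB P' hP'])
  set β : FL := s ^ m * uU with hβ_def
  have hVβ : G.V β = 1 := G.V_mul_eq_one hVsm huU
  have hrdβ : G.rd β = G.rd uU := by
    rw [hβ_def, G.rd_mul hVsm.le huU.le, hrdsm, one_mul]
  have hstar : a₂ * u₂ = a * α + aU * β := by
    rw [← hfu, hdecomp, hUuU, hβ_def]; ring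
  rcases lt_trichotomy (G.V aU) (G.V a) with hlt | heq | hgt
  · -- leading term `a α`
    have hVγ : G.V (a⁻¹ * aU * β) < 1 := by
      rw [map_mul, hVβ, mul_one]; exact G.V_inv_mul_lt_one ha0 hlt
    have hVW : G.V (α + a⁻¹ * aU * β) = 1 := by
      rw [Valuation.map_add_eq_of_lt_left _ (by rw [hVα]; exact hVγ), hVα]
    have hrdW : G.rd (α + a⁻¹ * aU * β) = G.rd α := G.rd_add_of_lt hVα.le hVγ
    have key : (a⁻¹ * a₂) * u₂ = α + a⁻¹ * aU * β := by
      calc (a⁻¹ * a₂) * u₂ = a⁻¹ * (a₂ * u₂) := by ring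
        _ = a⁻¹ * (a * α + aU * β) := by rw [hstar]
        _ = (a⁻¹ * a) * α + a⁻¹ * aU * β := by ring
        _ = α + a⁻¹ * aU * β := by rw [inv_mul_cancel₀ ha0, one_mul]
    have := G.ord_rd_of_const_mul Q (mul_mem (inv_mem haK) ha₂) hVW hu₂ key
    rw [this, hrdW, hordα]
  · -- both terms contribute
    have hVγ : G.V (a⁻¹ * aU) = 1 := G.V_inv_mul_eq_one ha0 heq
    have hγK : a⁻¹ * aU ∈ (algebraMap L FL).fieldRange := mul_mem (inv_mem haK) haUK
    have hVγβ : G.V (a⁻¹ * aU * β) = 1 := G.V_mul_eq_one hVγ hVβ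
    have hrdW : G.rd (α + a⁻¹ * aU * β) = G.rd α + G.rd (a⁻¹ * aU) * G.rd uU := by
      rw [G.rd_add hVα.le hVγβ.le, G.rd_mul hVγ.le hVβ.le, hrdβ]
    have hg0 : G.rd (a⁻¹ * aU) * G.rd uU ≠ 0 :=
      mul_ne_zero (G.rd_ne_zero hVγ) (G.rd_ne_zero huU)
    have hgord : Q.ord (G.rd (a⁻¹ * aU) * G.rd uU) = Q.ord (G.rd uU) :=
      ord_constk_mul Q (G.rd_const hγK hVγ.le) (G.rd_ne_zero hVγ) _
    have hWord : Q.ord (G.rd (α + a⁻¹ * aU * β)) = -1 := by
      rw [hrdW, Fermat.Agent.H23.ord_add_eq_of_lt Q (G.rd_ne_zero hVα) hg0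
        (by rw [hgord, hordα]; omega), hordα]
    have hW0 : G.rd (α + a⁻¹ * aU * β) ≠ 0 := by
      intro h
      rw [h, Place.ord_zero] at hWord
      omega
    have hVW : G.V (α + a⁻¹ * aU * β) = 1 := G.V_eq_one_of_rd_ne_zero hW0
    have key : (a⁻¹ * a₂) * u₂ = α + a⁻¹ * aU * β := by
      calc (a⁻¹ * a₂) * u₂ = a⁻¹ * (a₂ * u₂) := by ring
        _ = a⁻¹ * (a * α + aU * β) := by rw [hstar]
        _ = (a⁻¹ * a) * α + a⁻¹ * aU * β := by ring
        _ = α + a⁻¹ * aU * β := by rw [inv_mul_cancel₀ ha0, one_mul]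
    have := G.ord_rd_of_const_mul Q (mul_mem (inv_mem haK) ha₂) hVW hu₂ key
    rw [this, hWord]
  · -- leading term `aU β`
    have hVγ : G.V (aU⁻¹ * a * α) < 1 := by
      rw [map_mul, hVα, mul_one]; exact G.V_inv_mul_lt_one haU0 hgt
    have hVW : G.V (aU⁻¹ * a * α + β) = 1 := by
      rw [Valuation.map_add_eq_of_lt_right _ (by rw [hVβ]; exact hVγ), hVβ]
    have hrdW : G.rd (aU⁻¹ * a * α + β) = G.rd uU := by
      rw [G.rd_add hVγ.le hVβ.le, G.rd_eq_zero_of_lt hVγ, zero_add, hrdβ]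
    have key : (aU⁻¹ * a₂) * u₂ = aU⁻¹ * a * α + β := by
      calc (aU⁻¹ * a₂) * u₂ = aU⁻¹ * (a₂ * u₂) := by ring
        _ = aU⁻¹ * (a * α + aU * β) := by rw [hstar]
        _ = aU⁻¹ * a * α + (aU⁻¹ * aU) * β := by ring
        _ = aU⁻¹ * a * α + β := by rw [inv_mul_cancel₀ haU0, one_mul]
    have := G.ord_rd_of_const_mul Q (mul_mem (inv_mem haUK) ha₂) hVW hu₂ key
    rw [this, hrdW]
    omega


/-! ### Fibres of an effective divisor -/

omit [Field L] [Field k] [Field FL] [Field Fk] [Algebra L FL] [Algebra k Fk]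
  [HasPrincipalDivisors L FL] in
theorem fiber_zero {α β : Type*} (E : α →₀ ℤ) (hE : ∀ a, 0 ≤ E a) (r : α → β) (Q : β)
    (h : Finsupp.mapDomain r E Q = 0) : ∀ a, r a = Q → E a = 0 := by
  classical
  intro a ha
  rw [mapDomain_apply_eq_sum] at h
  by_cases hmem : a ∈ E.support
  · have := (Finset.sum_eq_zero_iff_of_nonneg (fun b _ => hE b)).mp h a
      (Finset.mem_filter.mpr ⟨hmem, ha⟩)
    exact this
  · rwa [Finsupp.mem_support_iff, not_not] at hmem

open Classical in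
omit [Field L] [Field k] [Field FL] [Field Fk] [Algebra L FL] [Algebra k Fk]
  [HasPrincipalDivisors L FL] in
theorem fiber_one {α β : Type*} (E : α →₀ ℤ) (hE : ∀ a, 0 ≤ E a) (r : α → β) (Q : β)
    (h : Finsupp.mapDomain r E Q = 1) :
    ∃ a₀, r a₀ = Q ∧ ∀ a, r a = Q → E a = if a = a₀ then 1 else 0 := by
  rw [mapDomain_apply_eq_sum] at h
  obtain ⟨a₀, ha₀, ha₀ne⟩ : ∃ a₀ ∈ E.support.filter (fun P => r P = Q), E a₀ ≠ 0 := by
    apply Finset.exists_ne_zero_of_sum_ne_zero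
    rw [h]; exact one_ne_zero
  have hsplit := Finset.add_sum_erase (E.support.filter (fun P => r P = Q)) (fun a => E a) ha₀
  rw [h] at hsplit
  have hrest : 0 ≤ ∑ x ∈ (E.support.filter (fun P => r P = Q)).erase a₀, E x :=
    Finset.sum_nonneg fun b _ => hE b
  have h0 : 1 ≤ E a₀ := by
    have := hE a₀
    omega
  have hE1 : E a₀ = 1 := by
    omega
  have hrest0 : ∑ x ∈ (E.support.filter (fun P => r P = Q)).erase a₀, E x = 0 := by
    omega
  refine ⟨a₀, (Finset.mem_filter.mp ha₀).2, fun a ha => ?_⟩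
  split_ifs with haa
  · rw [haa, hE1]
  · by_cases hmem : a ∈ E.support
    · exact (Finset.sum_eq_zero_iff_of_nonneg (fun b _ => hE b)).mp hrest0 a
        (Finset.mem_erase.mpr ⟨haa, Finset.mem_filter.mpr ⟨hmem, ha⟩⟩)
    · rwa [Finsupp.mem_support_iff, not_not] at hmem

/-! ### The main theorem -/

/-- **S18 core, abstract form** (leading-term argument).  Let `T` be a finite set of places of
`Fk` with `L(∑_{Q ∈ T} Q) = k`, such that every divisor of `FL` of degree `≥ #T` has a nonzero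
Riemann-Roch space, and such that every `Q ∈ T` has a lift `P` with a coordinate `t` on the
fibre over `Q`.  If `m` is invertible in `Fk`, `m • D` is principal and `r_* D` is principal,
then `D` is principal. -/
theorem principal_of_torsion (hdeg : ∀ P : Place L FL, P.deg = 1)
    (T : Finset (Place k Fk))
    (hRL : ∀ D : Divisor L FL, (T.card : ℤ) ≤ Divisor.degree D → riemannRochSpace D ≠ ⊥)
    (hNS : ∀ f ∈ riemannRochSpace (∑ Q ∈ T, Finsupp.single Q (1 : ℤ) : Divisor k Fk),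
      ∃ c : k, f = algebraMap k Fk c)
    (hcoord : ∀ Q ∈ T, ∃ P, G.r P = Q ∧ ∃ t : G.O, 1 ≤ P.ord (t : FL) ∧
      Q.ord (G.red t) = 1 ∧ ∀ P', G.r P' = Q → 0 ≤ P'.ord (t : FL))
    (hP0 : ∃ P₀, G.r P₀ ∉ T)
    (m : ℕ) (hm : (m : Fk) ≠ 0)
    (D : Divisor L FL) (hD : Divisor.degree D = 0)
    (hmD : m • D ∈ Divisor.principal (K := L) (F := FL))
    (hrD : Finsupp.mapDomain G.r D ∈ Divisor.principal (K := k) (F := Fk)) :
    D ∈ Divisor.principal (K := L) (F := FL) := by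
  classical
  obtain ⟨P₀, hP₀⟩ := hP0
  have : Nonempty (Place L FL) := ⟨P₀⟩
  choose! lift hlift using hcoord
  have hm0 : (m : ℤ) ≠ 0 := by
    intro h
    apply hm
    have : m = 0 := by exact_mod_cast h
    rw [this]; simp
  -- the nonspecial divisor and its lift
  set Dbar : Divisor k Fk := ∑ Q ∈ T, Finsupp.single Q (1 : ℤ) with hDbar
  have hDbar_apply : ∀ Q, Dbar Q = if Q ∈ T then 1 else 0 := by
    intro Q
    rw [hDbar, Finsupp.finsetSum_apply]
    simp only [Finsupp.single_apply]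
    rw [Finset.sum_ite_eq' T Q]
  set D₀ : Divisor L FL := ∑ Q ∈ T, Finsupp.single (lift Q) (1 : ℤ) with hD₀
  have hD₀deg : Divisor.degree D₀ = T.card := by
    rw [hD₀, map_sum]
    simp [Divisor.degree_single, hdeg]
  have hD₀map : Finsupp.mapDomain G.r D₀ = Dbar := by
    rw [hD₀, Finsupp.mapDomain_finsetSum]
    refine Finset.sum_congr rfl fun Q hQ => ?_
    rw [Finsupp.mapDomain_single, (hlift Q hQ).1]
  have hD₀_T : ∀ Q ∈ T, ∀ P', G.r P' = Q → D₀ P' = if P' = lift Q then 1 else 0 := by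
    intro Q hQ P' hP'
    rw [hD₀, Finsupp.finsetSum_apply]
    simp only [Finsupp.single_apply]
    rw [Finset.sum_eq_single Q]
    · by_cases h : P' = lift Q
      · rw [if_pos h, if_pos h.symm]
      · rw [if_neg h, if_neg (Ne.symm h)]
    · intro Q' hQ' hne
      rw [if_neg]
      intro h
      apply hne
      rw [← (hlift Q' hQ').1, h, hP']
    · intro h
      exact absurd hQ h
  have hD₀_notT : ∀ P', G.r P' ∉ T → D₀ P' = 0 := by
    intro P' hP'
    rw [hD₀, Finsupp.finsetSum_apply]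
    refine Finset.sum_eq_zero fun Q hQ => ?_
    rw [Finsupp.single_apply, if_neg]
    intro h
    apply hP'
    rw [← h, (hlift Q hQ).1]
    exact hQ
  -- the effective divisor `E`
  have hdegDD₀ : (T.card : ℤ) ≤ Divisor.degree (D + D₀) := by
    rw [map_add, hD, hD₀deg, zero_add]
  obtain ⟨y, hyL, hy0⟩ := Submodule.exists_mem_ne_zero_of_ne_bot (hRL _ hdegDD₀)
  obtain ⟨Dy, hDy, -⟩ := HasPrincipalDivisors.exists_divisor (K := L) y hy0
  have hyL' : ∀ P : Place L FL, -(D + D₀) P ≤ P.ord y := fun P =>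
    ((mem_riemannRochSpace_iff.mp hyL) P).resolve_left hy0
  set E : Divisor L FL := Dy + D + D₀ with hE
  have hE_apply : ∀ P, E P = P.ord y + D P + D₀ P := by
    intro P
    rw [hE, Finsupp.add_apply, Finsupp.add_apply, hDy]
  have hEnn : ∀ P, 0 ≤ E P := by
    intro P
    have := hyL' P
    rw [Finsupp.add_apply] at this
    rw [hE_apply]
    linarith
  -- the reduction of `E`
  obtain ⟨gbar, hg0, hgbar⟩ := hrD
  obtain ⟨ay, hayK, hay0, uy, huy, hyuy⟩ := G.exists_scale' hy0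
  have huyord : ∀ P : Place L FL, P.ord uy = P.ord y := by
    intro P
    rw [hyuy, ord_constL_mul P hayK hay0]
  have hmapDy : ∀ Q, Finsupp.mapDomain G.r Dy Q = Q.ord (G.rd uy) := fun Q =>
    G.ord_rd_eq huy Dy (fun P => by rw [hDy, huyord]) Q
  have hmapE : ∀ Q, Finsupp.mapDomain G.r E Q = Q.ord (G.rd uy) + Q.ord gbar + Dbar Q := by
    intro Q
    rw [hE, Finsupp.mapDomain_add, Finsupp.mapDomain_add, Finsupp.add_apply, Finsupp.add_apply,
      hmapDy, hgbar, hD₀map]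
  have hmapEnn : ∀ Q, 0 ≤ Finsupp.mapDomain G.r E Q := by
    intro Q
    rw [mapDomain_apply_eq_sum]
    exact Finset.sum_nonneg fun P _ => hEnn P
  have hrduy0 : G.rd uy ≠ 0 := G.rd_ne_zero huy
  have hhbar_mem : G.rd uy * gbar ∈ riemannRochSpace Dbar := by
    rw [mem_riemannRochSpace_iff]
    intro Q
    right
    rw [Q.ord_mul hrduy0 hg0]
    have := hmapEnn Q
    rw [hmapE] at this
    linarith
  obtain ⟨cb, hcb⟩ := hNS _ hhbar_mem
  have hhbar_ord : ∀ Q : Place k Fk, Q.ord (G.rd uy) + Q.ord gbar = 0 := by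
    intro Q
    rw [← Q.ord_mul hrduy0 hg0, hcb]
    exact Fermat.Agent.H23.ord_algebraMap Q cb
  have hmapE' : ∀ Q, Finsupp.mapDomain G.r E Q = Dbar Q := by
    intro Q
    rw [hmapE, hhbar_ord, zero_add]
  have hE_T : ∀ Q ∈ T, ∃ Qz, G.r Qz = Q ∧
      ∀ P', G.r P' = Q → E P' = if P' = Qz then 1 else 0 := by
    intro Q hQ
    exact fiber_one E hEnn G.r Q (by rw [hmapE', hDbar_apply, if_pos hQ])
  have hE_notT : ∀ P', G.r P' ∉ T → E P' = 0 := by
    intro P' hP'
    exact fiber_zero E hEnn G.r (G.r P') (by rw [hmapE', hDbar_apply, if_neg hP']) P' rfl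
  -- the function `f` with divisor `m (E - D₀)`
  obtain ⟨f₀, hf₀0, hf₀⟩ := hmD
  set f : FL := y ^ m * f₀ with hf_def
  have hf0 : f ≠ 0 := mul_ne_zero (pow_ne_zero _ hy0) hf₀0
  have hford : ∀ P : Place L FL, P.ord f = (m : ℤ) * (E P - D₀ P) := by
    intro P
    rw [hf_def, P.ord_mul (pow_ne_zero _ hy0) hf₀0, ord_pow', ← hf₀ P, hE_apply,
      Finsupp.smul_apply, nsmul_eq_mul]
    ring
  -- normalisation at `P₀`
  have hfP₀ : P₀.ord f = 0 := by
    rw [hford, hE_notT P₀ hP₀, hD₀_notT P₀ hP₀]; simp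
  obtain ⟨c₀, hc₀⟩ := Fermat.Agent.H23.exists_const_ord_sub_pos P₀ (hdeg P₀)
    (f := f) (Or.inr (le_of_eq hfP₀.symm))
  set a₀ : FL := algebraMap L FL c₀ with ha₀_def
  have ha₀K : a₀ ∈ (algebraMap L FL).fieldRange := RingHom.mem_fieldRange.mpr ⟨c₀, rfl⟩
  rcases hc₀ with hconst | hpos
  · -- `f` is constant, hence `E = D₀`
    have hED : ∀ P, E P = D₀ P := by
      intro P
      have h1 := hford P
      rw [hconst, ord_constL P ha₀K] at h1
      have h2 := (mul_eq_zero.mp h1.symm).resolve_left hm0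
      linarith
    have hDeq : D = -Dy := by
      ext P
      have h1 := hED P
      rw [hE_apply] at h1
      rw [Finsupp.neg_apply, hDy]
      linarith
    rw [hDeq]
    exact neg_mem ⟨y, hy0, hDy⟩
  exfalso
  have ha₀0 : a₀ ≠ 0 := by
    intro h
    rw [h, sub_zero, hfP₀] at hpos
    exact lt_irrefl _ hpos
  have hfa₀ : f - a₀ ≠ 0 := by
    intro h
    rw [h, Place.ord_zero] at hpos
    exact lt_irrefl _ hpos
  set f₂ : FL := a₀⁻¹ * f with hf₂_def
  have hf₂0 : f₂ ≠ 0 := mul_ne_zero (inv_ne_zero ha₀0) hf0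
  have hf₂ord : ∀ P : Place L FL, P.ord f₂ = (m : ℤ) * (E P - D₀ P) := by
    intro P
    rw [hf₂_def, ord_constL_mul P (inv_mem ha₀K) (inv_ne_zero ha₀0), hford]
  have hf₂sub : f₂ - 1 = a₀⁻¹ * (f - a₀) := by
    rw [hf₂_def, mul_sub, inv_mul_cancel₀ ha₀0]
  have hf₂1 : f₂ - 1 ≠ 0 := by
    rw [hf₂sub]; exact mul_ne_zero (inv_ne_zero ha₀0) hfa₀
  have hf₂P₀ : 0 < P₀.ord (f₂ - 1) := by
    rw [hf₂sub, ord_constL_mul P₀ (inv_mem ha₀K) (inv_ne_zero ha₀0)]; exact hpos
  obtain ⟨a₁, ha₁K, ha₁0, u₁, hu₁, hf₂u₁⟩ := G.exists_scale' hf₂0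
  obtain ⟨a₂, ha₂K, ha₂0, u₂, hu₂, hf₂u₂⟩ := G.exists_scale' hf₂1
  have hu₁ord : ∀ P : Place L FL, P.ord u₁ = P.ord f₂ := by
    intro P
    rw [hf₂u₁, ord_constL_mul P ha₁K ha₁0]
  have hu₂ord : ∀ P : Place L FL, P.ord u₂ = P.ord (f₂ - 1) := by
    intro P
    rw [hf₂u₂, ord_constL_mul P ha₂K ha₂0]
  -- the reduction of `u₁` is constant
  have hrdu₁ : G.rd u₁ ∈ (algebraMap k Fk).fieldRange := by
    have hord : ∀ Q : Place k Fk, Q.ord (G.rd u₁) = 0 := by
      intro Q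
      rw [← G.ord_rd_eq hu₁ ((m : ℤ) • (E - D₀)) (fun P => by
        rw [hu₁ord, hf₂ord, Finsupp.smul_apply, Finsupp.sub_apply, smul_eq_mul]) Q]
      rw [Finsupp.mapDomain_smul, Finsupp.mapDomain_sub, Finsupp.smul_apply, Finsupp.sub_apply,
        hmapE', hD₀map, sub_self, smul_zero]
    have hmem : G.rd u₁ ∈ riemannRochSpace Dbar := by
      rw [mem_riemannRochSpace_iff]
      intro Q
      right
      rw [hord, hDbar_apply]
      split_ifs <;> norm_num
    obtain ⟨c, hc⟩ := hNS _ hmem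
    rw [hc]
    exact RingHom.mem_fieldRange.mpr ⟨c, rfl⟩
  -- `f₂ - 1` has no poles outside the fibres over `T`
  have hnopole : ∀ P', G.r P' ∉ T → 0 ≤ P'.ord u₂ := by
    intro P' hP'
    rw [hu₂ord]
    apply ord_sub_one_nonneg P' hf₂1
    rw [hf₂ord, hE_notT P' hP', hD₀_notT P' hP']
    simp
  -- the reduction of `u₂` is not constant
  have hrdu₂pos : 0 < (G.r P₀).ord (G.rd u₂) := by
    have := G.ord_le_ord_rd hu₂ (G.r P₀)
      (fun P' hP' => hnopole P' (by rw [hP']; exact hP₀)) P₀ rfl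
    rw [hu₂ord] at this
    omega
  have hrdu₂ : G.rd u₂ ∉ (algebraMap k Fk).fieldRange := by
    intro h
    rw [ord_constk _ h] at hrdu₂pos
    exact lt_irrefl _ hrdu₂pos
  -- hence `f₂ - 1` has positive valuation
  have hVa₂ : G.V a₂ < 1 :=
    G.V_lt_one_of_sub_one ha₁K ha₂K ha₂0 hu₁ hu₂ (by rw [← hf₂u₁]; exact hf₂u₂) hrdu₁ hrdu₂
  have hVf₂ : G.V (f₂ - 1) < 1 := by
    rw [hf₂u₂, map_mul, hu₂, mul_one]; exact hVa₂
  -- the local estimates put the leading term into `L(Dbar)`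
  have hmem : G.rd u₂ ∈ riemannRochSpace Dbar := by
    rw [mem_riemannRochSpace_iff]
    intro Q
    right
    rw [hDbar_apply]
    by_cases hQ : Q ∈ T
    · rw [if_pos hQ]
      obtain ⟨hrl, t, htP, htQ, htB⟩ := hlift Q hQ
      obtain ⟨Qz, hQz, hEQ⟩ := hE_T Q hQ
      refine G.local_estimate hdeg m hm Q (lift Q) Qz hrl hQz (t : FL) htP
        (by rw [G.rd_coe]; exact htQ) htB f₂ hVf₂ ?_ a₂ u₂ ha₂K ha₂0 hu₂ hf₂u₂
      intro P' hP'
      rw [hf₂ord, hEQ P' hP', hD₀_T Q hQ P' hP']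
    · rw [if_neg hQ, neg_zero]
      exact G.ord_rd_nonneg hu₂ Q (fun P' hP' => hnopole P' (by rw [hP']; exact hQ))
  obtain ⟨c, hc⟩ := hNS _ hmem
  exact hrdu₂ (by rw [hc]; exact RingHom.mem_fieldRange.mpr ⟨c, rfl⟩)

end ReductionSetup

end

end Fermat.Agent.H57
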