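import Mathlib

/-!
# Integral matrices over a field have integral trace   (helper57, P-ES / KL-NORM-MAXORD)

* `isIntegral_mul_of_commute` : a product of two commuting integral elements of a (possibly
  noncommutative) algebra is integral.
* `isIntegral_trace_of_isIntegral` : the trace of a square matrix over a field `κ` which is
  integral over `R` (as an element of the matrix algebra) is integral over `R`.
-/

set_option autoImplicit false

noncomputable section

open Polynomial Matrix

namespace Fermat.Agent.H57

open scoped IsMulCommutative in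
/-- a product of two commuting integral elements is integral -/
theorem isIntegral_mul_of_commute {R A : Type*} [CommRing R] [Ring A] [Algebra R A] {x y : A}
    (hx : IsIntegral R x) (hy : IsIntegral R y) (hxy : Commute x y) : IsIntegral R (x * y) := by
  classical
  have hcomm : ∀ a ∈ ({x, y} : Set A), ∀ b ∈ ({x, y} : Set A), a * b = b * a := by
    intro a ha b hb
    rcases ha with rfl | rfl <;> rcases hb with rfl | rfl
    · rfl
    · exact hxy.eq
    · exact hxy.eq.symm
    · rfl
  haveI : IsMulCommutative ↥(Algebra.adjoin R ({x, y} : Set A)) :=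
    Algebra.isMulCommutative_adjoin R hcomm
  have hxm : x ∈ Algebra.adjoin R ({x, y} : Set A) := Algebra.subset_adjoin (by simp)
  have hym : y ∈ Algebra.adjoin R ({x, y} : Set A) := Algebra.subset_adjoin (by simp)
  have hinj : Function.Injective (Algebra.adjoin R ({x, y} : Set A)).val := Subtype.val_injective
  have hx' : IsIntegral R (⟨x, hxm⟩ : ↥(Algebra.adjoin R ({x, y} : Set A))) :=
    (isIntegral_algHom_iff (Algebra.adjoin R ({x, y} : Set A)).val hinj).mp hx
  have hy' : IsIntegral R (⟨y, hym⟩ : ↥(Algebra.adjoin R ({x, y} : Set A))) :=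
    (isIntegral_algHom_iff (Algebra.adjoin R ({x, y} : Set A)).val hinj).mp hy
  have h := (hx'.mul hy').map (Algebra.adjoin R ({x, y} : Set A)).val
  simpa using h

/-- every root of the characteristic polynomial of a matrix over a field is a root of every
polynomial annihilating the matrix -/
theorem eval_eq_zero_of_isRoot_charpoly {L : Type*} [Field L] {n : Type*} [Fintype n]
    [DecidableEq n] [Nonempty n] (N : Matrix n n L) (q : L[X]) (hq : aeval N q = 0) {μ : L}
    (hμ : IsRoot N.charpoly μ) : eval μ q = 0 := by
  have h1 : μ ∈ spectrum L N := Matrix.mem_spectrum_iff_isRoot_charpoly.mpr hμ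
  have h2 : eval μ q ∈ spectrum L (aeval N q) :=
    spectrum.subset_polynomial_aeval N q ⟨μ, h1, rfl⟩
  rw [hq, spectrum.zero_eq] at h2
  exact h2

/-- the trace of an integral matrix over a field is integral -/
theorem isIntegral_trace_of_isIntegral {R κ : Type*} [CommRing R] [Field κ] [Algebra R κ]
    {n : Type*} [Fintype n] [DecidableEq n] (N : Matrix n n κ) (hN : IsIntegral R N) :
    IsIntegral R N.trace := by
  rcases isEmpty_or_nonempty n with hn | hn
  · have h0 : N.trace = 0 := by simp [Matrix.trace]
    rw [h0]
    exact isIntegral_zero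
  obtain ⟨Q, hQm, hQ⟩ := hN
  rw [← aeval_def] at hQ
  set L := AlgebraicClosure κ
  let f : Matrix n n κ →ₐ[R] Matrix n n L := (IsScalarTower.toAlgHom R κ L).mapMatrix
  have hf : ∀ M : Matrix n n κ, f M = M.map (algebraMap κ L) := fun M => rfl
  have h1 : aeval (f N) (Q.map (algebraMap R L)) = 0 := by
    rw [aeval_map_algebraMap, aeval_algHom_apply, hQ, map_zero]
  have h2 : (f N).trace = ((f N).charpoly).roots.sum := Matrix.trace_eq_sum_roots_charpoly _
  have h3 : IsIntegral R (f N).trace := by
    rw [h2]
    refine IsIntegral.multiset_sum fun μ hμ => ?_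
    have h4 : eval μ (Q.map (algebraMap R L)) = 0 :=
      eval_eq_zero_of_isRoot_charpoly (f N) _ h1 (Polynomial.mem_roots'.mp hμ).2
    refine ⟨Q, hQm, ?_⟩
    rw [← eval_map]
    exact h4
  have h5 : (f N).trace = algebraMap κ L N.trace := by
    rw [hf]
    simp only [Matrix.trace, Matrix.diag_apply, Matrix.map_apply, map_sum]
  rw [h5] at h3
  exact (isIntegral_algebraMap_iff (algebraMap κ L).injective).mp h3

end Fermat.Agent.H57
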