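import Fermat.Agent.H91.KLNorm.Interfaces
import Fermat.Agent.H57.MaxOrdMatrix

/-!
# KL-NORM-MAXORD: unit discriminant ⟹ maximal order, local form   (helper57, row 426)

`theorem Fermat.Agent.H57.maxOrdLocalStatement : Fermat.Agent.H91.KLNorm.MaxOrdLocalStatement`.

`R` integrally closed domain, `K = Frac R`, `E / K` finite, `p` a prime element with `R / p` a PID,
`𝔪 ∋ p` maximal, a basis `b` of `E / K` consisting of integral elements with `d := det Tr(b_i b_j)`
outside `𝔪`.  If `y ∈ C` (the integral closure of `R_(p)`) is integral modulo `p C`, then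
`d y ∈ B + p C`.

Proof.  Write `Rp := R_(p)`, `κ := Frac (R / p)` its residue field.  Every element of `C` has
coordinates in `Rp` with respect to `b` (Cramer, `d` is a unit of `Rp`), so multiplication by
`u ∈ C` has a matrix `M_u` with entries in `Rp`.  Modulo `p` the matrices of `y` and of `b_j` are
commuting integral elements of `Mat_n(κ)`; hence the trace of their product is integral over
`R / p`, i.e. lies in `R / p`.  So `Tr(y b_j) ∈ R + p Rp`, and Cramer's rule gives the claim.
-/

set_option autoImplicit false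
set_option linter.style.haveILetI false
set_option linter.unusedSectionVars false

noncomputable section

open Polynomial Matrix

namespace Fermat.Agent.H57.MaxOrd

open Fermat.Agent.H91 Fermat.Agent.H91.KLNorm

/-! ## The map `R_I → K` -/

section Iota

variable {R : Type*} [CommRing R] [IsDomain R]
variable (K : Type*) [Field K] [Algebra R K] [IsFractionRing R K]
variable (I : Ideal R) [I.IsPrime]

theorem isUnit_algebraMap_of_primeCompl (y : I.primeCompl) :
    IsUnit ((Algebra.ofId R K) (y : R)) := by
  have hy : (y : R) ≠ 0 := fun h => y.2 (h ▸ I.zero_mem)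
  exact isUnit_iff_ne_zero.mpr ((map_ne_zero_iff _ (IsFractionRing.injective R K)).mpr hy)

/-- the canonical map `R_I → K` -/
def iota : Localization.AtPrime I →ₐ[R] K :=
  IsLocalization.liftAlgHom (M := I.primeCompl) (f := Algebra.ofId R K)
    (isUnit_algebraMap_of_primeCompl K I)

theorem iota_algebraMap (r : R) : iota K I (algebraMap R (Localization.AtPrime I) r) =
    algebraMap R K r := (iota K I).commutes r

theorem iota_injective : Function.Injective (iota K I) := by
  have h1 : Function.Injective (algebraMap R (Localization.AtPrime I)) :=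
    IsLocalization.injective _ I.primeCompl_le_nonZeroDivisors
  have h2 := (IsLocalization.lift_injective_iff (M := I.primeCompl)
    (S := Localization.AtPrime I) (g := (Algebra.ofId R K : R →+* K))
    (hg := isUnit_algebraMap_of_primeCompl K I)).mpr (fun x y => by
      constructor
      · intro h; rw [h1 h]
      · intro h
        have : x = y := IsFractionRing.injective R K h
        rw [this])
  exact h2

theorem iota_mapMatrix_injective {n : Type*} [Fintype n] [DecidableEq n] :
    Function.Injective ((iota K I).mapMatrix (m := n)) := by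
  intro M N h
  ext i j
  apply iota_injective K I
  have := congrFun (congrFun h i) j
  simpa using this

/-- an element of `K` with a denominator outside `I` is in the image of `R_I` -/
theorem exists_iota_eq {a s : R} (hs : s ∉ I) {x : K}
    (h : algebraMap R K s * x = algebraMap R K a) : ∃ t : Localization.AtPrime I, iota K I t = x := by
  refine ⟨IsLocalization.mk' _ a (⟨s, hs⟩ : I.primeCompl), ?_⟩
  have hs0 : algebraMap R K s ≠ 0 := by
    have : s ≠ 0 := fun h0 => hs (h0 ▸ I.zero_mem)
    exact (map_ne_zero_iff _ (IsFractionRing.injective R K)).mpr this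
  apply mul_left_cancel₀ hs0
  rw [h, ← iota_algebraMap K I s, ← map_mul]
  have : algebraMap R (Localization.AtPrime I) s *
      IsLocalization.mk' (Localization.AtPrime I) a (⟨s, hs⟩ : I.primeCompl) =
      algebraMap R _ a := IsLocalization.mk'_spec' _ a (⟨s, hs⟩ : I.primeCompl)
  rw [this, iota_algebraMap]

/-- every element of `R_I` has a denominator outside `I` -/
theorem exists_denom (t : Localization.AtPrime I) :
    ∃ a s : R, s ∉ I ∧ algebraMap R K s * iota K I t = algebraMap R K a := by
  obtain ⟨⟨a, s⟩, hs⟩ := IsLocalization.surj I.primeCompl t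
  refine ⟨a, s, s.2, ?_⟩
  have := congrArg (iota K I) hs
  rw [map_mul, iota_algebraMap, iota_algebraMap] at this
  rw [mul_comm]
  exact this

end Iota

/-! ## The integral closure of `R_I` and coordinates -/

section Coord

variable {R : Type*} [CommRing R] [IsDomain R] [IsIntegrallyClosed R]
variable {K : Type*} [Field K] [Algebra R K] [IsFractionRing R K]
variable {E : Type*} [Field E] [Algebra K E] [Algebra R E] [IsScalarTower R K E]
  [FiniteDimensional K E]
variable (I : Ideal R) [I.IsPrime]

/-- `u` lies in the integral closure of `R_I`: some multiple `h • u`, `h ∉ I`, is integral. -/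
def InCl (u : E) : Prop := ∃ h : R, h ∉ I ∧ IsIntegral R (h • u)

variable {I}

theorem InCl.of_isIntegral {u : E} (hu : IsIntegral R u) : InCl I u :=
  ⟨1, fun h => (Ideal.IsPrime.ne_top ‹_›) ((Ideal.eq_top_iff_one I).mpr h), by rwa [one_smul]⟩

theorem InCl.mul {u v : E} (hu : InCl I u) (hv : InCl I v) : InCl I (u * v) := by
  obtain ⟨h, hh, hhu⟩ := hu
  obtain ⟨g, hg, hgv⟩ := hv
  refine ⟨h * g, fun hm => ?_, ?_⟩
  · rcases Ideal.IsPrime.mem_or_mem ‹_› hm with h1 | h1
    · exact hh h1
    · exact hg h1
  · have : (h * g) • (u * v) = (h • u) * (g • v) := by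
      rw [smul_mul_smul_comm]
    rw [this]
    exact hhu.mul hgv

theorem InCl.add {u v : E} (hu : InCl I u) (hv : InCl I v) : InCl I (u + v) := by
  obtain ⟨h, hh, hhu⟩ := hu
  obtain ⟨g, hg, hgv⟩ := hv
  refine ⟨h * g, fun hm => ?_, ?_⟩
  · rcases Ideal.IsPrime.mem_or_mem ‹_› hm with h1 | h1
    · exact hh h1
    · exact hg h1
  · have : (h * g) • (u + v) = g • (h • u) + h • (g • v) := by
      rw [smul_add, mul_smul, mul_smul, smul_comm h g u]
    rw [this]
    exact (hhu.smul g).add (hgv.smul h)

theorem InCl.sum {ι : Type*} (s : Finset ι) (f : ι → E) (hf : ∀ i ∈ s, InCl I (f i)) :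
    InCl I (∑ i ∈ s, f i) := by
  classical
  induction s using Finset.induction_on with
  | empty =>
    rw [Finset.sum_empty]
    exact InCl.of_isIntegral isIntegral_zero
  | insert a s ha ih =>
    rw [Finset.sum_insert ha]
    exact (hf a (Finset.mem_insert_self a s)).add
      (ih fun i hi => hf i (Finset.mem_insert_of_mem hi))

/-- `ι(t) • b ∈ C` for `t ∈ R_I` and `b` integral -/
theorem InCl.iota_smul (t : Localization.AtPrime I) {b : E} (hb : IsIntegral R b) :
    InCl I (iota K I t • b) := by
  obtain ⟨a, s, hs, h⟩ := exists_denom K I t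
  refine ⟨s, hs, ?_⟩
  have : s • (iota K I t • b) = a • b := by
    rw [← algebraMap_smul K s, smul_smul, h, algebraMap_smul]
  rw [this]
  exact hb.smul a

variable {n : ℕ} (B : Module.Basis (Fin n) K E) {d : R} (hd : d ∉ I)
  (hspan : ∀ x : E, IsIntegral R x → ∃ c : Fin n → R, d • x = ∑ i, c i • B i)

include hd hspan in
/-- the coordinates of an element of `C` lie in `R_I` -/
theorem exists_iota_eq_repr {u : E} (hu : InCl I u) (i : Fin n) :
    ∃ t : Localization.AtPrime I, iota K I t = B.repr u i := by
  obtain ⟨h, hh, hint⟩ := hu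
  obtain ⟨c, hc⟩ := hspan _ hint
  have hdh : d * h ∉ I := fun hm => by
    rcases Ideal.IsPrime.mem_or_mem ‹_› hm with h1 | h1
    · exact hd h1
    · exact hh h1
  refine exists_iota_eq K I (a := c i) hdh ?_
  have h1 : d • h • u = algebraMap R K (d * h) • u := by
    rw [algebraMap_smul, mul_smul]
  have h2 : ∑ j, c j • B j = ∑ j, (fun j => algebraMap R K (c j)) j • B j := by
    refine Finset.sum_congr rfl fun j _ => ?_
    rw [algebraMap_smul]
  have h3 : B.repr (d • h • u) i = B.repr (∑ j, c j • B j) i := by rw [hc]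
  rw [h1, h2, map_smul, Finsupp.smul_apply, smul_eq_mul, B.repr_sum_self] at h3
  exact h3

include hd hspan in
/-- multiplication by an element of `C` has a matrix with entries in `R_I` -/
theorem exists_matrix (hB : ∀ j, IsIntegral R (B j)) {u : E} (hu : InCl I u) :
    ∃ M : Matrix (Fin n) (Fin n) (Localization.AtPrime I),
      (iota K I).mapMatrix M = Algebra.leftMulMatrix B u := by
  choose t ht using fun (ij : Fin n × Fin n) =>
    exists_iota_eq_repr B hd hspan (hu.mul (InCl.of_isIntegral (I := I) (hB ij.2))) ij.1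
  refine ⟨Matrix.of fun i j => t (i, j), ?_⟩
  ext i j
  rw [Algebra.leftMulMatrix_eq_repr_mul, ← ht (i, j)]
  rfl

end Coord

/-! ## Reduction modulo `I` -/

section Reduce

variable {R : Type*} [CommRing R] [IsDomain R] [IsIntegrallyClosed R]
variable {K : Type*} [Field K] [Algebra R K] [IsFractionRing R K]
variable {E : Type*} [Field E] [Algebra K E] [Algebra R E] [IsScalarTower R K E]
  [FiniteDimensional K E]
variable (I : Ideal R) [I.IsPrime]

/-- the residue map `R_I → κ(I)` as a map of `R`-algebras -/
def resid : Localization.AtPrime I →ₐ[R] I.ResidueField :=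
  IsScalarTower.toAlgHom R (Localization.AtPrime I) I.ResidueField

theorem resid_apply (t : Localization.AtPrime I) : resid I t = IsLocalRing.residue _ t := rfl

variable {I}
variable {n : ℕ} (B : Module.Basis (Fin n) K E) {d : R} (hd : d ∉ I)
  (hspan : ∀ x : E, IsIntegral R x → ∃ c : Fin n → R, d • x = ∑ i, c i • B i)
  (hB : ∀ j, IsIntegral R (B j))

include hd hspan hB in
/-- if `Q(u) ∈ I C` with `Q` monic, the reduction of the matrix of `u` is integral -/
theorem isIntegral_resid_matrix {u z : E} (hz : InCl I z) {Q : R[X]} (hQ : Q.Monic) {q : R}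
    (hq : q ∈ I) (h : aeval u Q = q • z) {M : Matrix (Fin n) (Fin n) (Localization.AtPrime I)}
    (hM : (iota K I).mapMatrix M = Algebra.leftMulMatrix B u) :
    IsIntegral R ((resid I).mapMatrix M) := by
  obtain ⟨Mz, hMz⟩ := exists_matrix B hd hspan hB hz
  have h1 : aeval M Q = q • Mz := by
    apply iota_mapMatrix_injective K I
    rw [← aeval_algHom_apply, hM, map_smul, hMz]
    have h2 : aeval (Algebra.leftMulMatrix B u) Q = Algebra.leftMulMatrix B (aeval u Q) :=
      aeval_algHom_apply ((Algebra.leftMulMatrix B).restrictScalars R) u Q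
    rw [h2, h, ← algebraMap_smul K q z, map_smul, algebraMap_smul]
  refine ⟨Q, hQ, ?_⟩
  rw [← aeval_def, aeval_algHom_apply, h1, map_smul]
  have h3 : algebraMap R I.ResidueField q = 0 := Ideal.algebraMap_residueField_eq_zero.mpr hq
  ext i j
  rw [Matrix.smul_apply, Algebra.smul_def, h3, zero_mul]
  rfl

theorem iota_trace (M : Matrix (Fin n) (Fin n) (Localization.AtPrime I)) :
    iota K I M.trace = ((iota K I).mapMatrix M).trace := by
  simp only [Matrix.trace, Matrix.diag_apply, map_sum, AlgHom.mapMatrix_apply, Matrix.map_apply]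

theorem resid_trace (M : Matrix (Fin n) (Fin n) (Localization.AtPrime I)) :
    resid I M.trace = ((resid I).mapMatrix M).trace := by
  simp only [Matrix.trace, Matrix.diag_apply, map_sum, AlgHom.mapMatrix_apply, Matrix.map_apply]

include hd hspan hB in
/-- the trace of `y b` comes from an element of `R_I` with integral reduction -/
theorem exists_trace_eq_iota {y z : E} (hy : InCl I y) (hz : InCl I z) {P : R[X]}
    (hP : P.Monic) {q : R} (hq : q ∈ I) (h : aeval y P = q • z) {b : E} (hb : IsIntegral R b) :
    ∃ t : Localization.AtPrime I, iota K I t = Algebra.trace K E (y * b) ∧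
      IsIntegral R (resid I t) := by
  classical
  obtain ⟨My, hMy⟩ := exists_matrix B hd hspan hB hy
  obtain ⟨Mb, hMb⟩ := exists_matrix B hd hspan hB (InCl.of_isIntegral (I := I) hb)
  have hYint := isIntegral_resid_matrix B hd hspan hB hz hP hq h hMy
  obtain ⟨Q, hQm, hQ⟩ := hb
  have hBint := isIntegral_resid_matrix B hd hspan hB (z := 0)
    (InCl.of_isIntegral (I := I) isIntegral_zero) hQm (q := 0) I.zero_mem
    (by rw [aeval_def, hQ, smul_zero]) hMb
  have hcomm : My * Mb = Mb * My := by
    apply iota_mapMatrix_injective K I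
    rw [map_mul, map_mul, hMy, hMb, ← map_mul, ← map_mul, mul_comm]
  have hprod : IsIntegral R ((resid I).mapMatrix My * (resid I).mapMatrix Mb) := by
    refine isIntegral_mul_of_commute hYint hBint ?_
    show _ = _
    rw [← map_mul, ← map_mul, hcomm]
  refine ⟨(My * Mb).trace, ?_, ?_⟩
  · rw [Algebra.trace_eq_matrix_trace B, map_mul, ← hMy, ← hMb, ← map_mul, iota_trace]
  · rw [resid_trace, map_mul]
    exact isIntegral_trace_of_isIntegral _ hprod

/-- an element of `R_I` whose reduction is integral over `R` is congruent to an element of `R`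
modulo the maximal ideal, if `R / I` is integrally closed -/
theorem exists_sub_mem_maximalIdeal [IsIntegrallyClosed (R ⧸ I)] {t : Localization.AtPrime I}
    (ht : IsIntegral R (resid I t)) :
    ∃ ρ : R, t - algebraMap R (Localization.AtPrime I) ρ ∈
      IsLocalRing.maximalIdeal (Localization.AtPrime I) := by
  have h1 : IsIntegral (R ⧸ I) (resid I t) := ht.tower_top
  obtain ⟨r, hr⟩ := IsIntegrallyClosed.isIntegral_iff.mp h1
  obtain ⟨ρ, rfl⟩ := Ideal.Quotient.mk_surjective r
  refine ⟨ρ, ?_⟩
  rw [← IsLocalRing.residue_eq_zero_iff, map_sub, sub_eq_zero, ← resid_apply, ← hr,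
    Ideal.algebraMap_quotient_residueField_mk,
    IsScalarTower.algebraMap_apply R (Localization.AtPrime I) I.ResidueField]
  rfl

end Reduce

end Fermat.Agent.H57.MaxOrd

namespace Fermat.Agent.H57

open Fermat.Agent.H91 Fermat.Agent.H91.KLNorm Fermat.Agent.H57.MaxOrd

/-- **KL-NORM-MAXORD** (row 426): unit discriminant ⟹ maximal order, local form. -/
theorem maxOrdLocalStatement : MaxOrdLocalStatement := by
  intro R _ _ _ K _ _ _ E _ _ _ _ _ p hp hPID 𝔪 h𝔪 hp𝔪 hgb y hy hPy
  classical
  obtain ⟨n, b, G, hn, hint, hG, hd⟩ := hgb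
  obtain ⟨P, hPm, z, hz, hPz⟩ := hPy
  set I : Ideal R := Ideal.span {p} with hIdef
  haveI hI : I.IsPrime := (Ideal.span_singleton_prime hp.ne_zero).mpr hp
  haveI : IsDomain (R ⧸ I) := Ideal.Quotient.isDomain _
  haveI : IsPrincipalIdealRing (R ⧸ I) := hPID
  haveI : IsIntegrallyClosed (R ⧸ I) := inferInstance
  have hd0 : G.det ≠ 0 := fun h0 => hd (h0 ▸ Ideal.zero_mem _)
  have hdI : G.det ∉ I := fun h => hd (by
    obtain ⟨c, hc⟩ := Ideal.mem_span_singleton.mp h
    rw [hc]
    exact 𝔪.mul_mem_right c hp𝔪)
  -- the basis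
  have hli := linearIndependent_of_det_ne_zero hG hd0
  haveI : Nonempty (Fin n) := by
    have h0 : 0 < Module.finrank K E := Module.finrank_pos
    rw [hn] at h0
    exact ⟨⟨0, h0⟩⟩
  set B' : Module.Basis (Fin n) K E :=
    basisOfLinearIndependentOfCardEqFinrank hli (by rw [hn, Fintype.card_fin]) with hB'
  have hB'b : ⇑B' = b := coe_basisOfLinearIndependentOfCardEqFinrank hli _
  have hspan : ∀ x : E, IsIntegral R x → ∃ c : Fin n → R, G.det • x = ∑ i, c i • B' i := by
    intro x hx
    obtain ⟨c, hc⟩ := exists_det_smul_eq hint hn hG hd0 hx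
    exact ⟨c, by rw [hB'b]; exact hc⟩
  have hB : ∀ j, IsIntegral R (B' j) := fun j => by rw [hB'b]; exact hint j
  have hyC : InCl I y := by
    obtain ⟨h, hh, hhy⟩ := hy
    exact ⟨h, fun hm => hh (Ideal.mem_span_singleton.mp hm), hhy⟩
  have hzC : InCl I z := by
    obtain ⟨h, hh, hhz⟩ := hz
    exact ⟨h, fun hm => hh (Ideal.mem_span_singleton.mp hm), hhz⟩
  have hpI : p ∈ I := Ideal.mem_span_singleton_self p
  -- the traces `Tr(y b_j)` lie in `R + p R_(p)`
  have key : ∀ j, ∃ ρ : R, ∃ γ : Localization.AtPrime I,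
      Algebra.trace K E (y * b j) = algebraMap R K ρ + algebraMap R K p * iota K I γ := by
    intro j
    obtain ⟨t, ht, htint⟩ :=
      exists_trace_eq_iota B' hdI hspan hB hyC hzC hPm hpI hPz (hint j)
    obtain ⟨ρ, hρ⟩ := exists_sub_mem_maximalIdeal htint
    rw [← Localization.AtPrime.map_eq_maximalIdeal, Ideal.map_span, Set.image_singleton,
      Ideal.mem_span_singleton'] at hρ
    obtain ⟨γ, hγ⟩ := hρ
    refine ⟨ρ, γ, ?_⟩
    have h1 : t = algebraMap R _ ρ + algebraMap R _ p * γ := by
      rw [mul_comm, hγ]; ring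
    rw [← ht, h1, map_add, map_mul, iota_algebraMap, iota_algebraMap]
  choose ρ γ hτ using key
  -- Cramer's rule
  have h1 := Algebra.traceMatrix_of_basis_mulVec (A := K) B' y
  rw [hB'b, traceMatrix_eq_map hG] at h1
  have h3 : algebraMap R K G.det • B'.equivFun y =
      (G.adjugate.map (algebraMap R K)) *ᵥ (fun i => Algebra.trace K E (y * b i)) := by
    rw [← h1, Matrix.mulVec_mulVec, ← RingHom.mapMatrix_apply, ← RingHom.mapMatrix_apply,
      ← map_mul, Matrix.adjugate_mul, RingHom.mapMatrix_apply, Matrix.map_smul' _ _ _ (map_mul _),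
      Matrix.map_one _ (map_zero _) (map_one _), Matrix.smul_mulVec, Matrix.one_mulVec]
  set ρ' : Fin n → R := G.adjugate *ᵥ ρ with hρ'
  set γ' : Fin n → Localization.AtPrime I :=
    fun i => ∑ j, algebraMap R _ (G.adjugate i j) * γ j with hγ'
  refine ⟨G.det, hd, ∑ i, ρ' i • b i, ∑ i, iota K I (γ' i) • b i, ?_, ?_, ?_⟩
  · exact IsIntegral.sum _ fun i _ => (hint i).smul _
  · have h4 : InCl I (∑ i, iota K I (γ' i) • b i) :=
      InCl.sum _ _ fun i _ => InCl.iota_smul _ (hint i)
    obtain ⟨h, hh, hhz⟩ := h4
    exact ⟨h, fun hdvd => hh (Ideal.mem_span_singleton.mpr hdvd), hhz⟩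
  · have h5 : y = ∑ i, B'.equivFun y i • b i := by
      conv_lhs => rw [← B'.sum_equivFun y, hB'b]
    conv_lhs => rw [h5]
    rw [Finset.smul_sum, Finset.smul_sum, ← Finset.sum_add_distrib]
    refine Finset.sum_congr rfl fun i _ => ?_
    have h6 := congrFun h3 i
    simp only [Pi.smul_apply, smul_eq_mul, Matrix.mulVec, dotProduct, Matrix.map_apply] at h6
    have h7 : algebraMap R K G.det * B'.equivFun y i =
        algebraMap R K (ρ' i) + algebraMap R K p * iota K I (γ' i) := by
      rw [h6, hρ', hγ']
      simp only [Matrix.mulVec, dotProduct, map_sum, map_mul, iota_algebraMap, hτ,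
        Finset.mul_sum, ← Finset.sum_add_distrib]
      refine Finset.sum_congr rfl fun j _ => ?_
      ring
    rw [← algebraMap_smul K G.det, smul_smul, h7, add_smul, algebraMap_smul, mul_smul,
      algebraMap_smul]

end Fermat.Agent.H57
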