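import Fermat.Agent.H57.Gamma0Index

/-!
# `dedekindPsi` along prime steps (shape requested by P-IGUSA, IG-D2d)
-/

set_option autoImplicit false

namespace Fermat.Agent.H57

open ModularCurve

theorem dedekindPsi_mul_prime_of_not_dvd' (n p : ℕ) (hn : 0 < n) (hp : p.Prime) (h : ¬ p ∣ n) :
    dedekindPsi (n * p) = dedekindPsi n * (p + 1) := by
  rw [dedekindPsi_mul_prime_of_not_dvd hn.ne' hp h, mul_comm]

theorem dedekindPsi_mul_prime_of_dvd' (n p : ℕ) (hn : 0 < n) (hp : p.Prime) (h : p ∣ n) :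
    dedekindPsi (n * p) = dedekindPsi n * p := by
  rw [dedekindPsi_mul_prime_of_dvd hn.ne' hp h, mul_comm]

end Fermat.Agent.H57
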