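import Fermat.Agent.H57.GaussDescent

/-!
# The abstract chart theorem for IG-C, in the shape requested by the P-IGUSA co-lead

`valuation_chart_abstract_h57` is the statement `valuation_chart_abstract` of the IG-C split
(abstract base field `F₀` with an algebra map to `F`), derived from `GaussData`.
-/

set_option autoImplicit false

namespace Fermat.Agent.H57

open Polynomial

/-- If `z` is integral over a subring `R` of `F` contained in the image of `F₀`, the coefficients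
of the minimal polynomial of `z` over `F₀` are integral over `R`. -/
theorem isIntegral_coeff_minpoly_of_range {F₀ F : Type*} [Field F₀] [Field F] [Algebra F₀ F]
    (R : Subring F) (hR : ∀ r ∈ R, r ∈ Set.range (algebraMap F₀ F)) {z : F}
    (hz : IsIntegral R z) (i : ℕ) : IsIntegral R (algebraMap F₀ F ((minpoly F₀ z).coeff i)) := by
  obtain ⟨p, hp, hpz⟩ := hz
  have hlift : p.map (algebraMap R F) ∈ Polynomial.lifts (algebraMap F₀ F) := by
    rw [Polynomial.lifts_iff_coeff_lifts]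
    intro k
    rw [Polynomial.coeff_map]
    exact hR _ (p.coeff k).2
  obtain ⟨P', hP'⟩ := (Polynomial.mem_lifts _).mp hlift
  have hP'z : Polynomial.aeval z P' = 0 := by
    rw [Polynomial.aeval_def, Polynomial.eval₂_eq_eval_map, hP', ← Polynomial.eval₂_eq_eval_map]
    exact hpz
  have hzK : IsIntegral F₀ z := ⟨P', by
    have := hp.map (algebraMap R F)
    rw [← hP'] at this
    exact (Polynomial.monic_map_iff (f := algebraMap F₀ F)).mp this, hP'z⟩
  have hdvd : (minpoly F₀ z).map (algebraMap F₀ F) ∣ p.map (algebraMap R F) := by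
    rw [← hP']
    exact Polynomial.map_dvd _ (minpoly.dvd F₀ z hP'z)
  have hmem := integralClosure.mem_lifts_of_monic_of_dvd_map F hp
    ((minpoly.monic hzK).map (algebraMap F₀ F)) hdvd
  rw [Polynomial.lifts_iff_coeff_lifts] at hmem
  obtain ⟨w, hw⟩ := hmem i
  rw [Polynomial.coeff_map] at hw
  rw [← hw]
  exact w.2

/-- The `GaussData` attached to the hypotheses of the chart theorem. -/
noncomputable def gaussDataOfChart {F₀ F : Type*} [Field F₀] [Field F] [Algebra F₀ F]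
    (O : Subring F) (ℓ : F₀) (hℓ : ℓ ≠ 0)
    (hunif : ∀ x : F, x ≠ 0 → ∃ (m : ℤ) (u : F), u ∈ O ∧ u⁻¹ ∈ O ∧
      x = (algebraMap F₀ F ℓ) ^ m * u)
    (hℓO : algebraMap F₀ F ℓ ∈ O) {Kb : Type*} [Field Kb] (Red : O →+* Kb)
    (hRedℓ : Red ⟨algebraMap F₀ F ℓ, hℓO⟩ = 0)
    (hker : ∀ x : O, Red x = 0 → (x : F) * (algebraMap F₀ F ℓ)⁻¹ ∈ O)
    {κ : Type*} [Field κ] [Algebra κ Kb]
    (hκ : ∀ (c : F₀) (hc : algebraMap F₀ F c ∈ O),
      Red ⟨algebraMap F₀ F c, hc⟩ ∈ Set.range (algebraMap κ Kb)) : GaussData F Kb where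
  K₀ := (algebraMap F₀ F).fieldRange
  O := O
  ell := algebraMap F₀ F ℓ
  ell_mem_O := hℓO
  ell_mem_K₀ := ⟨ℓ, rfl⟩
  ell_ne_zero := by
    intro h
    exact hℓ ((algebraMap F₀ F).injective (by rw [h, map_zero]))
  Red := Red
  ker_Red := by
    have hℓ0 : algebraMap F₀ F ℓ ≠ 0 := by
      intro h
      exact hℓ ((algebraMap F₀ F).injective (by rw [h, map_zero]))
    intro x
    constructor
    · intro hx
      refine ⟨⟨_, hker x hx⟩, ?_⟩
      simp only
      rw [mul_comm (x : F), ← mul_assoc, mul_inv_cancel₀ hℓ0, one_mul]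
    · rintro ⟨y, hy⟩
      have : x = ⟨algebraMap F₀ F ℓ, hℓO⟩ * y := Subtype.ext hy
      rw [this, map_mul, hRedℓ, zero_mul]
  exists_pow := by
    have hℓ0 : algebraMap F₀ F ℓ ≠ 0 := by
      intro h
      exact hℓ ((algebraMap F₀ F).injective (by rw [h, map_zero]))
    intro x hx
    obtain ⟨m, u, hu, hu', hxu⟩ := hunif x hx
    have hu0 : u ≠ 0 := by
      rintro rfl
      exact hx (by rw [hxu, mul_zero])
    have hRu : Red ⟨u, hu⟩ ≠ 0 := by
      intro h0
      have h1 : (⟨u, hu⟩ : O) * ⟨u⁻¹, hu'⟩ = 1 := Subtype.ext (mul_inv_cancel₀ hu0)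
      have h2 := congrArg Red h1
      rw [map_mul, h0, zero_mul, map_one] at h2
      exact zero_ne_one h2
    rcases le_total 0 m with hm | hm
    · obtain ⟨k, rfl⟩ := Int.eq_ofNat_of_zero_le hm
      refine ⟨0, k, ⟨u, hu⟩, hRu, ?_⟩
      rw [pow_zero, one_mul, hxu, zpow_natCast]
    · obtain ⟨k, hk⟩ := Int.eq_ofNat_of_zero_le (neg_nonneg.mpr hm)
      have hm' : m = -(k : ℤ) := by omega
      refine ⟨k, 0, ⟨u, hu⟩, hRu, ?_⟩
      rw [pow_zero, one_mul, hxu, hm', zpow_neg, zpow_natCast, ← mul_assoc,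
        mul_inv_cancel₀ (pow_ne_zero k hℓ0), one_mul]
  κ₀ := (algebraMap κ Kb).fieldRange
  Red_mem := by
    rintro x ⟨c, hc⟩
    have hcO : algebraMap F₀ F c ∈ O := by rw [hc]; exact x.2
    have := hκ c hcO
    have hx : x = ⟨algebraMap F₀ F c, hcO⟩ := Subtype.ext hc.symm
    rw [hx]
    exact this

/-- **IG-C abstract steps (3)-(5)**, in the shape of the official split. -/
theorem valuation_chart_abstract_h57 {F₀ F : Type*} [Field F₀] [Field F] [Algebra F₀ F]
    [FiniteDimensional F₀ F] (O : Subring F) (ℓ : F₀) (hℓ : ℓ ≠ 0)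
    (hunif : ∀ x : F, x ≠ 0 → ∃ (m : ℤ) (u : F), u ∈ O ∧ u⁻¹ ∈ O ∧
      x = (algebraMap F₀ F ℓ) ^ m * u)
    (hℓO : algebraMap F₀ F ℓ ∈ O) {Kb : Type*} [Field Kb] (Red : O →+* Kb)
    (hRedℓ : Red ⟨algebraMap F₀ F ℓ, hℓO⟩ = 0)
    (hker : ∀ x : O, Red x = 0 → (x : F) * (algebraMap F₀ F ℓ)⁻¹ ∈ O)
    {κ : Type*} [Field κ] [Algebra κ Kb]
    (hκ : ∀ (c : F₀) (hc : algebraMap F₀ F c ∈ O),
      Red ⟨algebraMap F₀ F c, hc⟩ ∈ Set.range (algebraMap κ Kb))
    (hdeg : ∃ v : Fin (Module.finrank F₀ F) → O, LinearIndependent κ (fun i => Red (v i)))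
    (B : Subring F) (hBO : B ≤ O)
    (hcl : ∀ g : F, g ∈ O → IsIntegral B (algebraMap F₀ F ℓ * g) →
      ∀ i, algebraMap F₀ F ((minpoly F₀ g).coeff i) ∈ O →
        algebraMap F₀ F ((minpoly F₀ g).coeff i) ∈ B) :
    (∀ x : F, IsIntegral B x → x ∈ O) ∧
      (∀ f : F, IsIntegral B f → ∀ hf : f ∈ O, Red ⟨f, hf⟩ = 0 →
        ∃ g : F, IsIntegral B g ∧ f = algebraMap F₀ F ℓ * g) := by
  classical
  set G : GaussData F Kb := gaussDataOfChart O ℓ hℓ hunif hℓO Red hRedℓ hker hκ with hG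
  have hGO : G.O = O := rfl
  have hint : ∀ x : F, IsIntegral B x → x ∈ O := fun x hx =>
    G.mem_O_of_isIntegral (GaussData.isIntegral_of_le (R := B) (S := G.O) hBO hx)
  refine ⟨hint, ?_⟩
  intro f hfB hf hred
  have hℓ0 : algebraMap F₀ F ℓ ≠ 0 := G.ell_ne_zero
  -- finrank and finiteness over the range
  have hn : Module.finrank G.K₀ F = Module.finrank F₀ F :=
    (Algebra.finrank_eq_of_equiv_equiv (algebraMap F₀ F).rangeRestrictFieldEquiv
      (RingEquiv.refl F) (by ext; rfl)).symm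
  have hfin : FiniteDimensional G.K₀ F := by
    apply Module.finite_of_finrank_pos
    rw [hn]
    exact Module.finrank_pos
  obtain ⟨v, hv⟩ := hdeg
  have hv' : LinearIndependent G.κ₀ (fun i => G.Red (v i)) := by
    rw [Fintype.linearIndependent_iff]
    intro c hc i
    choose c' hc' using fun j => (c j).2
    have h1 : ∑ j, c' j • Red (v j) = 0 := by
      rw [← hc]
      refine Finset.sum_congr rfl fun j _ => ?_
      rw [Algebra.smul_def, hc' j]
      rfl
    have h2 := Fintype.linearIndependent_iff.mp hv c' h1 i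
    apply Subtype.ext
    rw [← hc' i, h2, map_zero]
    rfl
  -- `g := f / ℓ`
  have hgO : f * (algebraMap F₀ F ℓ)⁻¹ ∈ O := hker ⟨f, hf⟩ hred
  have hfg : f = algebraMap F₀ F ℓ * (f * (algebraMap F₀ F ℓ)⁻¹) := by
    rw [mul_comm f, ← mul_assoc, mul_inv_cancel₀ hℓ0, one_mul]
  refine ⟨f * (algebraMap F₀ F ℓ)⁻¹, ?_, hfg⟩
  set g := f * (algebraMap F₀ F ℓ)⁻¹ with hg
  have hgO₀ : IsIntegral G.O₀ g := G.isIntegral_of_mem _ hn hfin v hv' g hgO
  have hO₀range : ∀ r ∈ G.O₀, r ∈ Set.range (algebraMap F₀ F) := fun r hr =>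
    (G.mem_O₀.mp hr).2
  have hcoeffO : ∀ i, algebraMap F₀ F ((minpoly F₀ g).coeff i) ∈ O := fun i =>
    G.mem_O_of_isIntegral (GaussData.isIntegral_of_le (R := G.O₀) (S := G.O) G.O₀_le
      (isIntegral_coeff_minpoly_of_range G.O₀ hO₀range hgO₀ i))
  have hcoeffB : ∀ i, algebraMap F₀ F ((minpoly F₀ g).coeff i) ∈ B := fun i =>
    hcl g hgO (by rw [← hfg]; exact hfB) i (hcoeffO i)
  have hgK : IsIntegral F₀ g := Algebra.IsIntegral.isIntegral g
  have hlift : (minpoly F₀ g).map (algebraMap F₀ F) ∈ Polynomial.lifts (algebraMap B F) := by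
    rw [Polynomial.lifts_iff_coeff_lifts]
    intro k
    rw [Polynomial.coeff_map]
    exact ⟨⟨_, hcoeffB k⟩, rfl⟩
  obtain ⟨q, hq, -, hqm⟩ := Polynomial.lifts_and_natDegree_eq_and_monic hlift
    ((minpoly.monic hgK).map _)
  refine ⟨q, hqm, ?_⟩
  rw [Polynomial.eval₂_eq_eval_map, hq, ← Polynomial.eval₂_eq_eval_map]
  exact minpoly.aeval F₀ g

end Fermat.Agent.H57
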