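import Mathlib

/-!
# Abstract "Gauss valuation" descent (P-IGUSA, IG-C steps (3)-(5))

`GaussData F κ` packages a subring `O` of a field `F` with a reduction map `Red : O → κ` whose
kernel is generated by an element `ℓ`, such that every nonzero element of `F` is a power of `ℓ`
times an element with nonzero reduction (a discrete valuation ring with uniformiser `ℓ`), together
with a subfield `K₀` of `F` and a subfield `κ₀` of `κ` receiving the reductions of `O ∩ K₀`.

If `[F : K₀] = n` and there are `n` elements of `O` whose reductions are linearly independent over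
`κ₀`, then
* `O` is a finite free `O ∩ K₀`-module, so every element of `O` is integral over `O ∩ K₀`
  (`GaussData.isIntegral_of_mem`);
* for a subring `B₀ ⊆ O ∩ K₀` which is "saturated" (`c ∈ O ∩ K₀` and `ℓ^k c` integral over `B₀`
  imply `c ∈ B₀`), the kernel of `Red` on the integral closure of `B₀` in `F` is generated by `ℓ`
  (`GaussData.exists_integral_of_red_eq_zero`).
-/

set_option autoImplicit false

namespace Fermat.Agent.H57

open Polynomial

/-- Abstract data of a "Gauss valuation ring" `O` of a field `F` with uniformiser `ℓ` and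
reduction map `Red`, relative to a subfield `K₀`. -/
structure GaussData (F : Type*) [Field F] (κ : Type*) [Field κ] where
  K₀ : Subfield F
  O : Subring F
  ell : F
  ell_mem_O : ell ∈ O
  ell_mem_K₀ : ell ∈ K₀
  ell_ne_zero : ell ≠ 0
  Red : O →+* κ
  /-- kernel of the reduction is generated by `ℓ` -/
  ker_Red : ∀ x : O, Red x = 0 ↔ ∃ y : O, (x : F) = ell * (y : F)
  /-- every nonzero element is a power of `ℓ` times a unit-like element -/
  exists_pow : ∀ x : F, x ≠ 0 → ∃ (a b : ℕ) (u : O), Red u ≠ 0 ∧ ell ^ a * x = ell ^ b * (u : F)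
  κ₀ : Subfield κ
  Red_mem : ∀ x : O, (x : F) ∈ K₀ → Red x ∈ κ₀

namespace GaussData

variable {F : Type*} [Field F] {κ : Type*} [Field κ] (G : GaussData F κ)

/-- `O ∩ K₀` -/
def O₀ : Subring F := G.O ⊓ G.K₀.toSubring

theorem mem_O₀ {x : F} : x ∈ G.O₀ ↔ x ∈ G.O ∧ x ∈ G.K₀ := Iff.rfl

theorem O₀_le : G.O₀ ≤ G.O := inf_le_left

theorem Red_ell : G.Red ⟨G.ell, G.ell_mem_O⟩ = 0 :=
  (G.ker_Red _).mpr ⟨1, by simp⟩

theorem Red_ell_pow_mul {k : ℕ} (hk : 0 < k) (w u : G.O)
    (h : G.ell ^ k * (w : F) = (u : F)) : G.Red u = 0 := by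
  rw [G.ker_Red]
  obtain ⟨j, rfl⟩ := Nat.exists_eq_succ_of_ne_zero hk.ne'
  refine ⟨⟨G.ell ^ j * (w : F), G.O.mul_mem (G.O.pow_mem G.ell_mem_O j) w.2⟩, ?_⟩
  rw [← h, pow_succ']
  simp [mul_assoc]

theorem pow_ne_zero' (k : ℕ) : G.ell ^ k ≠ 0 := pow_ne_zero k G.ell_ne_zero

/-- some power of `ℓ` moves a given element into `O` -/
theorem exists_pow_mul_mem (x : F) : ∃ k : ℕ, G.ell ^ k * x ∈ G.O := by
  by_cases hx : x = 0
  · exact ⟨0, by simp [hx, G.O.zero_mem]⟩
  · obtain ⟨a, b, u, -, h⟩ := G.exists_pow x hx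
    exact ⟨a, by rw [h]; exact G.O.mul_mem (G.O.pow_mem G.ell_mem_O b) u.2⟩

theorem pow_mul_mem_of_le {x : F} {k m : ℕ} (hkm : k ≤ m) (h : G.ell ^ k * x ∈ G.O) :
    G.ell ^ m * x ∈ G.O := by
  obtain ⟨j, rfl⟩ := Nat.exists_eq_add_of_le hkm
  rw [pow_add, mul_comm (G.ell ^ k), mul_assoc]
  exact G.O.mul_mem (G.O.pow_mem G.ell_mem_O j) h

/-- an element of `O` divisible by all powers of `ℓ` is zero -/
theorem eq_zero_of_forall_pow {x : F} (h : ∀ k : ℕ, ∃ w : G.O, x = G.ell ^ k * (w : F)) :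
    x = 0 := by
  by_contra hx
  obtain ⟨a, b, u, hu, hab⟩ := G.exists_pow x hx
  obtain ⟨w, hw⟩ := h (b + 1)
  refine hu (G.Red_ell_pow_mul (k := a + 1) (Nat.succ_pos a) w u ?_)
  have h1 : G.ell ^ b * (G.ell ^ (a + 1) * (w : F)) = G.ell ^ b * (u : F) := by
    rw [← hab, hw]
    ring
  exact mul_left_cancel₀ (G.pow_ne_zero' b) h1

/-- `O` is a valuation ring of `F` -/
theorem mem_or_inv_mem (x : F) : x ∈ G.O ∨ x⁻¹ ∈ G.O := by
  by_cases hx : x = 0
  · exact Or.inl (by rw [hx]; exact G.O.zero_mem)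
  obtain ⟨a, b, u, hu, hab⟩ := G.exists_pow x hx
  rcases le_total a b with hle | hle
  · left
    obtain ⟨j, rfl⟩ := Nat.exists_eq_add_of_le hle
    have : x = G.ell ^ j * (u : F) := by
      apply mul_left_cancel₀ (G.pow_ne_zero' a)
      rw [hab, pow_add]
      ring
    rw [this]
    exact G.O.mul_mem (G.O.pow_mem G.ell_mem_O j) u.2
  · right
    obtain ⟨j, rfl⟩ := Nat.exists_eq_add_of_le hle
    have hu0 : (u : F) ≠ 0 := by
      intro h0
      apply hu
      have : u = 0 := Subtype.ext h0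
      rw [this, map_zero]
    -- `ℓ^j x = u`, so `x⁻¹ = ℓ^j u⁻¹`
    have hxu : G.ell ^ j * x = (u : F) := by
      apply mul_left_cancel₀ (G.pow_ne_zero' b)
      rw [← hab, pow_add]
      ring
    obtain ⟨a', b', u', hu', hab'⟩ := G.exists_pow (u : F)⁻¹ (inv_ne_zero hu0)
    have hle' : a' ≤ b' := by
      by_contra hlt
      obtain ⟨i, rfl⟩ := Nat.exists_eq_add_of_lt (not_le.mp hlt)
      -- `ℓ^(i+1) = u * u'`
      have h2 : G.ell ^ (i + 1) * ((1 : G.O) : F) = ((u * u' : G.O) : F) := by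
        have h3 : G.ell ^ b' * (G.ell ^ (i + 1)) = G.ell ^ b' * ((u : F) * (u' : F)) := by
          have : G.ell ^ (b' + i + 1) * (u : F)⁻¹ * (u : F) = G.ell ^ b' * (u' : F) * (u : F) := by
            rw [hab']
          rw [mul_assoc, inv_mul_cancel₀ hu0, mul_one] at this
          rw [show G.ell ^ b' * ((u : F) * (u' : F)) = G.ell ^ b' * (u' : F) * (u : F) by ring,
            ← this]
          ring
        have h4 := mul_left_cancel₀ (G.pow_ne_zero' b') h3
        rw [Subring.coe_one, mul_one, h4, Subring.coe_mul]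
      have h5 := G.Red_ell_pow_mul (Nat.succ_pos i) 1 (u * u') h2
      rw [map_mul] at h5
      rcases mul_eq_zero.mp h5 with h6 | h6
      · exact hu h6
      · exact hu' h6
    obtain ⟨i, rfl⟩ := Nat.exists_eq_add_of_le hle'
    have huinv : (u : F)⁻¹ = G.ell ^ i * (u' : F) := by
      apply mul_left_cancel₀ (G.pow_ne_zero' a')
      rw [hab', pow_add]
      ring
    have : x⁻¹ = G.ell ^ j * (G.ell ^ i * (u' : F)) := by
      rw [← huinv, ← hxu, mul_inv, ← mul_assoc, mul_inv_cancel₀ (G.pow_ne_zero' j), one_mul]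
    rw [this]
    exact G.O.mul_mem (G.O.pow_mem G.ell_mem_O j)
      (G.O.mul_mem (G.O.pow_mem G.ell_mem_O i) u'.2)

/-- `O` as a valuation subring of `F` -/
def toValuationSubring : ValuationSubring F :=
  { G.O with mem_or_inv_mem' := G.mem_or_inv_mem }

theorem mem_toValuationSubring {x : F} : x ∈ G.toValuationSubring ↔ x ∈ G.O := Iff.rfl

/-- `O` is integrally closed in `F`. -/
theorem mem_O_of_isIntegral {x : F} (hx : IsIntegral G.O x) : x ∈ G.O := by
  have h1 : IsIntegral G.toValuationSubring x := by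
    obtain ⟨p, hp, hpx⟩ := hx
    exact ⟨p, hp, hpx⟩
  obtain ⟨y, hy⟩ := IsIntegrallyClosed.isIntegral_iff.mp h1
  rw [← hy]
  exact y.2

/-! ### Part II: `O` is free over `O ∩ K₀` on any family with independent reductions -/

section Descent

variable {n : ℕ} (y : Fin n → G.O)

/-- Key lemma: if a `K₀`-linear combination of the `y i` lies in `O` and the reductions of the
`y i` are `κ₀`-linearly independent, then all coefficients lie in `O`. -/
theorem coeff_mem_of_sum_mem (hy : LinearIndependent G.κ₀ (fun i => G.Red (y i)))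
    (c : Fin n → F) (hc : ∀ i, c i ∈ G.K₀)
    (hx : ∑ i, c i * (y i : F) ∈ G.O) : ∀ i, c i ∈ G.O := by
  classical
  have hex : ∃ k : ℕ, ∀ i, G.ell ^ k * c i ∈ G.O := by
    choose k hk using fun i => G.exists_pow_mul_mem (c i)
    exact ⟨Finset.univ.sup k, fun i =>
      G.pow_mul_mem_of_le (Finset.le_sup (Finset.mem_univ i)) (hk i)⟩
  have hmin : ∀ k : ℕ, (∀ i, G.ell ^ (k + 1) * c i ∈ G.O) → ∀ i, G.ell ^ k * c i ∈ G.O := by
    intro k hk
    let d : Fin n → G.O := fun i => ⟨G.ell ^ (k + 1) * c i, hk i⟩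
    have hdK : ∀ i, ((d i : G.O) : F) ∈ G.K₀ := fun i =>
      G.K₀.mul_mem (G.K₀.pow_mem G.ell_mem_K₀ _) (hc i)
    have hsum : G.ell ^ (k + 1) * (((⟨_, hx⟩ : G.O)) : F) = ((∑ i, d i * y i : G.O) : F) := by
      rw [AddSubmonoidClass.coe_finsetSum]
      simp only [Subring.coe_mul, d]
      rw [Finset.mul_sum]
      refine Finset.sum_congr rfl fun i _ => ?_
      ring
    have hred := G.Red_ell_pow_mul (Nat.succ_pos k) ⟨_, hx⟩ (∑ i, d i * y i) hsum
    rw [map_sum] at hred
    simp only [map_mul] at hred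
    have hli := Fintype.linearIndependent_iff.mp hy
      (fun i => ⟨G.Red (d i), G.Red_mem _ (hdK i)⟩) (by
        simpa [Subfield.smul_def] using hred)
    intro i
    have h0 : G.Red (d i) = 0 := by
      have := congrArg Subtype.val (hli i)
      simpa using this
    obtain ⟨w, hw⟩ := (G.ker_Red _).mp h0
    have : G.ell ^ k * c i = (w : F) := by
      apply mul_left_cancel₀ G.ell_ne_zero
      rw [← hw, ← mul_assoc, ← pow_succ']
    rw [this]
    exact w.2
  obtain ⟨k, hk⟩ := hex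
  induction k with
  | zero => simpa using hk
  | succ k ih => exact ih (hmin k hk)

/-- The `y i` are linearly independent over `K₀`. -/
theorem linearIndependent_coe (hy : LinearIndependent G.κ₀ (fun i => G.Red (y i))) :
    LinearIndependent G.K₀ (fun i => ((y i : G.O) : F)) := by
  rw [Fintype.linearIndependent_iff]
  intro c hc i
  have hc' : ∑ j, ((c j : G.K₀) : F) * ((y j : G.O) : F) = 0 := by
    simpa [Subfield.smul_def] using hc
  have key : ∀ k : ℕ, ∃ w : G.O, ((c i : G.K₀) : F) = G.ell ^ k * (w : F) := by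
    intro k
    have hsum : ∑ j, ((G.ell ^ k)⁻¹ * ((c j : G.K₀) : F)) * ((y j : G.O) : F) ∈ G.O := by
      have : ∑ j, ((G.ell ^ k)⁻¹ * ((c j : G.K₀) : F)) * ((y j : G.O) : F) = 0 := by
        simp only [mul_assoc]
        rw [← Finset.mul_sum, hc', mul_zero]
      rw [this]
      exact G.O.zero_mem
    have := G.coeff_mem_of_sum_mem y hy (fun j => (G.ell ^ k)⁻¹ * ((c j : G.K₀) : F))
      (fun j => G.K₀.mul_mem (G.K₀.inv_mem (G.K₀.pow_mem G.ell_mem_K₀ k)) (c j).2) hsum i
    refine ⟨⟨_, this⟩, ?_⟩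
    simp only
    rw [← mul_assoc, mul_inv_cancel₀ (G.pow_ne_zero' k), one_mul]
  exact Subtype.ext (G.eq_zero_of_forall_pow key)

/-- Every element of `O` is an `O ∩ K₀`-combination of the `y i`. -/
theorem exists_sum_eq (hn : Module.finrank G.K₀ F = n) (hfin : FiniteDimensional G.K₀ F)
    (hy : LinearIndependent G.κ₀ (fun i => G.Red (y i))) (x : F) (hx : x ∈ G.O) :
    ∃ c : Fin n → G.O₀, x = ∑ i, ((c i : G.O₀) : F) * ((y i : G.O) : F) := by
  have hspan : Submodule.span G.K₀ (Set.range fun i => ((y i : G.O) : F)) = ⊤ :=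
    (G.linearIndependent_coe y hy).span_eq_top_of_card_eq_finrank' (by simp [hn])
  have hxs : x ∈ Submodule.span G.K₀ (Set.range fun i => ((y i : G.O) : F)) := by
    rw [hspan]; trivial
  obtain ⟨c, hcx⟩ := (Submodule.mem_span_range_iff_exists_fun G.K₀).mp hxs
  have hcx' : ∑ j, ((c j : G.K₀) : F) * ((y j : G.O) : F) = x := by
    simpa [Subfield.smul_def] using hcx
  have hmem := G.coeff_mem_of_sum_mem y hy (fun j => ((c j : G.K₀) : F)) (fun j => (c j).2)
    (by rw [hcx']; exact hx)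
  exact ⟨fun i => ⟨(c i : F), G.mem_O₀.mpr ⟨hmem i, (c i).2⟩⟩, hcx'.symm⟩

/-- **(A)** Every element of `O` is integral over `O ∩ K₀`. -/
theorem isIntegral_of_mem (n : ℕ) (hn : Module.finrank G.K₀ F = n)
    (hfin : FiniteDimensional G.K₀ F) (y : Fin n → G.O)
    (hy : LinearIndependent G.κ₀ (fun i => G.Red (y i))) (x : F) (hx : x ∈ G.O) :
    IsIntegral G.O₀ x := by
  classical
  let N : Submodule G.O₀ F := Submodule.span G.O₀ (Set.range fun i => ((y i : G.O) : F))
  have hNO : ∀ z, z ∈ N ↔ z ∈ G.O := by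
    intro z
    constructor
    · intro hz
      induction hz using Submodule.span_induction with
      | mem z hz =>
        obtain ⟨i, rfl⟩ := hz
        exact (y i).2
      | zero => exact G.O.zero_mem
      | add a b _ _ ha hb => exact G.O.add_mem ha hb
      | smul r a _ ha =>
        rw [Subring.smul_def, smul_eq_mul]
        exact G.O.mul_mem (G.O₀_le r.2) ha
    · intro hz
      obtain ⟨c, rfl⟩ := G.exists_sum_eq y hn hfin hy z hz
      refine Submodule.sum_mem _ fun i _ => ?_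
      have : ((c i : G.O₀) : F) * ((y i : G.O) : F) = c i • ((y i : G.O) : F) := by
        rw [Subring.smul_def, smul_eq_mul]
      rw [this]
      exact Submodule.smul_mem _ _ (Submodule.subset_span ⟨i, rfl⟩)
  have hN : N ≠ ⊥ := by
    intro h
    have h1 : (1 : F) ∈ N := (hNO 1).mpr G.O.one_mem
    rw [h] at h1
    exact one_ne_zero ((Submodule.mem_bot _).mp h1)
  have hN' : N.FG := Submodule.fg_span (Set.finite_range _)
  refine isIntegral_of_smul_mem_submodule N hN hN' x fun z hz => ?_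
  rw [smul_eq_mul]
  exact (hNO _).mpr (G.O.mul_mem hx ((hNO z).mp hz))

end Descent

/-! ### Part III: the kernel of `Red` on an integral closure -/

section Kernel

/-- transfer of integrality along an inclusion of subrings -/
theorem isIntegral_of_le {R S : Subring F} (h : R ≤ S) {x : F} (hx : IsIntegral R x) :
    IsIntegral S x := by
  obtain ⟨p, hp, hpx⟩ := hx
  refine ⟨p.map (Subring.inclusion h), hp.map _, ?_⟩
  rw [Polynomial.eval₂_map]
  exact hpx

/-- If `z` is integral over a subring `R ⊆ K₀`, the coefficients of the minimal polynomial of `z`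
over `K₀` are integral over `R`. -/
theorem isIntegral_coeff_minpoly (R : Subring F) (hR : ∀ r ∈ R, r ∈ G.K₀) {z : F}
    (hz : IsIntegral R z) (i : ℕ) : IsIntegral R (((minpoly G.K₀ z).coeff i : G.K₀) : F) := by
  obtain ⟨p, hp, hpz⟩ := hz
  -- `p` mapped to `F[X]` comes from `K₀[X]`
  have hlift : p.map (algebraMap R F) ∈ Polynomial.lifts (algebraMap G.K₀ F) := by
    rw [Polynomial.lifts_iff_coeff_lifts]
    intro k
    rw [Polynomial.coeff_map]
    exact ⟨⟨_, hR _ (p.coeff k).2⟩, rfl⟩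
  obtain ⟨P', hP'⟩ := (Polynomial.mem_lifts _).mp hlift
  have hP'z : Polynomial.aeval z P' = 0 := by
    rw [Polynomial.aeval_def, Polynomial.eval₂_eq_eval_map, hP', ← Polynomial.eval₂_eq_eval_map]
    exact hpz
  have hzK : IsIntegral G.K₀ z := ⟨P', by
    have := hp.map (algebraMap R F)
    rw [← hP'] at this
    exact (Polynomial.monic_map_iff (f := algebraMap G.K₀ F)).mp this, hP'z⟩
  have hdvd : (minpoly G.K₀ z).map (algebraMap G.K₀ F) ∣ p.map (algebraMap R F) := by
    rw [← hP']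
    exact Polynomial.map_dvd _ (minpoly.dvd G.K₀ z hP'z)
  have hmem := integralClosure.mem_lifts_of_monic_of_dvd_map F hp
    ((minpoly.monic hzK).map (algebraMap G.K₀ F)) hdvd
  rw [Polynomial.lifts_iff_coeff_lifts] at hmem
  obtain ⟨w, hw⟩ := hmem i
  rw [Polynomial.coeff_map] at hw
  have : (((minpoly G.K₀ z).coeff i : G.K₀) : F) = (w : F) := hw.symm
  rw [this]
  exact w.2

/-- **(C)** Let `B₀ ⊆ O ∩ K₀` be a subring which is saturated in `O ∩ K₀` with respect to `ℓ`
and integrality.  If `f ∈ O` is integral over `B₀` and `Red f = 0`, then `f = ℓ g` with `g ∈ O`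
integral over `B₀`. -/
theorem exists_integral_of_red_eq_zero (n : ℕ) (hn : Module.finrank G.K₀ F = n)
    (hfin : FiniteDimensional G.K₀ F) (y : Fin n → G.O)
    (hy : LinearIndependent G.κ₀ (fun i => G.Red (y i)))
    (B₀ : Subring F) (hB₀ : B₀ ≤ G.O₀)
    (hB₀' : ∀ c ∈ G.O₀, (∃ k : ℕ, IsIntegral B₀ (G.ell ^ k * c)) → c ∈ B₀)
    (f : G.O) (hf : IsIntegral B₀ (f : F)) (hred : G.Red f = 0) :
    ∃ g : G.O, IsIntegral B₀ (g : F) ∧ (f : F) = G.ell * (g : F) := by
  obtain ⟨g, hfg⟩ := (G.ker_Red f).mp hred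
  refine ⟨g, ?_, hfg⟩
  have hB₀K : ∀ r ∈ B₀, r ∈ G.K₀ := fun r hr => (G.mem_O₀.mp (hB₀ hr)).2
  have hO₀K : ∀ r ∈ G.O₀, r ∈ G.K₀ := fun r hr => (G.mem_O₀.mp hr).2
  have hgO₀ : IsIntegral G.O₀ (g : F) := G.isIntegral_of_mem n hn hfin y hy _ g.2
  have hgK : IsIntegral G.K₀ (g : F) := by
    obtain ⟨p, hp, hpz⟩ := hgO₀
    have hlift : p.map (algebraMap G.O₀ F) ∈ Polynomial.lifts (algebraMap G.K₀ F) := by
      rw [Polynomial.lifts_iff_coeff_lifts]
      intro k
      rw [Polynomial.coeff_map]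
      exact ⟨⟨_, hO₀K _ (p.coeff k).2⟩, rfl⟩
    obtain ⟨P', hP'⟩ := (Polynomial.mem_lifts _).mp hlift
    refine ⟨P', ?_, ?_⟩
    · have := hp.map (algebraMap G.O₀ F)
      rw [← hP'] at this
      exact (Polynomial.monic_map_iff (f := algebraMap G.K₀ F)).mp this
    · rw [Polynomial.eval₂_eq_eval_map, hP', ← Polynomial.eval₂_eq_eval_map]
      exact hpz
  have hfK : IsIntegral G.K₀ (f : F) := by
    rw [hfg]
    exact IsIntegral.mul (isIntegral_algebraMap (x := (⟨G.ell, G.ell_mem_K₀⟩ : G.K₀))) hgK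
  set ℓ' : G.K₀ := ⟨G.ell, G.ell_mem_K₀⟩ with hℓ'
  have hℓ'0 : ℓ' ≠ 0 := fun h => G.ell_ne_zero (congrArg Subtype.val h)
  set μg := minpoly G.K₀ (g : F) with hμg
  set μf := minpoly G.K₀ (f : F) with hμf
  have hμg_monic : μg.Monic := minpoly.monic hgK
  have hμf_monic : μf.Monic := minpoly.monic hfK
  -- `μf ∣ scaleRoots μg ℓ'`
  have h1 : μf ∣ Polynomial.scaleRoots μg ℓ' := by
    apply minpoly.dvd
    have := Polynomial.scaleRoots_aeval_eq_zero (r := ℓ') (minpoly.aeval G.K₀ (g : F))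
    rw [hfg]
    exact this
  -- `μg ∣ scaleRoots μf ℓ'⁻¹`
  have h2 : μg ∣ Polynomial.scaleRoots μf ℓ'⁻¹ := by
    apply minpoly.dvd
    have := Polynomial.scaleRoots_aeval_eq_zero (r := ℓ'⁻¹) (minpoly.aeval G.K₀ (f : F))
    have hg' : (g : F) = algebraMap G.K₀ F ℓ'⁻¹ * (f : F) := by
      rw [hfg, map_inv₀, ← mul_assoc]
      have : algebraMap G.K₀ F ℓ' = G.ell := rfl
      rw [this, inv_mul_cancel₀ G.ell_ne_zero, one_mul]
    rw [hg']
    exact this
  have hdeg : μg.natDegree ≤ μf.natDegree := by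
    have := Polynomial.natDegree_le_of_dvd h2
      ((Polynomial.monic_scaleRoots_iff _).mpr hμf_monic).ne_zero
    rwa [Polynomial.natDegree_scaleRoots] at this
  have heq : Polynomial.scaleRoots μg ℓ' = μf :=
    Polynomial.eq_of_monic_of_dvd_of_natDegree_le hμf_monic
      ((Polynomial.monic_scaleRoots_iff _).mpr hμg_monic) h1
      (by rw [Polynomial.natDegree_scaleRoots]; exact hdeg)
  -- coefficients of `μg` lie in `B₀`
  have hcoeff : ∀ i, (((μg.coeff i : G.K₀)) : F) ∈ B₀ := by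
    intro i
    apply hB₀'
    · refine G.mem_O₀.mpr ⟨?_, (μg.coeff i).2⟩
      exact G.mem_O_of_isIntegral
        (isIntegral_of_le G.O₀_le (G.isIntegral_coeff_minpoly G.O₀ hO₀K hgO₀ i))
    · refine ⟨μg.natDegree - i, ?_⟩
      have h3 := G.isIntegral_coeff_minpoly B₀ hB₀K hf i
      rw [← hμf, ← heq, Polynomial.coeff_scaleRoots] at h3
      have h4 : (((μg.coeff i * ℓ' ^ (μg.natDegree - i) : G.K₀)) : F)
          = G.ell ^ (μg.natDegree - i) * ((μg.coeff i : G.K₀) : F) := by
        push_cast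
        rw [mul_comm]
      rwa [h4] at h3
  -- lift `μg` to `B₀[X]`
  have hlift : μg.map (algebraMap G.K₀ F) ∈ Polynomial.lifts (algebraMap B₀ F) := by
    rw [Polynomial.lifts_iff_coeff_lifts]
    intro k
    rw [Polynomial.coeff_map]
    exact ⟨⟨_, hcoeff k⟩, rfl⟩
  obtain ⟨q, hq, -, hqm⟩ := Polynomial.lifts_and_natDegree_eq_and_monic hlift
    (hμg_monic.map _)
  refine ⟨q, hqm, ?_⟩
  rw [Polynomial.eval₂_eq_eval_map, hq, ← Polynomial.eval₂_eq_eval_map]
  exact minpoly.aeval G.K₀ (g : F)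

end Kernel

end GaussData

end Fermat.Agent.H57
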