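/-
P-ES / ES-D-CORE (row 304), CORE-cd: the leading-term statement of helper87's interface
(`Fermat.Agent.H87.ESD.LeadingTermStatement`), obtained from the abstract theorem
`Fermat.Agent.H57.ReductionSetup.principal_of_torsion` via the adapter
`RvHyp → ReductionSetup` (Gauss ring of helper18).
-/
import Mathlib
import Fermat.Agent.H57.TorsionReduction
import Fermat.Agent.H87.ESD.CoreInterfaces
import Fermat.Agent.H18.RedSurj

set_option autoImplicit false
set_option synthInstance.maxHeartbeats 400000

open AlgebraicCurve ModularCurve Fermat.Agent.H18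

namespace Fermat.Agent.H57

noncomputable section

section Adapter

variable {L : Type*} [Field L] [Algebra ℚ L] {A : ValuationSubring L}
variable {k : Type*} [Field k] {π : A →+* k} {N : ℕ}
variable {r : Place L ↥(rvFL L N) → Place k ↥(rvFk k N)}

/-- the Gauss ring of helper18 as a valuation subring of `F_L` -/
def rvValSubring (H : RvHyp A π N r) : ValuationSubring ↥(rvFL L N) :=
  { rvRing A π N with mem_or_inv_mem' := H.mem_or_inv_mem }

theorem mem_rvValSubring (H : RvHyp A π N r) {x : ↥(rvFL L N)} :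
    x ∈ rvValSubring H ↔ x ∈ rvRing A π N := Iff.rfl

/-- the identity map from the valuation subring to the Gauss ring -/
def toRv (H : RvHyp A π N r) (x : rvValSubring H) : rvRing A π N := ⟨(x : ↥(rvFL L N)), x.2⟩

theorem toRv_coe (H : RvHyp A π N r) (x : rvValSubring H) :
    ((toRv H x : rvRing A π N) : ↥(rvFL L N)) = (x : ↥(rvFL L N)) := rfl

theorem toRv_one (H : RvHyp A π N r) : toRv H 1 = 1 := Subtype.ext rfl

theorem toRv_zero (H : RvHyp A π N r) : toRv H 0 = 0 := Subtype.ext rfl

theorem toRv_mul (H : RvHyp A π N r) (x y : rvValSubring H) :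
    toRv H (x * y) = toRv H x * toRv H y := Subtype.ext rfl

theorem toRv_add (H : RvHyp A π N r) (x y : rvValSubring H) :
    toRv H (x + y) = toRv H x + toRv H y := Subtype.ext rfl

/-- the reduction on the valuation subring -/
def rvRedVal (H : RvHyp A π N r) : rvValSubring H →+* ↥(rvFk k N) where
  toFun x := rvRed A π N (toRv H x)
  map_one' := by rw [toRv_one, map_one]
  map_mul' x y := by rw [toRv_mul, map_mul]
  map_zero' := by rw [toRv_zero, map_zero]
  map_add' x y := by rw [toRv_add, map_add]

theorem rvRedVal_apply (H : RvHyp A π N r) (x : rvValSubring H) :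
    rvRedVal H x = rvRed A π N (toRv H x) := rfl

theorem rvRedVal_eq_zero_iff (H : RvHyp A π N r) (x : rvValSubring H) :
    rvRedVal H x = 0 ↔ ¬ IsUnit x := by
  constructor
  · intro h hu
    have := hu.map (rvRedVal H)
    rw [h] at this
    exact not_isUnit_zero this
  · intro h
    by_contra hne
    apply h
    have hinv : (x : ↥(rvFL L N))⁻¹ ∈ rvRing A π N :=
      inv_mem_rvRing_of_red_ne_zero (f := toRv H x) hne
    have hx0 : (x : ↥(rvFL L N)) ≠ 0 := by
      intro h0
      apply hne
      have : x = 0 := Subtype.ext h0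
      rw [this, map_zero]
    exact ⟨⟨x, ⟨_, hinv⟩, Subtype.ext (mul_inv_cancel₀ hx0),
      Subtype.ext (inv_mul_cancel₀ hx0)⟩, rfl⟩

/-- **Adapter**: the Gauss ring of helper18 under `RvHyp` is a `ReductionSetup`. -/
def reductionSetupOfRvHyp (H : RvHyp A π N r) :
    ReductionSetup L k ↥(rvFL L N) ↥(rvFk k N) where
  O := rvValSubring H
  red := rvRedVal H
  red_eq_zero := rvRedVal_eq_zero_iff H
  exists_scale := by
    intro y hy
    obtain ⟨c, u, hc0, hu, hfu⟩ := H.exists_normalize y hy
    have hunit : IsUnit (⟨u.1, u.2⟩ : rvValSubring H) := by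
      by_contra h
      exact hu ((rvRedVal_eq_zero_iff H ⟨u.1, u.2⟩).mpr h)
    refine ⟨c, hc0, hunit.unit, ?_⟩
    rw [hfu]
    rfl
  red_const := by
    intro a ha
    obtain ⟨yp, ym, hm, hp, h⟩ := ha
    obtain ⟨i, hi⟩ := H.exists_isUnit_coeff hm.2.2
    have hC : ((algebraMap L ↥(rvFL L N) a : ↥(rvFL L N)) : LaurentSeries L)
        = HahnSeries.C a := rv_algebraMap_eq_C a
    have hcoef : a * (ym.coeff i : L) = (yp.coeff i : L) := by
      have := congrArg (fun s => HahnSeries.coeff s i) h
      simp only [hC, rv_coeff_C_mul, rvIota_coeff] at this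
      exact this
    obtain ⟨v, hv⟩ := hi
    have haA : a ∈ A := by
      have hv0 : ((v : A) : L) ≠ 0 := by
        intro h0
        have : (v : A) = 0 := Subtype.ext h0
        exact v.ne_zero this
      have : a = (yp.coeff i : L) * (((v⁻¹ : Aˣ) : A) : L) := by
        have h1 : ((v : A) : L) * (((v⁻¹ : Aˣ) : A) : L) = 1 := by
          have h2 : (v : A) * ((v⁻¹ : Aˣ) : A) = 1 := Units.mul_inv v
          have h3 := congrArg (fun z : A => (z : L)) h2
          exact h3
        rw [← hcoef, ← hv, mul_assoc, h1, mul_one]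
      rw [this]
      exact A.mul_mem _ _ (yp.coeff i).2 ((v⁻¹ : Aˣ) : A).2
    exact ⟨π ⟨a, haA⟩, rvRed_algebraMap (A := A) (π := π) (N := N) ⟨a, haA⟩⟩
  r := r
  ord_red := by
    intro u D hD Q
    exact H.mapDomain_eq (toRv H (u : rvValSubring H))
      (fun h0 => ((rvRedVal_eq_zero_iff H (u : rvValSubring H)).mp h0) u.isUnit) D hD Q

end Adapter

/-- **CORE-cd**: helper87's `LeadingTermStatement`. -/
theorem leadingTermStatement : Fermat.Agent.H87.ESD.LeadingTermStatement := by
  intro L _ _ A k _ π N r H hPD hdeg T hRL hNS hcoord hP0 m hm D hD hmD hrD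
  haveI := hPD
  refine (reductionSetupOfRvHyp H).principal_of_torsion hdeg T hRL hNS ?_ hP0 m ?_ D hD hmD hrD
  · intro Q hQ
    obtain ⟨P, hP, t, h1, h2, h3⟩ := hcoord Q hQ
    exact ⟨P, hP, ⟨t.1, t.2⟩, h1, h2, h3⟩
  · intro h
    apply hm
    have h1 : algebraMap k ↥(rvFk k N) (m : k) = 0 := by
      rw [map_natCast]; exact h
    exact (map_eq_zero _).mp h1

end

end Fermat.Agent.H57
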