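import Mathlib

/-!
# Sophie Germain's theorem (first case of Fermat's Last Theorem)

Generic statement with an auxiliary prime `q`, and the instances `p = 5, 7, 11, 13`
(auxiliary primes `11, 29, 23, 53`).
-/

namespace Fermat.Agent.H57

open Finset

/-- The cofactor `(y ^ p + z ^ p) / (y + z)`, as an explicit sum. -/
def sgPhi {R : Type*} [CommRing R] (p : ℕ) (y z : R) : R :=
  ∑ i ∈ Finset.range p, y ^ i * (-z) ^ (p - 1 - i)

lemma sgPhi_mul {R : Type*} [CommRing R] {p : ℕ} (hp : Odd p) (y z : R) :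
    sgPhi p y z * (y + z) = y ^ p + z ^ p := by
  have h := geom_sum₂_mul y (-z) p
  rw [sub_neg_eq_add] at h
  rw [sgPhi, h, hp.neg_pow, sub_neg_eq_add]

lemma map_sgPhi {R S : Type*} [CommRing R] [CommRing S] (f : R →+* S) (p : ℕ) (y z : R) :
    f (sgPhi p y z) = sgPhi p (f y) (f z) := by
  simp [sgPhi, map_sum]

lemma sgPhi_of_add_eq_zero {R : Type*} [CommRing R] (p : ℕ) {y z : R} (h : y + z = 0) :
    sgPhi p y z = p * y ^ (p - 1) := by
  have hz : -z = y := by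
    rw [neg_eq_iff_add_eq_zero, add_comm]; exact h
  rw [sgPhi, hz]
  have : ∀ i ∈ Finset.range p, y ^ i * y ^ (p - 1 - i) = y ^ (p - 1) := by
    intro i hi
    rw [← pow_add]
    congr 1
    have := Finset.mem_range.mp hi
    omega
  rw [Finset.sum_congr rfl this]
  simp

lemma sgPhi_zero_left {R : Type*} [CommRing R] {p : ℕ} (hp : Odd p) (y : R) :
    sgPhi p 0 y = y ^ (p - 1) := by
  obtain ⟨k, rfl⟩ := hp
  rw [sgPhi, Finset.sum_range_succ']
  have : ∀ i ∈ Finset.range (2 * k), (0 : R) ^ (i + 1) * (-y) ^ (2 * k + 1 - 1 - (i + 1)) = 0 := by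
    intro i _
    rw [pow_succ, mul_zero, zero_mul]
  rw [Finset.sum_congr rfl this]
  simp only [Finset.sum_const_zero, zero_add, pow_zero, one_mul, Nat.add_sub_cancel, Nat.sub_zero]
  exact (even_two_mul k).neg_pow y

lemma isCoprime_add_sgPhi {p : ℕ} (hp : p.Prime) (hp2 : p ≠ 2) {y z : ℤ} (hyz : IsCoprime y z)
    (hpx : ¬ (p : ℤ) ∣ y ^ p + z ^ p) : IsCoprime (y + z) (sgPhi p y z) := by
  have hodd : Odd p := hp.odd_of_ne_two hp2
  apply isCoprime_of_prime_dvd
  · rintro ⟨-, h2⟩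
    apply hpx
    rw [← sgPhi_mul hodd, h2, zero_mul]
    exact dvd_zero _
  · intro r hr hr1 hr2
    have key : r ∣ (p : ℤ) * y ^ (p - 1) := by
      have h := map_sgPhi (Ideal.Quotient.mk (Ideal.span {r})) p y z
      have hyz0 : (Ideal.Quotient.mk (Ideal.span {r})) y + (Ideal.Quotient.mk (Ideal.span {r})) z
          = 0 := by
        rw [← map_add, Ideal.Quotient.eq_zero_iff_dvd]
        exact hr1
      rw [sgPhi_of_add_eq_zero p hyz0] at h
      have h0 : (Ideal.Quotient.mk (Ideal.span {r})) (sgPhi p y z) = 0 :=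
        (Ideal.Quotient.eq_zero_iff_dvd _ _).mpr hr2
      rw [h0] at h
      rw [← Ideal.Quotient.eq_zero_iff_dvd, map_mul, map_pow, map_natCast]
      exact h.symm
    rcases hr.dvd_or_dvd key with h | h
    · have hpZ : Prime (p : ℤ) := Nat.prime_iff_prime_int.mp hp
      have hass : Associated r (p : ℤ) := (hr.dvd_prime_iff_associated hpZ).mp h
      have hpyz : (p : ℤ) ∣ y + z := hass.symm.dvd.trans hr1
      exact hpx (hpyz.trans (hodd.add_dvd_pow_add_pow y z))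
    · have hry : r ∣ y := hr.dvd_of_dvd_pow h
      have hrz : r ∣ z := by
        have := dvd_sub hr1 hry
        simpa using this
      exact hr.not_isUnit (hyz.isUnit_of_dvd' hry hrz)

lemma exists_pow_eq_add {p : ℕ} (hp : p.Prime) (hp2 : p ≠ 2) {x y z : ℤ} (hyz : IsCoprime y z)
    (h : x ^ p + y ^ p + z ^ p = 0) (hpx : ¬ (p : ℤ) ∣ x) :
    ∃ a α : ℤ, y + z = a ^ p ∧ sgPhi p y z = α ^ p := by
  have hodd : Odd p := hp.odd_of_ne_two hp2
  have hpZ : Prime (p : ℤ) := Nat.prime_iff_prime_int.mp hp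
  have hsum : y ^ p + z ^ p = (-x) ^ p := by
    rw [hodd.neg_pow]; linarith
  have hpx' : ¬ (p : ℤ) ∣ y ^ p + z ^ p := by
    rw [hsum]
    intro hd
    exact hpx ((dvd_neg.mp (hpZ.dvd_of_dvd_pow hd)))
  have hcop := isCoprime_add_sgPhi hp hp2 hyz hpx'
  have hmul : (y + z) * sgPhi p y z = (-x) ^ p := by
    rw [mul_comm, sgPhi_mul hodd, hsum]
  obtain ⟨a, ha⟩ := Int.eq_pow_of_mul_eq_pow_odd_left hcop hodd hmul
  obtain ⟨α, hα⟩ := Int.eq_pow_of_mul_eq_pow_odd_right hcop hodd hmul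
  exact ⟨a, α, ha, hα⟩

lemma sg_core {p q : ℕ} (hp : p.Prime) (hp2 : p ≠ 2) [Fact q.Prime]
    (h1 : ∀ x y z : ZMod q, x ^ p + y ^ p + z ^ p = 0 → x = 0 ∨ y = 0 ∨ z = 0)
    (h2 : ∀ x : ZMod q, x ^ p ≠ (p : ZMod q))
    {x y z : ℤ} (hxy : IsCoprime x y) (hyz : IsCoprime y z) (hzx : IsCoprime z x)
    (h : x ^ p + y ^ p + z ^ p = 0)
    (hpx : ¬ (p : ℤ) ∣ x) (hpy : ¬ (p : ℤ) ∣ y) (hpz : ¬ (p : ℤ) ∣ z)
    (hqx : (q : ℤ) ∣ x) : False := by
  have hodd : Odd p := hp.odd_of_ne_two hp2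
  have hqZ : Prime (q : ℤ) := Nat.prime_iff_prime_int.mp (Fact.out : q.Prime)
  obtain ⟨a, α, ha, hα⟩ := exists_pow_eq_add hp hp2 hyz h hpx
  obtain ⟨b, -, hb, -⟩ := exists_pow_eq_add hp hp2 hzx (by linarith : y ^ p + z ^ p + x ^ p = 0) hpy
  obtain ⟨c, γ, hc, hγ⟩ := exists_pow_eq_add hp hp2 hxy (by linarith : z ^ p + x ^ p + y ^ p = 0) hpz
  have hx0 : (x : ZMod q) = 0 := (ZMod.intCast_zmod_eq_zero_iff_dvd x q).mpr hqx
  have hy0 : (y : ZMod q) ≠ 0 := fun hy =>
    hqZ.not_isUnit (hxy.isUnit_of_dvd' hqx ((ZMod.intCast_zmod_eq_zero_iff_dvd y q).mp hy))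
  have hz0 : (z : ZMod q) ≠ 0 := fun hz =>
    hqZ.not_isUnit (hzx.isUnit_of_dvd' ((ZMod.intCast_zmod_eq_zero_iff_dvd z q).mp hz) hqx)
  have ha' : (y : ZMod q) + (z : ZMod q) = (a : ZMod q) ^ p := by
    have := congrArg (Int.cast : ℤ → ZMod q) ha
    push_cast at this
    exact this
  have hb' : (z : ZMod q) + (x : ZMod q) = (b : ZMod q) ^ p := by
    have := congrArg (Int.cast : ℤ → ZMod q) hb
    push_cast at this
    exact this
  have hc' : (x : ZMod q) + (y : ZMod q) = (c : ZMod q) ^ p := by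
    have := congrArg (Int.cast : ℤ → ZMod q) hc
    push_cast at this
    exact this
  have hα' : sgPhi p (y : ZMod q) (z : ZMod q) = (α : ZMod q) ^ p := by
    have := congrArg (Int.castRingHom (ZMod q)) hα
    rw [map_sgPhi, map_pow] at this
    simpa using this
  have hγ' : sgPhi p (x : ZMod q) (y : ZMod q) = (γ : ZMod q) ^ p := by
    have := congrArg (Int.castRingHom (ZMod q)) hγ
    rw [map_sgPhi, map_pow] at this
    simpa using this
  have hsum : (c : ZMod q) ^ p + (b : ZMod q) ^ p + (-(a : ZMod q)) ^ p = 0 := by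
    rw [hodd.neg_pow, ← ha', ← hb', ← hc', hx0]
    ring
  have hp0 : p ≠ 0 := hp.ne_zero
  rcases h1 _ _ _ hsum with hc0 | hb0 | ha0
  · rw [hc0, zero_pow hp0, hx0, zero_add] at hc'
    exact hy0 hc'
  · rw [hb0, zero_pow hp0, hx0, add_zero] at hb'
    exact hz0 hb'
  · have ha0' : (a : ZMod q) = 0 := neg_eq_zero.mp ha0
    rw [ha0', zero_pow hp0] at ha'
    rw [sgPhi_of_add_eq_zero p ha'] at hα'
    rw [hx0, sgPhi_zero_left hodd] at hγ'
    have hγ0 : (γ : ZMod q) ^ p ≠ 0 := by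
      rw [← hγ']
      exact pow_ne_zero _ hy0
    apply h2 ((α : ZMod q) * ((γ : ZMod q))⁻¹)
    rw [mul_pow, inv_pow, ← hα', hγ', mul_assoc, mul_inv_cancel₀ hγ0, mul_one]

/-- **Sophie Germain's theorem**, generic form with an auxiliary prime `q`. -/
theorem sophie_germain {p q : ℕ} (hp : p.Prime) (hp2 : p ≠ 2) [Fact q.Prime]
    (h1 : ∀ x y z : ZMod q, x ^ p + y ^ p + z ^ p = 0 → x = 0 ∨ y = 0 ∨ z = 0)
    (h2 : ∀ x : ZMod q, x ^ p ≠ (p : ZMod q))
    {x y z : ℤ} (hxy : IsCoprime x y) (hyz : IsCoprime y z) (hzx : IsCoprime z x)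
    (h : x ^ p + y ^ p + z ^ p = 0) : (p : ℤ) ∣ x * y * z := by
  by_contra hcon
  have hpx : ¬ (p : ℤ) ∣ x := fun hh => hcon (dvd_mul_of_dvd_left (dvd_mul_of_dvd_left hh _) _)
  have hpy : ¬ (p : ℤ) ∣ y := fun hh => hcon (dvd_mul_of_dvd_left (dvd_mul_of_dvd_right hh _) _)
  have hpz : ¬ (p : ℤ) ∣ z := fun hh => hcon (dvd_mul_of_dvd_right hh _)
  have hq : (x : ZMod q) ^ p + (y : ZMod q) ^ p + (z : ZMod q) ^ p = 0 := by
    have := congrArg (Int.cast : ℤ → ZMod q) h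
    push_cast at this
    exact this
  rcases h1 _ _ _ hq with hx | hy | hz
  · exact sg_core hp hp2 h1 h2 hxy hyz hzx h hpx hpy hpz
      ((ZMod.intCast_zmod_eq_zero_iff_dvd x q).mp hx)
  · exact sg_core hp hp2 h1 h2 hyz hzx hxy (by linarith) hpy hpz hpx
      ((ZMod.intCast_zmod_eq_zero_iff_dvd y q).mp hy)
  · exact sg_core hp hp2 h1 h2 hzx hxy hyz (by linarith) hpz hpx hpy
      ((ZMod.intCast_zmod_eq_zero_iff_dvd z q).mp hz)

/-- Coprimality of `b` and `c` from coprimality of `a` and `b` in a Fermat equation. -/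
lemma isCoprime_of_fermat_eq {p : ℕ} (hp0 : p ≠ 0) {a b c : ℤ} (hab : IsCoprime a b)
    (h : a ^ p + b ^ p = c ^ p) : IsCoprime b c ∧ IsCoprime c a := by
  constructor
  · apply isCoprime_of_prime_dvd
    · rintro ⟨rfl, rfl⟩
      rw [zero_pow hp0, add_zero, pow_eq_zero_iff hp0] at h
      subst h
      exact not_isCoprime_zero_zero hab
    · intro r hr hrb hrc
      have hra : r ∣ a := by
        apply hr.dvd_of_dvd_pow (n := p)
        have : a ^ p = c ^ p - b ^ p := by linarith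
        rw [this]
        exact dvd_sub (dvd_pow hrc hp0) (dvd_pow hrb hp0)
      exact hr.not_isUnit (hab.isUnit_of_dvd' hra hrb)
  · apply isCoprime_of_prime_dvd
    · rintro ⟨rfl, rfl⟩
      rw [zero_pow hp0, zero_add, pow_eq_zero_iff hp0] at h
      subst h
      exact not_isCoprime_zero_zero hab
    · intro r hr hrc hra
      have hrb : r ∣ b := by
        apply hr.dvd_of_dvd_pow (n := p)
        have : b ^ p = c ^ p - a ^ p := by linarith
        rw [this]
        exact dvd_sub (dvd_pow hrc hp0) (dvd_pow hra hp0)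
      exact hr.not_isUnit (hab.isUnit_of_dvd' hra hrb)

/-- First case of FLT from the two Sophie Germain conditions, in the shape
`a ^ p + b ^ p = c ^ p`. -/
theorem caseI_of_aux {p q : ℕ} (hp : p.Prime) (hp2 : p ≠ 2) [Fact q.Prime]
    (h1 : ∀ x y z : ZMod q, x ^ p + y ^ p + z ^ p = 0 → x = 0 ∨ y = 0 ∨ z = 0)
    (h2 : ∀ x : ZMod q, x ^ p ≠ (p : ZMod q))
    (a b c : ℤ) (hab : IsCoprime a b) (h : a ^ p + b ^ p = c ^ p) : (p : ℤ) ∣ a * b * c := by
  have hodd : Odd p := hp.odd_of_ne_two hp2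
  obtain ⟨hbc, hca⟩ := isCoprime_of_fermat_eq hp.ne_zero hab h
  have h' : a ^ p + b ^ p + (-c) ^ p = 0 := by
    rw [hodd.neg_pow]; linarith
  have := sophie_germain hp hp2 h1 h2 hab hbc.neg_right hca.neg_left h'
  rw [mul_neg, dvd_neg] at this
  exact this


/-! ### Instances -/

section Instances

instance factPrimeEleven : Fact (Nat.Prime 11) := ⟨by norm_num⟩
instance factPrimeTwentyNine : Fact (Nat.Prime 29) := ⟨by norm_num⟩
instance factPrimeTwentyThree : Fact (Nat.Prime 23) := ⟨by norm_num⟩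
instance factPrimeFiftyThree : Fact (Nat.Prime 53) := ⟨by norm_num⟩

/-- Generic way to check the first Sophie Germain condition from a finite set `T`
containing all nonzero `p`-th powers. -/
lemma sg_cond_one {p q : ℕ} (T : Finset (ZMod q))
    (hT : ∀ x : ZMod q, x = 0 ∨ x ^ p ∈ T)
    (hsum : ∀ u ∈ T, ∀ v ∈ T, ∀ w ∈ T, u + v + w ≠ 0) :
    ∀ x y z : ZMod q, x ^ p + y ^ p + z ^ p = 0 → x = 0 ∨ y = 0 ∨ z = 0 := by
  intro x y z h
  rcases hT x with hx | hx
  · exact Or.inl hx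
  rcases hT y with hy | hy
  · exact Or.inr (Or.inl hy)
  rcases hT z with hz | hz
  · exact Or.inr (Or.inr hz)
  exact absurd h (hsum _ hx _ hy _ hz)

theorem caseI_five : ∀ a b c : ℤ, IsCoprime a b → a ^ 5 + b ^ 5 = c ^ 5 →
    ((5 : ℕ) : ℤ) ∣ a * b * c :=
  caseI_of_aux (q := 11) (by norm_num) (by norm_num)
    (sg_cond_one ({1, -1} : Finset (ZMod 11)) (by decide) (by decide)) (by decide)

theorem caseI_seven : ∀ a b c : ℤ, IsCoprime a b → a ^ 7 + b ^ 7 = c ^ 7 →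
    ((7 : ℕ) : ℤ) ∣ a * b * c :=
  caseI_of_aux (q := 29) (by norm_num) (by norm_num)
    (sg_cond_one ({1, -1, 12, -12} : Finset (ZMod 29)) (by decide) (by decide)) (by decide)

theorem caseI_eleven : ∀ a b c : ℤ, IsCoprime a b → a ^ 11 + b ^ 11 = c ^ 11 →
    ((11 : ℕ) : ℤ) ∣ a * b * c :=
  caseI_of_aux (q := 23) (by norm_num) (by norm_num)
    (sg_cond_one ({1, -1} : Finset (ZMod 23)) (by decide) (by decide)) (by decide)

set_option maxRecDepth 100000 in
theorem caseI_thirteen : ∀ a b c : ℤ, IsCoprime a b → a ^ 13 + b ^ 13 = c ^ 13 →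
    ((13 : ℕ) : ℤ) ∣ a * b * c :=
  caseI_of_aux (q := 53) (by norm_num) (by norm_num)
    (sg_cond_one ({1, -1, 23, -23} : Finset (ZMod 53)) (by decide) (by decide)) (by decide)

/-- Literal-numeral forms. -/
theorem caseI_five' (a b c : ℤ) (hab : IsCoprime a b) (h : a ^ 5 + b ^ 5 = c ^ 5) :
    (5 : ℤ) ∣ a * b * c := by
  simpa using caseI_five a b c hab h

theorem caseI_seven' (a b c : ℤ) (hab : IsCoprime a b) (h : a ^ 7 + b ^ 7 = c ^ 7) :
    (7 : ℤ) ∣ a * b * c := by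
  simpa using caseI_seven a b c hab h

theorem caseI_eleven' (a b c : ℤ) (hab : IsCoprime a b) (h : a ^ 11 + b ^ 11 = c ^ 11) :
    (11 : ℤ) ∣ a * b * c := by
  simpa using caseI_eleven a b c hab h

theorem caseI_thirteen' (a b c : ℤ) (hab : IsCoprime a b) (h : a ^ 13 + b ^ 13 = c ^ 13) :
    (13 : ℤ) ∣ a * b * c := by
  simpa using caseI_thirteen a b c hab h

/-- Uniform statement for `p ∈ {5, 7, 11, 13}` with `p` a variable (cast form). -/
theorem caseI_small {p : ℕ} (hp : p = 5 ∨ p = 7 ∨ p = 11 ∨ p = 13) (a b c : ℤ)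
    (hab : IsCoprime a b) (h : a ^ p + b ^ p = c ^ p) : (p : ℤ) ∣ a * b * c := by
  rcases hp with rfl | rfl | rfl | rfl
  · exact caseI_five a b c hab h
  · exact caseI_seven a b c hab h
  · exact caseI_eleven a b c hab h
  · exact caseI_thirteen a b c hab h

end Instances

end Fermat.Agent.H57
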